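import Fermat.Agent.H01.SysNew

/-!
# Newforms of level exactly divisible by `p` are strictly ordinary at `p`
-/

set_option autoImplicit false
set_option linter.style.haveILetI false
set_option linter.unusedSectionVars false
set_option maxSynthPendingDepth 3

noncomputable section

open AlgebraicCurve ModularCurve CongruenceSubgroup

namespace Fermat.Agent.Strict

open Fermat.Agent.H26 Fermat.Agent.H05
open Polynomial (X C)

local notation "Qb" => AlgebraicClosure ℚ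
local notation "Γℚ" => AlgebraicClosure ℚ ≃ₐ[ℚ] AlgebraicClosure ℚ

theorem isUnit_det_sub_one {T : Type} [CommRing T] [IsLocalRing T] {ρ : GaloisRepAdic T} {p : ℕ}
    (hp : p.Prime) (hdet : ρ.DetIsCyclotomic p) {σ : Γℚ} {ξ : Qb} (hξ : ξ ^ p = 1)
    (hσ : σ ξ ≠ ξ) : IsUnit (LinearMap.det (ρ.ρ σ) - 1) := by
  obtain ⟨ζ, hζ⟩ := exists_primitive hp 1
  rw [pow_one] at hζ
  haveI : NeZero p := ⟨hp.ne_zero⟩
  obtain ⟨a, -, ha⟩ := hζ.eq_pow_of_pow_eq_one (ξ := σ ζ) (by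
    rw [← map_pow, hζ.pow_eq_one, map_one])
  have hact : ∀ μ : Qb, μ ^ p ^ 1 = 1 → σ μ = μ ^ a := by
    intro μ hμ
    rw [pow_one] at hμ
    obtain ⟨i, -, rfl⟩ := hζ.eq_pow_of_pow_eq_one hμ
    rw [map_pow, ← ha, ← pow_mul, ← pow_mul, mul_comm]
  have h1 : IsUnit ((a : T) - 1) := by
    refine isUnit_natCast_sub_one hp hdet.1 a fun hdvd => hσ ?_
    have h2 := hact ξ (by rw [pow_one]; exact hξ)
    obtain ⟨d, hd⟩ := hdvd
    have hξ0 : ξ ≠ 0 := by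
      rintro rfl
      rw [zero_pow hp.ne_zero] at hξ
      exact zero_ne_one hξ
    rw [h2]
    have h4 : ξ ^ (a : ℤ) = ξ ^ (1 : ℤ) := by
      have : (a : ℤ) = p * d + 1 := by omega
      rw [this, zpow_add₀ hξ0, zpow_mul, zpow_natCast, hξ, one_zpow, one_mul]
    rwa [zpow_natCast, zpow_one] at h4
  have h2 := hdet.2 1 σ a hact
  rw [pow_one, Ideal.mem_span_singleton] at h2
  by_contra h3
  have h4 : LinearMap.det (ρ.ρ σ) - 1 ∈ IsLocalRing.maximalIdeal T :=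
    (IsLocalRing.mem_maximalIdeal _).mpr h3
  obtain ⟨y, hy⟩ := h2
  have h5 : LinearMap.det (ρ.ρ σ) - (a : T) ∈ IsLocalRing.maximalIdeal T := by
    rw [hy]
    exact Ideal.mul_mem_right _ _ hdet.1
  have h6 := sub_mem h4 h5
  have h7 : LinearMap.det (ρ.ρ σ) - 1 - (LinearMap.det (ρ.ρ σ) - (a : T)) = (a : T) - 1 := by ring
  rw [h7] at h6
  exact (IsLocalRing.mem_maximalIdeal _).mp h6 h1

/-- **The square of Frobenius is trivial on the unramified quotient of a `p`-new system.** -/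
theorem zc_sq_of_new {M p : ℕ} [NeZero M] [hp : Fact p.Prime] (hp2 : p ≠ 2)
    (hpM : Nat.Coprime p M) {S : Finset ℕ} (hNS : ∀ q : ℕ, q.Prime → q ∣ M * p → q ∈ S)
    {T : Type} [CommRing T] [IsLocalRing T] [IsHausdorff (IsLocalRing.maximalIdeal T) T]
    (hpT : (p : T) ∈ IsLocalRing.maximalIdeal T)
    (ρ : GaloisRepAdic T) (habs : ρ.residual.IsAbsolutelyIrreducible)
    (hdet : ρ.DetIsCyclotomic p)
    (π : CuspForm.heckeAlgebra (M * p) 2 (↑S : Set ℕ) →+* T)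
    (hfrob : ∀ (ℓ : ℕ) (hℓ : ℓ.Prime) (hℓN : ¬ ℓ ∣ M * p) (hℓS : ℓ ∉ (↑S : Set ℕ)),
      ∀ A : ValuationSubring (AlgebraicClosure ℚ), A.LiesOverPrime ℓ →
        ∀ σ : Γℚ, A.IsFrobeniusAt σ ℓ → LinearMap.charpoly (ρ.ρ σ) =
          X ^ 2 - C (π (CuspForm.heckeAlgebra.T hℓ hℓN hℓS)) * X + C ((ℓ : T)))
    {A : ValuationSubring Qb} (hA : A.LiesOverPrime p)
    {b : Module.Basis (Fin 2) T ρ.V} (hb : OrdLine b A)
    (t₀ : awayPoly (↑S : Set ℕ)) (ht₀ : CuspForm.heckeEvalForms M 2 (t₀ : HeckeAlg) = 0)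
    {φ : Γℚ} (hφ : A.IsFrobeniusAt φ p) :
    ∃ e : ℕ, 0 < e ∧
      (e : T) * π (awayEval (M * p) (↑S : Set ℕ) t₀) * (zc b φ ^ 2 - 1) = 0 := by
  have hNS' : ∀ q : ℕ, q.Prime → q ∣ M * p → q ∈ (↑S : Set ℕ) := fun q hq h => by
    exact_mod_cast hNS q hq h
  have hpS := hNS p hp.out (dvd_mul_left p M)
  obtain ⟨e, he, hex⟩ := exists_ordModule_new hp2 hpM hNS'
  obtain ⟨σ₀, hσ₀, ξ, hξ1, hξ2⟩ := exists_inertia_moves hp.out hp2 hA
  have hunit := isUnit_det_sub_one hp.out hdet hξ1 hξ2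
  have hspan := span_range_eq_top_of_residual_absIrr ρ habs
  refine ⟨e, he, ?_⟩
  have key := relation_of_sys hp.out hpT haus_of hspan (isMaximal_comap hp.out hpT π) hb hσ₀ hunit
    hφ.mem_decompositionSubgroup (c₀ := 0) (d₀ := -1)
    (t := (e : CuspForm.heckeAlgebra (M * p) 2 (↑S : Set ℕ)) * awayEval (M * p) (↑S : Set ℕ) t₀)
    (fun n hn => by
      obtain ⟨Mod, hMod⟩ := hex hA n hn
      refine ⟨toSys hp.out hpS hNS hpT ρ π hfrob Mod, ?_, ?_, ?_⟩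
      · intro w _
        change Mod.act 0 w ∈ Mod.K
        rw [map_zero]
        exact Mod.K.zero_mem
      · intro w hw
        change Mod.act (-1) w ∈ Mod.K
        rw [map_neg, map_one]
        exact Mod.K.neg_mem hw
      · intro w
        have h1 := hMod t₀ ht₀ φ hφ w
        change Mod.r φ (Mod.r φ (Mod.act _ w)) - Mod.act 0 (Mod.r φ (Mod.act _ w)) +
          Mod.act (-1) (Mod.act _ w) ∈ Mod.K
        rw [map_zero, map_neg, map_one, LinearMap.zero_apply, sub_zero, LinearMap.neg_apply,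
          Module.End.one_apply, ← sub_eq_add_neg]
        exact h1)
  rw [map_zero, zero_mul, sub_zero, map_neg, map_one, ← sub_eq_add_neg, map_mul,
    map_natCast] at key
  exact key

/-- **Strict ordinarity, system version.** -/
theorem isStrictOrdinaryAt_of_newSystem {M p : ℕ} [NeZero M] [hp : Fact p.Prime] (hp2 : p ≠ 2)
    (hpM : Nat.Coprime p M) {S : Finset ℕ} (hNS : ∀ q : ℕ, q.Prime → q ∣ M * p → q ∈ S)
    {T : Type} [CommRing T] [IsLocalRing T] [IsHausdorff (IsLocalRing.maximalIdeal T) T]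
    (hpT : (p : T) ∈ IsLocalRing.maximalIdeal T)
    (ρ : GaloisRepAdic T) (habs : ρ.residual.IsAbsolutelyIrreducible)
    (hdet : ρ.DetIsCyclotomic p)
    (π : CuspForm.heckeAlgebra (M * p) 2 (↑S : Set ℕ) →+* T)
    (hfrob : ∀ (ℓ : ℕ) (hℓ : ℓ.Prime) (hℓN : ¬ ℓ ∣ M * p) (hℓS : ℓ ∉ (↑S : Set ℕ)),
      ∀ A : ValuationSubring (AlgebraicClosure ℚ), A.LiesOverPrime ℓ →
        ∀ σ : Γℚ, A.IsFrobeniusAt σ ℓ → LinearMap.charpoly (ρ.ρ σ) =
          X ^ 2 - C (π (CuspForm.heckeAlgebra.T hℓ hℓN hℓS)) * X + C ((ℓ : T)))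
    (hres : (GaloisRepAdic.ofResidualGaloisRep ρ.residual).IsOrdinaryAt p)
    (t₀ : awayPoly (↑S : Set ℕ)) (ht₀ : CuspForm.heckeEvalForms M 2 (t₀ : HeckeAlg) = 0)
    (hreg : ∀ (e : ℕ), 0 < e → ∀ x : T,
      (e : T) * π (awayEval (M * p) (↑S : Set ℕ) t₀) * x = 0 → x = 0) :
    ρ.IsStrictOrdinaryAt p := by
  have hNS' : ∀ q : ℕ, q.Prime → q ∣ M * p → q ∈ (↑S : Set ℕ) := fun q hq h => by
    exact_mod_cast hNS q hq h
  have hpS := hNS p hp.out (dvd_mul_left p M)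
  have hN : p ∣ M * p ∧ ¬ p ^ 2 ∣ M * p := by
    refine ⟨dvd_mul_left p M, fun h => ?_⟩
    rw [pow_two] at h
    have h1 := Nat.dvd_of_mul_dvd_mul_right hp.out.pos h
    exact (Nat.Prime.coprime_iff_not_dvd hp.out).mp hpM h1
  have hord := isOrdinaryAt_of_ordModules hp.out hp2 hpT hpS hNS ρ habs π hfrob hres
    (exists_ordModule hp.out hp2 hN hNS')
  refine isStrictOrdinaryAt_of hp.out haus_of hdet fun A hA => ?_
  obtain ⟨L, ⟨b, rfl⟩, hD, hI⟩ := hord A hA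
  obtain ⟨φ, hφ⟩ := exists_isFrobeniusAt hp.out hA
  have hb : OrdLine b A := ⟨hD, hI⟩
  refine ⟨b, hb, φ, hφ, ?_⟩
  obtain ⟨e, he, h⟩ := zc_sq_of_new hp2 hpM hNS hpT ρ habs hdet π hfrob hA hb t₀ ht₀ hφ
  exact sub_eq_zero.mp (hreg e he _ h)

/-- **Strict ordinarity for newforms of level exactly divisible by `p`.** -/
theorem isStrictOrdinaryAt_of_newform {N p : ℕ} [NeZero N] (hp : p.Prime) (hp2 : p ≠ 2)
    (hN : p ∣ N ∧ ¬ p ^ 2 ∣ N) {g : CuspForm (CongruenceSubgroup.Gamma0 N) 2} (hg : g.IsNewform)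
    {S : Finset ℕ} (hNS : ∀ q : ℕ, q.Prime → q ∣ N → q ∈ S)
    {O' : Type} [CommRing O'] [IsDomain O'] [IsLocalRing O'] [IsNoetherianRing O']
    [IsHausdorff (IsLocalRing.maximalIdeal O') O'] [CharZero O']
    (hpO' : (p : O') ∈ IsLocalRing.maximalIdeal O')
    (chig : CuspForm.heckeAlgebra N 2 (↑S : Set ℕ) →+* ℂ)
    (hchig : ∀ (ℓ : ℕ) (hℓ : ℓ.Prime) (hℓM : ¬ ℓ ∣ N) (hℓS : ℓ ∉ (↑S : Set ℕ)),
      chig (CuspForm.heckeAlgebra.T hℓ hℓM hℓS) = ModularFormClass.qCoeff g ℓ)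
    (iota : chig.range →+* O')
    (ρ : GaloisRepAdic O') (habs : ρ.residual.IsAbsolutelyIrreducible)
    (hfrob : ∀ (ℓ : ℕ) (hℓ : ℓ.Prime) (hℓN : ¬ ℓ ∣ N) (hℓS : ℓ ∉ (↑S : Set ℕ)),
      ∀ A : ValuationSubring (AlgebraicClosure ℚ), A.LiesOverPrime ℓ →
        ∀ σ : Γℚ, A.IsFrobeniusAt σ ℓ → LinearMap.charpoly (ρ.ρ σ) =
          X ^ 2 - C ((iota.comp chig.rangeRestrict) (CuspForm.heckeAlgebra.T hℓ hℓN hℓS)) * X +
            C ((ℓ : O')))
    (hres : (GaloisRepAdic.ofResidualGaloisRep ρ.residual).IsOrdinaryAt p) :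
    ρ.IsStrictOrdinaryAt p := by
  haveI : Fact p.Prime := ⟨hp⟩
  have hpS := hNS p hp hN.1
  obtain ⟨M, hM0, hcop, hM⟩ := exists_factor hp hN.1 hN.2
  haveI : NeZero M := ⟨hM0⟩
  have hdet := detIsCyclotomic_of_frob hp hpS hNS hpO' ρ (iota.comp chig.rangeRestrict) hfrob
  have hne : M ≠ N := by
    rw [hM]
    intro h
    have : M * 1 = M * p := by rw [mul_one]; exact h
    exact hp.one_lt.ne (Nat.eq_of_mul_eq_mul_left (Nat.pos_of_ne_zero hM0) this)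
  obtain ⟨t₀, ht₀S, ht₀, ht₀g⟩ := exists_separating hg (M := M) ⟨p, hM⟩ hne
    (S := (↑S : Set ℕ)) S.finite_toSet
  have hπ : (iota.comp chig.rangeRestrict) (awayEval N (↑S : Set ℕ) ⟨t₀, ht₀S⟩) ≠ 0 := by
    refine iota_ne_zero chig iota (awayEval N (↑S : Set ℕ) ⟨t₀, ht₀S⟩) ?_
    rw [chig_awayEval chig hchig hNS]
    exact ht₀g
  generalize hπd : iota.comp chig.rangeRestrict = π at hfrob hπ
  clear hchig hg ht₀g hπd
  clear iota
  clear chig g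
  subst hM
  refine isStrictOrdinaryAt_of_newSystem hp2 hcop hNS hpO' ρ habs hdet π hfrob hres ⟨t₀, ht₀S⟩ ht₀
    fun e he x hx => ?_
  have he0 : (e : O') ≠ 0 := by exact_mod_cast he.ne'
  exact (mul_eq_zero.mp hx).resolve_left (mul_ne_zero he0 hπ)

end Fermat.Agent.Strict
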