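import Fermat.Agent.H01.SysLev
import Fermat.Agent.H01.StrictNew

/-!
# Ordinary forms of level prime to `p`: the operator `T_p` and the unramified quotient
-/

set_option autoImplicit false
set_option linter.style.haveILetI false
set_option linter.unusedSectionVars false
set_option maxSynthPendingDepth 3

noncomputable section

open AlgebraicCurve ModularCurve CongruenceSubgroup

namespace Fermat.Agent.Strict

open Fermat.Agent.H26 Fermat.Agent.H05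
open Polynomial (X C)

local notation "Qb" => AlgebraicClosure ℚ
local notation "Γℚ" => AlgebraicClosure ℚ ≃ₐ[ℚ] AlgebraicClosure ℚ

theorem OrdLine.isUnit_zc {T : Type} [CommRing T] [IsLocalRing T] {ρ : GaloisRepAdic T}
    {A : ValuationSubring Qb} {b : Module.Basis (Fin 2) T ρ.V} (h : OrdLine b A) {σ : Γℚ}
    (hσ : σ ∈ A.decompositionSubgroup ℚ) : IsUnit (zc b σ) := by
  have h1 : zc b σ * zc b σ⁻¹ = 1 := by
    rw [← h.zc_mul hσ, mul_inv_cancel, zc_one]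
  exact IsUnit.of_mul_eq_one _ h1

variable {M p : ℕ} [NeZero M]

/-- **Ordinarity at levels prime to `p`** (the analogue of S33). -/
theorem isOrdinaryAt_of_lev (hp : p.Prime) (hp2 : p ≠ 2) (hpM : ¬ p ∣ M) {S : Finset ℕ}
    (hpS : p ∈ S) (hNS : ∀ q : ℕ, q.Prime → q ∣ M → q ∈ S)
    {T : Type} [CommRing T] [IsLocalRing T] [IsHausdorff (IsLocalRing.maximalIdeal T) T]
    (hpT : (p : T) ∈ IsLocalRing.maximalIdeal T)
    (ρ : GaloisRepAdic T) (habs : ρ.residual.IsAbsolutelyIrreducible)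
    (π : CuspForm.heckeAlgebra M 2 (↑S : Set ℕ) →+* T)
    (hfrob : ∀ (ℓ : ℕ) (hℓ : ℓ.Prime) (hℓN : ¬ ℓ ∣ M) (hℓS : ℓ ∉ (↑S : Set ℕ)),
      ∀ A : ValuationSubring (AlgebraicClosure ℚ), A.LiesOverPrime ℓ →
        ∀ σ : Γℚ, A.IsFrobeniusAt σ ℓ → LinearMap.charpoly (ρ.ρ σ) =
          X ^ 2 - C (π (CuspForm.heckeAlgebra.T hℓ hℓN hℓS)) * X + C ((ℓ : T)))
    (hres : (GaloisRepAdic.ofResidualGaloisRep ρ.residual).IsOrdinaryAt p) :
    ρ.IsOrdinaryAt p := by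
  haveI : Fact p.Prime := ⟨hp⟩
  exact isOrdinaryAt_of_ordModules hp hp2 hpT hpS hNS ρ habs π hfrob hres
    fun A hA n hn => exists_ordModule_lev hp2 ((Nat.Prime.coprime_iff_not_dvd hp).mpr hpM) hA n hn

/-- **(TP)** `T_p = z + p / z` for the unramified quotient character `z`. -/
theorem zc_relation_of_lev (hp : p.Prime) (hp2 : p ≠ 2) (hpM : ¬ p ∣ M) {S : Finset ℕ}
    (hpS : p ∉ (↑S : Set ℕ)) (hNS : ∀ q : ℕ, q.Prime → q ∣ M → q ∈ S)
    {T : Type} [CommRing T] [IsLocalRing T] [IsHausdorff (IsLocalRing.maximalIdeal T) T]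
    (hpT : (p : T) ∈ IsLocalRing.maximalIdeal T)
    (ρ : GaloisRepAdic T) (habs : ρ.residual.IsAbsolutelyIrreducible)
    (hdet : ρ.DetIsCyclotomic p)
    (π : CuspForm.heckeAlgebra M 2 (↑S : Set ℕ) →+* T)
    (hfrob : ∀ (ℓ : ℕ) (hℓ : ℓ.Prime) (hℓN : ¬ ℓ ∣ M) (hℓS : ℓ ∉ (↑S : Set ℕ)), ℓ ≠ p →
      ∀ A : ValuationSubring (AlgebraicClosure ℚ), A.LiesOverPrime ℓ →
        ∀ σ : Γℚ, A.IsFrobeniusAt σ ℓ → LinearMap.charpoly (ρ.ρ σ) =
          X ^ 2 - C (π (CuspForm.heckeAlgebra.T hℓ hℓN hℓS)) * X + C ((ℓ : T)))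
    {A : ValuationSubring Qb} (hA : A.LiesOverPrime p)
    {b : Module.Basis (Fin 2) T ρ.V} (hb : OrdLine b A)
    {φ : Γℚ} (hφ : A.IsFrobeniusAt φ p) :
    zc b φ ^ 2 - π (CuspForm.heckeAlgebra.T hp hpM hpS) * zc b φ + (p : T) = 0 := by
  haveI : Fact p.Prime := ⟨hp⟩
  obtain ⟨σ₀, hσ₀, ξ, hξ1, hξ2⟩ := exists_inertia_moves hp hp2 hA
  have hunit := isUnit_det_sub_one hp hdet hξ1 hξ2
  have hspan := span_range_eq_top_of_residual_absIrr ρ habs
  have key := relation_of_sys hp hpT haus_of hspan (isMaximal_comap hp hpT π) hb hσ₀ hunit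
    hφ.mem_decompositionSubgroup (c₀ := CuspForm.heckeAlgebra.T hp hpM hpS)
    (d₀ := (p : CuspForm.heckeAlgebra M 2 (↑S : Set ℕ))) (t := 1)
    (fun n hn => by
      obtain ⟨Mod, h1, h2, h3⟩ := exists_sys_lev hp2 ((Nat.Prime.coprime_iff_not_dvd hp).mpr hpM)
        hpT ρ π hNS hfrob hpM hpS hA hφ n hn
      refine ⟨Mod, h1, h2, fun w => ?_⟩
      rw [map_one, Module.End.one_apply]
      exact h3 w)
  rw [map_one, one_mul, map_natCast] at key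
  exact key

/-- **(TP), final form.** -/
theorem exists_ordLine_of_lev (hp : p.Prime) (hp2 : p ≠ 2) (hpM : ¬ p ∣ M) {S : Finset ℕ}
    (hpS : p ∉ (↑S : Set ℕ)) (hNS : ∀ q : ℕ, q.Prime → q ∣ M → q ∈ S)
    {T : Type} [CommRing T] [IsLocalRing T] [IsNoetherianRing T]
    [IsHausdorff (IsLocalRing.maximalIdeal T) T]
    (hpT : (p : T) ∈ IsLocalRing.maximalIdeal T)
    (ρ : GaloisRepAdic T) (habs : ρ.residual.IsAbsolutelyIrreducible)
    (π : CuspForm.heckeAlgebra M 2 (↑S : Set ℕ) →+* T)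
    (hfrob : ∀ (ℓ : ℕ) (hℓ : ℓ.Prime) (hℓN : ¬ ℓ ∣ M) (hℓS : ℓ ∉ (↑S : Set ℕ)), ℓ ≠ p →
      ∀ A : ValuationSubring (AlgebraicClosure ℚ), A.LiesOverPrime ℓ →
        ∀ σ : Γℚ, A.IsFrobeniusAt σ ℓ → LinearMap.charpoly (ρ.ρ σ) =
          X ^ 2 - C (π (CuspForm.heckeAlgebra.T hℓ hℓN hℓS)) * X + C ((ℓ : T)))
    (hres : (GaloisRepAdic.ofResidualGaloisRep ρ.residual).IsOrdinaryAt p)
    {A : ValuationSubring Qb} (hA : A.LiesOverPrime p) :
    ∃ b : Module.Basis (Fin 2) T ρ.V, OrdLine b A ∧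
      ∀ φ : Γℚ, A.IsFrobeniusAt φ p → IsUnit (zc b φ) ∧
        zc b φ ^ 2 - π (CuspForm.heckeAlgebra.T hp hpM hpS) * zc b φ + (p : T) = 0 := by
  classical
  have hsub : (↑S : Set ℕ) ⊆ (↑(insert p S) : Set ℕ) := by
    intro q hq
    rw [Finset.coe_insert]
    exact Set.mem_insert_of_mem _ hq
  have hNS' : ∀ q : ℕ, q.Prime → q ∣ M → q ∈ insert p S := fun q hq h =>
    Finset.mem_insert_of_mem (hNS q hq h)
  let ι : CuspForm.heckeAlgebra M 2 (↑(insert p S) : Set ℕ) →+*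
      CuspForm.heckeAlgebra M 2 (↑S : Set ℕ) :=
    (Subalgebra.inclusion (CuspForm.heckeAlgebra_mono hsub)).toRingHom
  have hι : ∀ (ℓ : ℕ) (hℓ : ℓ.Prime) (hℓN : ¬ ℓ ∣ M) (hℓS : ℓ ∉ (↑(insert p S) : Set ℕ)),
      ι (CuspForm.heckeAlgebra.T hℓ hℓN hℓS) =
        CuspForm.heckeAlgebra.T hℓ hℓN (fun h => hℓS (hsub h)) := fun ℓ hℓ hℓN hℓS => rfl
  have hne : ∀ ℓ : ℕ, ℓ ∉ (↑(insert p S) : Set ℕ) → ℓ ≠ p := by
    rintro ℓ hℓ rfl
    exact hℓ (by rw [Finset.coe_insert]; exact Set.mem_insert _ _)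
  have hfrob' : ∀ (ℓ : ℕ) (hℓ : ℓ.Prime) (hℓN : ¬ ℓ ∣ M)
      (hℓS : ℓ ∉ (↑(insert p S) : Set ℕ)),
      ∀ A : ValuationSubring (AlgebraicClosure ℚ), A.LiesOverPrime ℓ →
        ∀ σ : Γℚ, A.IsFrobeniusAt σ ℓ → LinearMap.charpoly (ρ.ρ σ) =
          X ^ 2 - C ((π.comp ι) (CuspForm.heckeAlgebra.T hℓ hℓN hℓS)) * X + C ((ℓ : T)) := by
    intro ℓ hℓ hℓN hℓS B hB σ hσ
    rw [RingHom.comp_apply, hι]
    exact hfrob ℓ hℓ hℓN _ (hne ℓ hℓS) B hB σ hσ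
  have hdet := detIsCyclotomic_of_frob hp (Finset.mem_insert_self p S) hNS' hpT ρ (π.comp ι) hfrob'
  have hord := isOrdinaryAt_of_lev hp hp2 hpM (Finset.mem_insert_self p S) hNS' hpT ρ habs
    (π.comp ι) hfrob' hres
  obtain ⟨L, ⟨b, rfl⟩, hD, hI⟩ := hord A hA
  have hb : OrdLine b A := ⟨hD, hI⟩
  exact ⟨b, hb, fun φ hφ => ⟨hb.isUnit_zc hφ.mem_decompositionSubgroup,
    zc_relation_of_lev hp hp2 hpM hpS hNS hpT ρ habs hdet π hfrob hA hb hφ⟩⟩

/-- **(SO), packaged form**: the quotient character of a `p`-new form is quadratic. -/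
theorem exists_ordLine_of_strict {p : ℕ} (hp : p.Prime) {T : Type} [CommRing T] [IsLocalRing T]
    [IsHausdorff (IsLocalRing.maximalIdeal T) T] {ρ : GaloisRepAdic T}
    (hdet : ρ.DetIsCyclotomic p) (hstr : ρ.IsStrictOrdinaryAt p)
    {A : ValuationSubring Qb} (hA : A.LiesOverPrime p) :
    ∃ b : Module.Basis (Fin 2) T ρ.V, OrdLine b A ∧
      ∀ σ ∈ A.decompositionSubgroup ℚ, zc b σ ^ 2 = 1 := by
  obtain ⟨L, ⟨b, rfl⟩, hD, hI, hxz⟩ := hstr.2 A hA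
  have hb : OrdLine b A := ⟨hD, hI⟩
  refine ⟨b, hb, fun σ hσ => ?_⟩
  obtain ⟨x, z, h1, h2, h3⟩ := hxz σ hσ
  have hb0 : b 0 ∈ T ∙ b 0 := Submodule.mem_span_singleton_self _
  have ex : x = xc b σ := by
    have h4 := (h1 (b 0) hb0).symm.trans (hb.smul_line hσ hb0)
    have h5 := congrArg (fun v => b.repr v 0) h4
    simp only [map_smul, Finsupp.smul_apply, b.repr_self, Finsupp.single_eq_same, smul_eq_mul,
      mul_one] at h5
    exact h5
  have ez : z = zc b σ := by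
    have h4 := (mem_line b).mp (h2 (b 1))
    rw [map_sub, Finsupp.sub_apply, map_smul, Finsupp.smul_apply, b.repr_self,
      Finsupp.single_eq_same, smul_eq_mul, mul_one, sub_eq_zero] at h4
    exact h4.symm
  have hdetσ := hb.det_eq hσ
  -- compare modulo `pⁿ`
  have key : ∀ n : ℕ, zc b σ ^ 2 - 1 ∈ Ideal.span {((p ^ (n + 1) : ℕ) : T)} := by
    intro n
    obtain ⟨ζ, hζ⟩ := exists_primitive hp (n + 1)
    haveI : NeZero (p ^ (n + 1)) := ⟨(pow_pos hp.pos _).ne'⟩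
    obtain ⟨a, -, ha⟩ := hζ.eq_pow_of_pow_eq_one (ξ := σ ζ) (by
      rw [← map_pow, hζ.pow_eq_one, map_one])
    have hact : ∀ μ : Qb, μ ^ p ^ (n + 1) = 1 → σ μ = μ ^ a := by
      intro μ hμ
      obtain ⟨i, -, rfl⟩ := hζ.eq_pow_of_pow_eq_one hμ
      rw [map_pow, ← ha, ← pow_mul, ← pow_mul, mul_comm]
    have h4 := h3 (n + 1) a hact
    have h5 := hdet.2 (n + 1) σ a hact
    rw [hdetσ] at h5
    rw [ex, ez] at h4
    -- `a` is a unit
    have hxu : IsUnit (LinearMap.det (ρ.ρ σ)) := by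
      have h6 : LinearMap.det (ρ.ρ σ) * LinearMap.det (ρ.ρ σ⁻¹) = 1 := by
        rw [← map_mul, ← map_mul, mul_inv_cancel, map_one, map_one]
      exact IsUnit.of_mul_eq_one _ h6
    have hau : IsUnit (a : T) := by
      by_contra hcon
      have h7 : (a : T) ∈ IsLocalRing.maximalIdeal T := (IsLocalRing.mem_maximalIdeal _).mpr hcon
      have h8 : xc b σ * zc b σ - a ∈ IsLocalRing.maximalIdeal T := by
        have h9 : Ideal.span {((p ^ (n + 1) : ℕ) : T)} ≤ IsLocalRing.maximalIdeal T := by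
          rw [Ideal.span_singleton_le_iff_mem, Nat.cast_pow, pow_succ]
          exact Ideal.mul_mem_left _ _ hdet.1
        exact h9 h5
      have h9 := add_mem h8 h7
      rw [sub_add_cancel, ← hdetσ] at h9
      exact (IsLocalRing.mem_maximalIdeal _).mp h9 hxu
    obtain ⟨u, hu⟩ := hau
    have h6 : zc b σ ^ 2 - 1 = (xc b σ * zc b σ - a) * (u⁻¹ : Tˣ) -
        (xc b σ - a * zc b σ) * (zc b σ * (u⁻¹ : Tˣ)) := by
      have h7 : (a : T) * (u⁻¹ : Tˣ) = 1 := by rw [← hu, Units.mul_inv]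
      linear_combination (1 - zc b σ ^ 2) * h7
    rw [h6]
    exact sub_mem (Ideal.mul_mem_right _ _ h5) (Ideal.mul_mem_right _ _ h4)
  rw [← sub_eq_zero]
  apply haus_of
  intro n
  have h7 : Ideal.span {((p ^ (n + 1) : ℕ) : T)} ≤ IsLocalRing.maximalIdeal T ^ n := by
    rw [Ideal.span_singleton_le_iff_mem, Nat.cast_pow]
    exact Ideal.pow_le_pow_right (Nat.le_succ n) (Ideal.pow_mem_pow hdet.1 _)
  exact h7 (key n)

end Fermat.Agent.Strict
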