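import Fermat.Agent.H01.Cusp
import Fermat.Prelude.Def_ModularCurve_LaurentCoeff
import Fermat.Prelude.Def_ModularCurve_X0

/-!
# The `q`-expansion of `j = E₄³ / Δ`
-/

set_option autoImplicit false

namespace Fermat.Agent.H01

open UpperHalfPlane Filter Topology ModularForm CongruenceSubgroup
open scoped Manifold MatrixGroups ModularForm

/-- The Taylor series at `0`. -/
noncomputable def taylor0 (f : ℂ → ℂ) : PowerSeries ℂ :=
  PowerSeries.mk fun m => ((m.factorial : ℂ))⁻¹ * iteratedDeriv m f 0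

lemma taylor0_congr {f g : ℂ → ℂ} (h : f =ᶠ[𝓝 0] g) : taylor0 f = taylor0 g := by
  ext m
  simp only [taylor0, PowerSeries.coeff_mk]
  rw [h.iteratedDeriv_eq]

lemma qExpansion_eq_taylor0 (w : ℝ) (f : ℍ → ℂ) : qExpansion w f = taylor0 (cuspFunction w f) :=
  rfl

lemma taylor0_mul {f g : ℂ → ℂ} (hf : AnalyticAt ℂ f 0) (hg : AnalyticAt ℂ g 0) :
    taylor0 (f * g) = taylor0 f * taylor0 g := by
  ext m
  simp only [taylor0, PowerSeries.coeff_mk, iteratedDeriv_mul hf.contDiffAt hg.contDiffAt,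
    Finset.mul_sum, PowerSeries.coeff_mul, Finset.Nat.sum_antidiagonal_eq_sum_range_succ_mk,
    Nat.succ_eq_add_one]
  refine Finset.sum_congr rfl fun i hi ↦ ?_
  rw [Nat.cast_choose _ (by grind)]
  field_simp [Nat.factorial_ne_zero]

lemma iteratedDeriv_polynomial (P : Polynomial ℂ) (m : ℕ) :
    iteratedDeriv m (fun x => P.eval x) = fun x => (Polynomial.derivative^[m] P).eval x := by
  induction m with
  | zero => simp
  | succ m ih =>
    rw [iteratedDeriv_succ, ih]
    ext x
    rw [Polynomial.deriv, Function.iterate_succ_apply']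

lemma taylor0_polynomial (P : Polynomial ℂ) : taylor0 (fun x => P.eval x) = P := by
  ext m
  simp only [taylor0, PowerSeries.coeff_mk, iteratedDeriv_polynomial]
  rw [← Polynomial.coeff_zero_eq_eval_zero, Polynomial.coeff_iterate_derivative, zero_add,
    Nat.descFactorial_self, nsmul_eq_mul, ← mul_assoc, inv_mul_cancel₀, one_mul,
    Polynomial.coeff_coe]
  exact_mod_cast m.factorial_ne_zero

lemma taylor0_id : taylor0 (fun x => x) = PowerSeries.X := by
  have := taylor0_polynomial Polynomial.X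
  simpa using this

lemma taylor0_one : taylor0 (1 : ℂ → ℂ) = 1 := by
  have := taylor0_polynomial 1
  simpa using! this

lemma taylor0_pow {f : ℂ → ℂ} (hf : AnalyticAt ℂ f 0) (n : ℕ) :
    taylor0 (f ^ n) = taylor0 f ^ n := by
  induction n with
  | zero => rw [pow_zero, pow_zero, taylor0_one]
  | succ n ih => rw [pow_succ, taylor0_mul (hf.pow n) hf, ih, pow_succ]

/-- Locally uniform convergence implies convergence of all Taylor coefficients. -/
lemma tendstoLocallyUniformlyOn_iteratedDeriv {ι : Type*} {φ : Filter ι} [φ.NeBot]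
    {F : ι → ℂ → ℂ} {f : ℂ → ℂ} {U : Set ℂ} (hU : IsOpen U)
    (hf : TendstoLocallyUniformlyOn F f φ U) (hF : ∀ i, DifferentiableOn ℂ (F i) U) (m : ℕ) :
    TendstoLocallyUniformlyOn (fun i => iteratedDeriv m (F i)) (iteratedDeriv m f) φ U ∧
      ∀ i, DifferentiableOn ℂ (iteratedDeriv m (F i)) U := by
  induction m with
  | zero => simpa using! ⟨hf, hF⟩
  | succ m ih =>
    constructor
    · simp only [iteratedDeriv_succ]
      exact ih.1.deriv (Eventually.of_forall ih.2) hU
    · intro i
      rw [iteratedDeriv_succ]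
      exact (ih.2 i).deriv hU

/-- The Taylor series of the Euler product. -/
lemma taylor0_eulerProd :
    taylor0 (fun q => ∏' n : ℕ, (1 - q ^ (n + 1))) = PowerSeries.pentagonalSeries ℂ := by
  have h0 : (0 : ℂ) ∈ Metric.ball (0 : ℂ) 1 := Metric.mem_ball_self one_pos
  have hlim := (multipliableLocallyUniformlyOn_one_sub_pow).hasProdLocallyUniformlyOn
  have hlim' : TendstoLocallyUniformlyOn (fun (s : Finset ℕ) (q : ℂ) => ∏ n ∈ s, (1 - q ^ (n + 1)))
      (fun q => ∏' n : ℕ, (1 - q ^ (n + 1))) atTop (Metric.ball (0 : ℂ) 1) := by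
    simpa [HasProdLocallyUniformlyOn] using! hlim
  ext m
  have h1 := ((tendstoLocallyUniformlyOn_iteratedDeriv Metric.isOpen_ball hlim' (fun s => by
    exact DifferentiableOn.fun_finsetProd (fun _ _ => by fun_prop)) m).1.tendsto_at h0)
  have h2 : ∀ s : Finset ℕ, iteratedDeriv m (fun q : ℂ => ∏ n ∈ s, (1 - q ^ (n + 1))) 0 =
      (m.factorial : ℂ) * PowerSeries.coeff m (∏ n ∈ s, (1 - PowerSeries.X ^ (n + 1))) := by
    intro s
    have h3 := taylor0_polynomial (∏ n ∈ s, (1 - Polynomial.X ^ (n + 1)))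
    have h4 : (fun x : ℂ => (∏ n ∈ s, (1 - Polynomial.X ^ (n + 1)) : Polynomial ℂ).eval x) =
        fun q => ∏ n ∈ s, (1 - q ^ (n + 1)) := by
      ext x
      simp [Polynomial.eval_prod]
    rw [h4] at h3
    have h5 := congrArg (PowerSeries.coeff m) h3
    simp only [taylor0, PowerSeries.coeff_mk] at h5
    have h6 : ((∏ n ∈ s, (1 - Polynomial.X ^ (n + 1)) : Polynomial ℂ) : PowerSeries ℂ) =
        ∏ n ∈ s, (1 - PowerSeries.X ^ (n + 1)) := by
      rw [← Polynomial.coeToPowerSeries.ringHom_apply, map_prod]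
      refine Finset.prod_congr rfl fun n _ => ?_
      simp
    rw [h6] at h5
    rw [← h5, ← mul_assoc, mul_inv_cancel₀, one_mul]
    exact_mod_cast m.factorial_ne_zero
  have h3 : Tendsto (fun s : Finset ℕ =>
      iteratedDeriv m (fun q : ℂ => ∏ n ∈ s, (1 - q ^ (n + 1))) 0) atTop
      (𝓝 ((m.factorial : ℂ) * PowerSeries.coeff m (PowerSeries.pentagonalSeries ℂ))) := by
    apply tendsto_nhds_of_eventually_eq
    filter_upwards [PowerSeries.coeff_prod_one_sub_X_pow_eventually_eq ℂ m] with s hs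
    rw [h2, hs]
  have h4 := tendsto_nhds_unique h1 h3
  simp only [taylor0, PowerSeries.coeff_mk]
  rw [h4, ← mul_assoc, inv_mul_cancel₀, one_mul]
  exact_mod_cast m.factorial_ne_zero

lemma map_pentagonalSeries :
    (PowerSeries.pentagonalSeries ℤ).map (Int.castRingHom ℂ) = PowerSeries.pentagonalSeries ℂ := by
  ext m
  have h1 := PowerSeries.coeff_prod_one_sub_X_pow_eventually_eq ℤ m
  have h2 := PowerSeries.coeff_prod_one_sub_X_pow_eventually_eq ℂ m
  obtain ⟨s, hs1, hs2⟩ := (h1.and h2).exists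
  rw [PowerSeries.coeff_map, ← hs1, ← hs2, ← PowerSeries.coeff_map, map_prod]
  simp

open scoped PowerSeries.WithPiTopology in
lemma etaProd_eq : ModularCurve.etaProd = PowerSeries.pentagonalSeries ℤ :=
  PowerSeries.WithPiTopology.tprod_one_sub_X_pow ℤ

/-- The `q`-expansion of `Δ`. -/
theorem qExpansion_discriminant :
    qExpansion 1 ModularForm.discriminant =
      PowerSeries.X * ModularCurve.dedekindEtaUnit.map (Int.castRingHom ℂ) := by
  have h0 : (0 : ℂ) ∈ Metric.ball (0 : ℂ) 1 := Metric.mem_ball_self one_pos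
  have hanal : AnalyticAt ℂ (fun q : ℂ => ∏' n : ℕ, (1 - q ^ (n + 1))) 0 :=
    differentiableOn_tprod_one_sub_pow.analyticAt (Metric.isOpen_ball.mem_nhds h0)
  have h1 : cuspFunction 1 ModularForm.discriminant =ᶠ[𝓝 0]
      (fun q => q) * (fun q : ℂ => ∏' n : ℕ, (1 - q ^ (n + 1))) ^ 24 := by
    filter_upwards [Metric.isOpen_ball.mem_nhds h0] with q hq
    rw [discriminant_cuspFunction_eqOn hq]
    simp only [Pi.mul_apply, Pi.pow_apply]
    rw [(multipliable_one_sub_pow (by simpa using hq)).tprod_pow]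
  rw [qExpansion_eq_taylor0, taylor0_congr h1, taylor0_mul (show AnalyticAt ℂ (fun q : ℂ => q) 0 from analyticAt_id) (hanal.pow 24),
    taylor0_pow hanal, taylor0_id, taylor0_eulerProd, ModularCurve.dedekindEtaUnit, etaProd_eq,
    map_pow, map_pentagonalSeries]

/-- The `q`-expansion of `E₄`. -/
theorem qExpansion_E4 :
    qExpansion 1 ModularForm.E₄ = ModularCurve.eisenstein4.map (Int.castRingHom ℂ) := by
  ext m
  rw [EisensteinSeries.E_qExpansion_coeff (by norm_num) (by decide), PowerSeries.coeff_map,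
    ModularCurve.eisenstein4, PowerSeries.coeff_mk]
  have hb : bernoulli 4 = -1 / 30 := by
    rw [bernoulli_eq_bernoulli'_of_ne_one (by norm_num)]
    exact bernoulli'_four
  rw [hb]
  split_ifs with h
  · simp
  · rw [ArithmeticFunction.sigma_apply]
    push_cast
    norm_num

end Fermat.Agent.H01
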