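import Fermat.Agent.H01.RootH
import Fermat.Prelude.Thm_CongruenceSubgroup_one_mem_strictPeriods_Gamma0

/-!
# Quotients of modular forms as Laurent series
-/

set_option autoImplicit false

namespace Fermat.Agent.H01

open UpperHalfPlane Filter Topology ModularForm CongruenceSubgroup Matrix.SpecialLinearGroup
open scoped Manifold MatrixGroups ModularForm

/-- `f` is a modular form of weight `k` and level `Γ₀(N)`. -/
def IsMF (N : ℕ) (k : ℤ) (f : ℍ → ℂ) : Prop := ∃ A : ModularForm (Gamma0 N) k, ⇑A = f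

/-- The `q`-expansion as a Laurent series. -/
noncomputable def qLf (f : ℍ → ℂ) : LaurentSeries ℂ :=
  HahnSeries.ofPowerSeries ℤ ℂ (qExpansion 1 f)

/-- The `q`-expansion of a modular form as a Laurent series. -/
noncomputable def qL {N : ℕ} {k : ℤ} (A : ModularForm (Gamma0 N) k) : LaurentSeries ℂ :=
  HahnSeries.ofPowerSeries ℤ ℂ (qExpansion 1 A)

lemma qL_eq {N : ℕ} {k : ℤ} (A : ModularForm (Gamma0 N) k) : qL A = qLf A := rfl

namespace IsMF

variable {N : ℕ} {k l : ℤ} {f g : ℍ → ℂ}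

lemma coe (A : ModularForm (Gamma0 N) k) : IsMF N k A := ⟨A, rfl⟩

lemma mdiff (hf : IsMF N k f) : MDiff f := by
  obtain ⟨A, rfl⟩ := hf
  exact A.holo'

lemma mul (hf : IsMF N k f) (hg : IsMF N l g) : IsMF N (k + l) (f * g) := by
  obtain ⟨A, rfl⟩ := hf
  obtain ⟨B, rfl⟩ := hg
  exact ⟨A.mul B, rfl⟩

lemma add (hf : IsMF N k f) (hg : IsMF N k g) : IsMF N k (f + g) := by
  obtain ⟨A, rfl⟩ := hf
  obtain ⟨B, rfl⟩ := hg
  exact ⟨A + B, rfl⟩

lemma smul (hf : IsMF N k f) (c : ℂ) : IsMF N k (c • f) := by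
  obtain ⟨A, rfl⟩ := hf
  exact ⟨c • A, rfl⟩

lemma const (N : ℕ) (c : ℂ) : IsMF N 0 (fun _ => c) := ⟨ModularForm.const c, rfl⟩

lemma one (N : ℕ) : IsMF N 0 (1 : ℍ → ℂ) := const N 1

lemma zero (N : ℕ) (k : ℤ) : IsMF N k (0 : ℍ → ℂ) := ⟨0, rfl⟩

lemma cast (hf : IsMF N k f) (h : k = l) : IsMF N l f := h ▸ hf

lemma pow (hf : IsMF N k f) (n : ℕ) : IsMF N (n * k) (f ^ n) := by
  induction n with
  | zero =>
    rw [pow_zero]
    exact (one N).cast (by simp)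
  | succ n ih =>
    rw [pow_succ]
    exact (ih.mul hf).cast (by push_cast; ring)

lemma slash_eq (hf : IsMF N k f) (γ : Gamma0 N) : f ∣[k] (γ : SL(2, ℤ)) = f := by
  obtain ⟨A, rfl⟩ := hf
  exact SlashInvariantFormClass.slash_action_eq A _ ⟨γ, γ.2, rfl⟩

lemma periodic (hf : IsMF N k f) : Function.Periodic (f ∘ ofComplex) (1 : ℝ) := by
  obtain ⟨A, rfl⟩ := hf
  exact SlashInvariantFormClass.periodic_comp_ofComplex A
    (CongruenceSubgroup.one_mem_strictPeriods_Gamma0 N)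

lemma bdd (hf : IsMF N k f) (σ : SL(2, ℤ)) [NeZero N] : IsBoundedAtImInfty (f ∣[k] σ) := by
  obtain ⟨A, rfl⟩ := hf
  exact ModularFormClass.bdd_at_infty_slash A σ

lemma analyticAt_cusp (hf : IsMF N k f) : AnalyticAt ℂ (cuspFunction 1 f) 0 := by
  obtain ⟨A, rfl⟩ := hf
  exact ModularFormClass.analyticAt_cuspFunction_zero A one_pos
    (CongruenceSubgroup.one_mem_strictPeriods_Gamma0 N)

lemma qLf_mul (hf : IsMF N k f) (hg : IsMF N l g) : qLf (f * g) = qLf f * qLf g := by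
  rw [qLf, qLf, qLf, ← map_mul, UpperHalfPlane.qExpansion_mul hf.analyticAt_cusp
    hg.analyticAt_cusp]

lemma qLf_add (hf : IsMF N k f) (hg : IsMF N l g) : qLf (f + g) = qLf f + qLf g := by
  rw [qLf, qLf, qLf, ← map_add, UpperHalfPlane.qExpansion_add hf.analyticAt_cusp
    hg.analyticAt_cusp]

lemma qLf_eq_zero_iff (hf : IsMF N k f) : qLf f = 0 ↔ f = 0 := by
  obtain ⟨A, rfl⟩ := hf
  rw [qLf, map_eq_zero_iff _ HahnSeries.ofPowerSeries_injective,
    ModularForm.qExpansion_eq_zero_iff one_pos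
      (CongruenceSubgroup.one_mem_strictPeriods_Gamma0 N)]
  exact (DFunLike.coe_fn_eq (f := A) (g := 0)).symm

lemma qLf_injective (hf : IsMF N k f) (hg : IsMF N k g) (h : qLf f = qLf g) : f = g := by
  have h1 : IsMF N k (f + (-1 : ℂ) • g) := hf.add (hg.smul _)
  have h2 : qLf ((-1 : ℂ) • g) = - qLf g := by
    rw [qLf, qLf, UpperHalfPlane.qExpansion_smul hg.analyticAt_cusp, neg_one_smul, map_neg]
  have h3 : qLf (f + (-1 : ℂ) • g) = 0 := by
    rw [hf.qLf_add (hg.smul (-1)), h2, h, add_neg_cancel]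
  rw [h1.qLf_eq_zero_iff] at h3
  rw [neg_one_smul, ← sub_eq_add_neg] at h3
  exact sub_eq_zero.1 h3

lemma qLf_smul (hf : IsMF N k f) (c : ℂ) : qLf (c • f) = HahnSeries.C c * qLf f := by
  rw [qLf, UpperHalfPlane.qExpansion_smul hf.analyticAt_cusp, PowerSeries.smul_eq_C_mul, map_mul,
    HahnSeries.ofPowerSeries_C, qLf]

end IsMF

lemma qLf_one : qLf (1 : ℍ → ℂ) = 1 := by
  rw [qLf, UpperHalfPlane.qExpansion_one, map_one]

lemma qLf_const (N : ℕ) (c : ℂ) : qLf (fun _ => c) = HahnSeries.C c := by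
  have h1 : (fun _ => c : ℍ → ℂ) = c • (1 : ℍ → ℂ) := by
    ext
    simp
  rw [h1, (IsMF.one N).qLf_smul, qLf_one, mul_one]

lemma qLf_pow {N : ℕ} {k : ℤ} {f : ℍ → ℂ} (hf : IsMF N k f) (n : ℕ) :
    qLf (f ^ n) = qLf f ^ n := by
  induction n with
  | zero => rw [pow_zero, pow_zero, qLf_one]
  | succ n ih => rw [pow_succ, (hf.pow n).qLf_mul hf, ih, pow_succ]

lemma mf_mul_ne_zero {N : ℕ} {k l : ℤ} {f g : ℍ → ℂ} (hf : IsMF N k f) (hg : IsMF N l g)
    (hf0 : f ≠ 0) (hg0 : g ≠ 0) : f * g ≠ 0 := by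
  intro h
  rcases (UpperHalfPlane.mul_eq_zero_iff hf.mdiff hg.mdiff).1 h with h | h
  · exact hf0 h
  · exact hg0 h

/-- The field of quotients of modular forms of the same weight for `Γ₀(N)`, inside the field of
Laurent series. -/
noncomputable def mfq (N : ℕ) : IntermediateField ℂ (LaurentSeries ℂ) where
  carrier := {x | ∃ (k : ℤ) (A B : ModularForm (Gamma0 N) k), B ≠ 0 ∧ x * qL B = qL A}
  mul_mem' := by
    rintro x y ⟨k, A, B, hB, hx⟩ ⟨l, C, D, hD, hy⟩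
    refine ⟨k + l, A.mul C, B.mul D, ?_, ?_⟩
    · exact ModularForm.mul_ne_zero ⟨1, CongruenceSubgroup.one_mem_strictPeriods_Gamma0 N,
        one_pos⟩ hB hD
    · rw [qL_eq, qL_eq, ModularForm.coe_mul, ModularForm.coe_mul, (IsMF.coe B).qLf_mul (IsMF.coe D),
        (IsMF.coe A).qLf_mul (IsMF.coe C), ← qL_eq, ← qL_eq, ← qL_eq, ← qL_eq, ← hx, ← hy]
      ring
  add_mem' := by
    rintro x y ⟨k, A, B, hB, hx⟩ ⟨l, C, D, hD, hy⟩
    refine ⟨k + l, A.mul D + B.mul C, B.mul D, ?_, ?_⟩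
    · exact ModularForm.mul_ne_zero ⟨1, CongruenceSubgroup.one_mem_strictPeriods_Gamma0 N,
        one_pos⟩ hB hD
    · have h1 : qL (A.mul D + B.mul C) = qL A * qL D + qL B * qL C := by
        have h2 : ⇑(A.mul D + B.mul C) = (⇑A * ⇑D) + (⇑B * ⇑C) := rfl
        rw [qL_eq, h2, ((IsMF.coe A).mul (IsMF.coe D)).qLf_add ((IsMF.coe B).mul (IsMF.coe C)),
          (IsMF.coe A).qLf_mul (IsMF.coe D), (IsMF.coe B).qLf_mul (IsMF.coe C)]
        rfl
      rw [h1, qL_eq, ModularForm.coe_mul, (IsMF.coe B).qLf_mul (IsMF.coe D), ← qL_eq, ← qL_eq, ← hx, ← hy]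
      ring
  algebraMap_mem' := by
    intro c
    refine ⟨0, ModularForm.const c, ModularForm.const 1, ?_, ?_⟩
    · intro h
      have := congrArg (fun A : ModularForm (Gamma0 N) 0 => A I) h
      simp at this
    · have h1 : qL (ModularForm.const c : ModularForm (Gamma0 N) 0) = HahnSeries.C c :=
        qLf_const N c
      have h2 : qL (ModularForm.const 1 : ModularForm (Gamma0 N) 0) = HahnSeries.C 1 :=
        qLf_const N 1
      rw [h1, h2, map_one, mul_one]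
      exact LaurentSeries.algebraMap_apply ℂ c
  inv_mem' := by
    rintro x ⟨k, A, B, hB, hx⟩
    by_cases hx0 : x = 0
    · refine ⟨k, 0, B, hB, ?_⟩
      have h0 : qL (0 : ModularForm (Gamma0 N) k) = 0 := (IsMF.coe _).qLf_eq_zero_iff.2 rfl
      rw [hx0, inv_zero, zero_mul, h0]
    · refine ⟨k, B, A, ?_, ?_⟩
      · rintro rfl
        have h0 : qL (0 : ModularForm (Gamma0 N) k) = 0 := (IsMF.coe _).qLf_eq_zero_iff.2 rfl
        rw [h0] at hx
        rcases mul_eq_zero.1 hx with h | h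
        · exact hx0 h
        · apply hB
          have h3 := (IsMF.coe B).qLf_eq_zero_iff.1 h
          exact DFunLike.coe_injective h3
      · rw [← hx, inv_mul_cancel_left₀ hx0]

lemma mem_mfq {N : ℕ} {x : LaurentSeries ℂ} :
    x ∈ mfq N ↔ ∃ (k : ℤ) (A B : ModularForm (Gamma0 N) k), B ≠ 0 ∧ x * qL B = qL A := Iff.rfl

lemma mem_mfq' {N : ℕ} {x : LaurentSeries ℂ} :
    x ∈ mfq N ↔ ∃ (k : ℤ) (f g : ℍ → ℂ), IsMF N k f ∧ IsMF N k g ∧ g ≠ 0 ∧
      x * qLf g = qLf f := by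
  rw [mem_mfq]
  constructor
  · rintro ⟨k, A, B, hB, hx⟩
    refine ⟨k, A, B, IsMF.coe A, IsMF.coe B, ?_, hx⟩
    intro h
    exact hB (DFunLike.coe_injective h)
  · rintro ⟨k, f, g, ⟨A, rfl⟩, ⟨B, rfl⟩, hg, hx⟩
    refine ⟨k, A, B, ?_, hx⟩
    rintro rfl
    exact hg rfl

end Fermat.Agent.H01
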