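import Fermat.Agent.H01.HeckeC
import Fermat.Agent.H02_D3
import Fermat.Agent.H22.HeckeChar
import Fermat.Agent.H05.HeckeInputs

/-!
# Hecke compatibility of the characters attached to `m`-th roots over `ℂ`
-/

set_option autoImplicit false

namespace Fermat.Agent.H01

open UpperHalfPlane Filter Topology ModularForm CongruenceSubgroup ModularCurve AlgebraicCurve
open Fermat.Agent.H05
open scoped Manifold MatrixGroups ModularForm

/-- The modular function field over `ℂ` is the field of quotients of modular forms. -/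
theorem laurentBaseChange_eq_mfq (N : ℕ) [NeZero N] :
    laurentBaseChange ℂ (modularFunctionFieldFull N) = mfq N :=
  le_antisymm (laurentBaseChange_le_mfq N) (H02.mfq_le_FC N)

section Degree

variable {N M : ℕ} [NeZero N] [NeZero M]

/-- The degree bound for the modular function fields over `ℂ`. -/
theorem finrank_FC_le (hNM : N ∣ M)
    [alg : Algebra (laurentBaseChange ℂ (modularFunctionFieldFull N))
      (laurentBaseChange ℂ (modularFunctionFieldFull M))]
    (halg : ∀ x, ((algebraMap (laurentBaseChange ℂ (modularFunctionFieldFull N))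
      (laurentBaseChange ℂ (modularFunctionFieldFull M)) x : _) : LaurentSeries ℂ) = x) :
    FiniteDimensional (laurentBaseChange ℂ (modularFunctionFieldFull N))
      (laurentBaseChange ℂ (modularFunctionFieldFull M)) ∧
    Module.finrank (laurentBaseChange ℂ (modularFunctionFieldFull N))
      (laurentBaseChange ℂ (modularFunctionFieldFull M)) ≤ Fintype.card (QGam N M) := by
  apply finrank_le_of_forall_annihilated
  intro y
  have hyM : (y : LaurentSeries ℂ) ∈ mfq M := laurentBaseChange_le_mfq M y.2
  let y' : mfq M := ⟨(y : LaurentSeries ℂ), hyM⟩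
  obtain ⟨P, hPm, hPn, hP⟩ := exists_annihilating hNM y'
  let iN : mfq N →+* laurentBaseChange ℂ (modularFunctionFieldFull N) :=
    (IntermediateField.inclusion (H02.mfq_le_FC N)).toRingHom
  let jM' : laurentBaseChange ℂ (modularFunctionFieldFull M) →+* mfq M :=
    (IntermediateField.inclusion (laurentBaseChange_le_mfq M)).toRingHom
  refine ⟨P.map iN, hPm.map iN, by rw [Polynomial.natDegree_map]; exact hPn.le, ?_⟩
  apply ((Phi M 1).comp jM').injective
  rw [map_zero, Polynomial.aeval_def, Polynomial.hom_eval₂, Polynomial.eval₂_map]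
  have hcomp : (((Phi M 1).comp jM').comp
      (algebraMap (laurentBaseChange ℂ (modularFunctionFieldFull N))
        (laurentBaseChange ℂ (modularFunctionFieldFull M)))).comp iN = Phi N 1 := by
    ext x
    have h1 : ((jM' (algebraMap (laurentBaseChange ℂ (modularFunctionFieldFull N))
        (laurentBaseChange ℂ (modularFunctionFieldFull M)) (iN x)) : mfq M) : LaurentSeries ℂ) =
        (x : LaurentSeries ℂ) := halg (iN x)
    have h2 : Phi M 1 (jM' (algebraMap (laurentBaseChange ℂ (modularFunctionFieldFull N))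
        (laurentBaseChange ℂ (modularFunctionFieldFull M)) (iN x))) = Phi N 1 x := by
      rw [Phi_eq_of_mem hNM 1 _ (by rw [h1]; exact x.2)]
      congr 1
      exact Subtype.ext h1
    exact h2
  rw [hcomp, ← Polynomial.eval_map, hP, Polynomial.eval_prod]
  refine Finset.prod_eq_zero (Finset.mem_univ ((1 : Gamma0 N) : QGam N M)) ?_
  rw [Phi_out_one]
  have h3 : ((Phi M 1).comp jM') y = Phi M 1 y' := rfl
  rw [h3]
  simp

/-- **Norms and root characters over `ℂ`.** -/
theorem hasRootChar_norm_FC (hNM : N ∣ M)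
    [alg : Algebra (laurentBaseChange ℂ (modularFunctionFieldFull N))
      (laurentBaseChange ℂ (modularFunctionFieldFull M))]
    (halg : ∀ x, ((algebraMap (laurentBaseChange ℂ (modularFunctionFieldFull N))
      (laurentBaseChange ℂ (modularFunctionFieldFull M)) x : _) : LaurentSeries ℂ) = x)
    {m : ℕ} (hm : m ≠ 0) {y : laurentBaseChange ℂ (modularFunctionFieldFull M)} (hy : y ≠ 0)
    {ψ : Gamma0 M →* ℂˣ} (h : HasRootChar M m (y : LaurentSeries ℂ) ψ) :
    HasRootChar N m ((Algebra.norm (laurentBaseChange ℂ (modularFunctionFieldFull N)) y :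
      laurentBaseChange ℂ (modularFunctionFieldFull N)) : LaurentSeries ℂ)
      (MonoidHom.transfer (ψ.comp (subIncl N M))) := by
  obtain ⟨hfd, hle⟩ := finrank_FC_le hNM halg
  have h1 := hasRootChar_norm (K₀ := laurentBaseChange ℂ (modularFunctionFieldFull N))
    (L₀ := laurentBaseChange ℂ (modularFunctionFieldFull M)) hNM
    (laurentBaseChange ℂ (modularFunctionFieldFull M)).val.toRingHom
    (fun z => laurentBaseChange_le_mfq M z.2)
    (fun c => by
      have h2 := halg c
      have h3 : (laurentBaseChange ℂ (modularFunctionFieldFull M)).val.toRingHom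
        (algebraMap (laurentBaseChange ℂ (modularFunctionFieldFull N))
        (laurentBaseChange ℂ (modularFunctionFieldFull M)) c) = (c : LaurentSeries ℂ) := h2
      rw [h3]
      exact laurentBaseChange_le_mfq N c.2) hle
    ⟨⟨coeffEmb ℂ (qExpand ℚ M jq), H02.mfq_le_FC M (jM M).2⟩, rfl⟩ hm hy h
  have h3 : (laurentBaseChange ℂ (modularFunctionFieldFull M)).val.toRingHom
        (algebraMap (laurentBaseChange ℂ (modularFunctionFieldFull N))
        (laurentBaseChange ℂ (modularFunctionFieldFull M))
        (Algebra.norm (laurentBaseChange ℂ (modularFunctionFieldFull N)) y)) =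
      ((Algebra.norm (laurentBaseChange ℂ (modularFunctionFieldFull N)) y :
      laurentBaseChange ℂ (modularFunctionFieldFull N)) : LaurentSeries ℂ) := halg _
  rw [h3] at h1
  exact h1

end Degree

variable (N ℓ : ℕ) [NeZero N] [NeZero ℓ]

omit [NeZero N] in
/-- `degConj` is conjugation by `diag(ℓ, 1)`. -/
lemma degRel_degConj (γ : Gamma0 (N * ℓ)) :
    DegRel ℓ (γ : SL(2, ℤ)) (H22.degConj N ℓ γ : SL(2, ℤ)) where
  h00 := rfl
  h01 := rfl
  h10 := by
    have h1 : (H22.degConj N ℓ γ : SL(2, ℤ)) 1 0 = (γ : SL(2, ℤ)) 1 0 / (ℓ : ℤ) := rfl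
    rw [h1]
    exact Int.mul_ediv_cancel' (H22.dvd_of_mem γ.2)
  h11 := rfl

variable {N}

/-- **Hecke compatibility over `ℂ`**: the norm of `f(q^ℓ)` has root character `heckeChar ℓ ψ`. -/
theorem HasRootChar.hecke {m : ℕ} (hm : m ≠ 0)
    {x : laurentBaseChange ℂ (modularFunctionFieldFull N)}
    {ψ : Gamma0 N →* ℂˣ} (h : HasRootChar N m (x : LaurentSeries ℂ) ψ) :
    HasRootChar N m
      ((normAlong (heckeAlphaBar ℂ N ℓ) (heckeBetaBar ℂ N ℓ x) :
        laurentBaseChange ℂ (modularFunctionFieldFull N)) : LaurentSeries ℂ)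
      (H22.heckeChar N ℓ ψ) := by
  have hx0 : x ≠ 0 := by
    rintro rfl
    exact h.ne_zero rfl
  have hy0 : heckeBetaBar ℂ N ℓ x ≠ 0 := (map_ne_zero (heckeBetaBar ℂ N ℓ)).2 hx0
  have h1 : HasRootChar (N * ℓ) m
      ((heckeBetaBar ℂ N ℓ x : laurentBaseChange ℂ (modularFunctionFieldFull (N * ℓ))) :
        LaurentSeries ℂ) (ψ.comp (H22.degConj N ℓ)) := by
    rw [coe_heckeBetaBar]
    exact h.vz (H22.degConj N ℓ) (degRel_degConj N ℓ)
  have : NeZero (N * ℓ) := ⟨mul_ne_zero (NeZero.ne N) (NeZero.ne ℓ)⟩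
  let alg : Algebra (laurentBaseChange ℂ (modularFunctionFieldFull N))
      (laurentBaseChange ℂ (modularFunctionFieldFull (N * ℓ))) :=
    algebraAlong (heckeAlphaBar ℂ N ℓ)
  exact hasRootChar_norm_FC (N := N) (M := N * ℓ) (Dvd.intro ℓ rfl)
    (fun x => coe_heckeAlphaBar N ℓ x) hm hy0 h1

end Fermat.Agent.H01
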