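import Fermat.Agent.H01.EllPar
import Mathlib.GroupTheory.Schreier

/-!
# Finiteness of the set of characters
-/

set_option autoImplicit false

namespace Fermat.Agent.H01

open UpperHalfPlane Filter Topology ModularForm CongruenceSubgroup
open scoped Manifold MatrixGroups ModularForm

instance fg_SL2Z : Group.FG SL(2, ℤ) := by
  refine Group.fg_iff.2 ⟨_, SpecialLinearGroup.SL2Z_generators, ?_⟩
  exact Set.toFinite _

instance fg_Gamma0 (N : ℕ) [NeZero N] : Group.FG (Gamma0 N) := Subgroup.fg_of_index_ne_zero _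

/-- There are only finitely many characters of order dividing `m` of a finitely generated group. -/
lemma finite_characters (G : Type*) [Group G] [hG : Group.FG G] {m : ℕ} (hm : m ≠ 0) :
    Finite {ψ : G →* ℂˣ // ∀ g, ψ g ^ m = 1} := by
  obtain ⟨S, hS, hfin⟩ := Group.fg_iff.1 hG
  have hSf : Finite S := hfin
  have : NeZero m := ⟨hm⟩
  let F : {ψ : G →* ℂˣ // ∀ g, ψ g ^ m = 1} → (S → rootsOfUnity m ℂ) :=
    fun ψ s => ⟨ψ.1 s, ψ.2 s⟩
  apply Finite.of_injective F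
  intro ψ ψ' h
  apply Subtype.ext
  refine MonoidHom.eq_of_eqOn_dense hS ?_
  intro s hs
  have := congrFun h ⟨s, hs⟩
  exact congrArg Subtype.val this

variable {N m : ℕ} {x y : LaurentSeries ℂ} {ψ ψ' : Gamma0 N →* ℂˣ}

theorem HasRootChar.mem (h : HasRootChar N m x ψ) : x ∈ mfq N := by
  obtain ⟨k, f, g, H, h⟩ := hasRootChar_iff.1 h
  exact mem_mfq'.2 ⟨k, f, g, h.rep.hf, h.rep.hg, h.rep.hg0, h.rep.eq⟩

theorem HasRootChar.ne_zero (h : HasRootChar N m x ψ) : x ≠ 0 := by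
  obtain ⟨k, f, g, H, h⟩ := hasRootChar_iff.1 h
  exact h.rep.ne_zero

theorem HasRootChar.pow (hm : m ≠ 0) (h : HasRootChar N m x ψ) (n : ℕ) :
    HasRootChar N m (x ^ n) (ψ ^ n) := by
  induction n with
  | zero =>
    have h0 : ψ ^ 0 = 1 := by
      ext γ
      rw [MonoidHom.pow_apply, pow_zero]
      rfl
    rw [h0, pow_zero]
    exact hasRootChar_one hm
  | succ n ih =>
    have h0 : ψ ^ (n + 1) = ψ ^ n * ψ := by
      ext γ
      rw [MonoidHom.pow_apply, pow_succ]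
      rfl
    rw [h0, pow_succ]
    exact ih.mul h

/-- Two functions with the same character differ by an `m`-th power. -/
theorem HasRootChar.exists_eq_mul_pow [NeZero N] (hm : m ≠ 0) (h : HasRootChar N m x ψ)
    (h' : HasRootChar N m y ψ) : ∃ z ∈ mfq N, z ≠ 0 ∧ x = y * z ^ m := by
  have h1 := h.mul (h'.pow hm (m - 1))
  have h2 : ψ * ψ ^ (m - 1) = 1 := by
    ext γ
    have := h.pow_eq_one hm γ
    rw [MonoidHom.mul_apply, MonoidHom.pow_apply, ← pow_succ', Nat.sub_add_cancel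
      (Nat.one_le_iff_ne_zero.2 hm), this]
    rfl
  rw [h2] at h1
  obtain ⟨z, hz, hzm⟩ := h1.exists_pow_eq hm
  have hy0 := h'.ne_zero
  have hx0 := h.ne_zero
  refine ⟨z / y, div_mem hz h'.mem, ?_, ?_⟩
  · apply div_ne_zero _ hy0
    rintro rfl
    rw [zero_pow hm] at hzm
    exact mul_ne_zero hx0 (pow_ne_zero _ hy0) hzm.symm
  · rw [div_pow, hzm]
    have h3 : y * (x * y ^ (m - 1) / y ^ m) = x * (y ^ (m - 1) * y) / y ^ m := by ring
    rw [h3, ← pow_succ, Nat.sub_add_cancel (Nat.one_le_iff_ne_zero.2 hm),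
      mul_div_cancel_right₀ _ (pow_ne_zero _ hy0)]

/-- Pigeonhole: among infinitely many functions with everywhere divisible divisors, two differ by an
`m`-th power. -/
theorem exists_eq_mul_pow_of_strongDvd [NeZero N] (hm : m ≠ 0) (g : ℕ → LaurentSeries ℂ)
    (hg : ∀ i, g i ∈ mfq N) (hg0 : ∀ i, g i ≠ 0) (hd : ∀ i, StrongDvd N m (g i)) :
    ∃ i j, i ≠ j ∧ ∃ z ∈ mfq N, z ≠ 0 ∧ g i = g j * z ^ m := by
  have hex : ∀ i, ∃ ψ, HasRootChar N m (g i) ψ := fun i =>
    exists_hasRootChar hm (hg i) (hg0 i) fun τ => (hd i).dvd _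
  choose ψ hψ using hex
  have := finite_characters (Gamma0 N) hm
  obtain ⟨i, j, hij, heq⟩ := Finite.exists_ne_map_eq_of_infinite
    (fun i => (⟨ψ i, (hψ i).pow_eq_one hm⟩ : {ψ : Gamma0 N →* ℂˣ // ∀ g, ψ g ^ m = 1}))
  have heq' : ψ i = ψ j := congrArg Subtype.val heq
  refine ⟨i, j, hij, ?_⟩
  have h1 := hψ i
  rw [heq'] at h1
  exact h1.exists_eq_mul_pow hm (hψ j)

end Fermat.Agent.H01
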