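import Fermat.Agent.H01.Root

/-!
# `m`-th roots of holomorphic functions on `ℍ`, orders of vanishing at points of `ℍ`
-/

set_option autoImplicit false

namespace Fermat.Agent.H01

open UpperHalfPlane Filter Topology
open scoped Manifold

lemma analyticOnNhd_comp_ofComplex {f : ℍ → ℂ} (hf : MDiff f) :
    AnalyticOnNhd ℂ (f ∘ ofComplex) {z : ℂ | 0 < z.im} :=
  (UpperHalfPlane.mdifferentiable_iff.1 hf).analyticOnNhd isOpen_upperHalfPlaneSet

lemma analyticAt_comp_ofComplex {f : ℍ → ℂ} (hf : MDiff f) (τ : ℍ) :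
    AnalyticAt ℂ (f ∘ ofComplex) (τ : ℂ) :=
  analyticOnNhd_comp_ofComplex hf _ τ.im_pos

lemma eventually_nhds_coe_iff {p : ℂ → Prop} {τ : ℍ} :
    (∀ᶠ z in 𝓝 (τ : ℂ), p z) ↔ ∀ᶠ z : ℍ in 𝓝 τ, p (z : ℂ) := by
  rw [← isOpenEmbedding_coe.map_nhds_eq, eventually_map]

/-- The order of vanishing of a nonzero holomorphic function is finite. -/
lemma analyticOrderAt_ne_top {f : ℍ → ℂ} (hf : MDiff f) (hne : f ≠ 0) (τ : ℍ) :
    analyticOrderAt (f ∘ ofComplex) (τ : ℂ) ≠ ⊤ := by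
  intro h
  rw [analyticOrderAt_eq_top, eventually_nhds_coe_iff] at h
  apply hne
  refine eq_zero_of_frequently hf (τ := τ) ?_
  have h1 : ∀ᶠ z in 𝓝[≠] τ, f z = 0 := by
    filter_upwards [nhdsWithin_le_nhds h] with z hz
    simpa using hz
  exact h1.frequently

/-- The order of vanishing at `τ`. -/
noncomputable def ordAt (τ : ℍ) (f : ℍ → ℂ) : ℕ := analyticOrderNatAt (f ∘ ofComplex) (τ : ℂ)

lemma ordAt_mul {f g : ℍ → ℂ} (hf : MDiff f) (hg : MDiff g) (hf0 : f ≠ 0) (hg0 : g ≠ 0) (τ : ℍ) :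
    ordAt τ (f * g) = ordAt τ f + ordAt τ g := by
  have h1 : (f * g) ∘ ofComplex = (f ∘ ofComplex) * (g ∘ ofComplex) := rfl
  rw [ordAt, h1, analyticOrderNatAt_mul (analyticAt_comp_ofComplex hf τ)
    (analyticAt_comp_ofComplex hg τ) (analyticOrderAt_ne_top hf hf0 τ)
    (analyticOrderAt_ne_top hg hg0 τ)]
  rfl

lemma mdiff_pow {f : ℍ → ℂ} (hf : MDiff f) (n : ℕ) : MDiff (f ^ n) := by
  induction n with
  | zero =>
    rw [pow_zero]
    exact mdifferentiable_const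
  | succ n ih =>
    rw [pow_succ]
    exact ih.mul hf

lemma pow_ne_zero_of_mdiff {f : ℍ → ℂ} (hf0 : f ≠ 0) (n : ℕ) : f ^ n ≠ 0 := by
  intro h
  apply hf0
  ext z
  have := congrFun h z
  exact eq_zero_of_pow_eq_zero this

lemma ordAt_pow {f : ℍ → ℂ} (hf : MDiff f) (hf0 : f ≠ 0) (n : ℕ) (τ : ℍ) :
    ordAt τ (f ^ n) = n * ordAt τ f := by
  induction n with
  | zero =>
    rw [pow_zero, zero_mul, ordAt, analyticOrderNatAt]
    have : analyticOrderAt ((1 : ℍ → ℂ) ∘ ofComplex) (τ : ℂ) = 0 := by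
      apply (analyticAt_comp_ofComplex (mdifferentiable_const (c := (1 : ℂ))) τ
        ).analyticOrderAt_eq_zero.2
      simp
    rw [this]
    rfl
  | succ n ih =>
    rw [pow_succ, ordAt_mul (mdiff_pow hf n) hf (pow_ne_zero_of_mdiff hf0 n) hf0, ih]
    ring

lemma ordAt_const {c : ℂ} (hc : c ≠ 0) (τ : ℍ) : ordAt τ (fun _ => c) = 0 := by
  rw [ordAt, analyticOrderNatAt]
  have : analyticOrderAt ((fun _ : ℍ => c) ∘ ofComplex) (τ : ℂ) = 0 := by
    apply (analyticAt_comp_ofComplex (mdifferentiable_const (c := c)) τ).analyticOrderAt_eq_zero.2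
    simpa using hc
  rw [this]
  rfl

lemma ordAt_add {f g : ℍ → ℂ} (hf : MDiff f) (hg : MDiff g) (hf0 : f ≠ 0) (hg0 : g ≠ 0)
    (hfg0 : f + g ≠ 0) (τ : ℍ) :
    min (ordAt τ f) (ordAt τ g) ≤ ordAt τ (f + g) := by
  have h1 := le_analyticOrderAt_add (f := f ∘ ofComplex) (g := g ∘ ofComplex) (z₀ := (τ : ℂ))
  have h2 : (f ∘ ofComplex) + (g ∘ ofComplex) = (f + g) ∘ ofComplex := rfl
  rw [h2, ← Nat.cast_analyticOrderNatAt (analyticOrderAt_ne_top hf hf0 τ),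
    ← Nat.cast_analyticOrderNatAt (analyticOrderAt_ne_top hg hg0 τ),
    ← Nat.cast_analyticOrderNatAt (analyticOrderAt_ne_top (hf.add hg) hfg0 τ)] at h1
  have h3 : (min (ordAt τ f) (ordAt τ g) : ℕ) ≤ (ordAt τ (f + g) : ℕ∞) := by
    rw [(Nat.mono_cast (α := ℕ∞)).map_min]
    exact h1
  exact_mod_cast h3

/-- Existence of `m`-th roots on `ℍ`. -/
theorem exists_root_mdiff {m : ℕ} (hm : m ≠ 0) {f : ℍ → ℂ} (hf : MDiff f) (hne : f ≠ 0)
    (hord : ∀ τ : ℍ, m ∣ ordAt τ f) : ∃ g : ℍ → ℂ, MDiff g ∧ ∀ z, g z ^ m = f z := by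
  obtain ⟨g, hg, hge⟩ := exists_root_upperHalfPlaneSet hm (UpperHalfPlane.mdifferentiable_iff.1 hf)
    (fun z hz => analyticOrderAt_ne_top hf hne ⟨z, hz⟩) (fun z hz => hord ⟨z, hz⟩)
  refine ⟨fun z => g z, ?_, fun z => ?_⟩
  · rw [UpperHalfPlane.mdifferentiable_iff]
    refine hg.congr fun z hz => ?_
    simp [ofComplex_apply_of_im_pos hz]
  · rw [hge _ z.im_pos]
    simp

/-- Two holomorphic functions on `ℍ` with the same `m`-th power differ by a constant. -/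
theorem eq_mul_of_pow_eq_mdiff {m : ℕ} (hm : m ≠ 0) {f g : ℍ → ℂ} (hf : MDiff f) (hg : MDiff g)
    (hg0 : g ≠ 0) (h : ∀ z, f z ^ m = g z ^ m) :
    ∃ c : ℂ, c ^ m = 1 ∧ f = c • g := by
  obtain ⟨z₀, hz₀⟩ : ∃ z, g z ≠ 0 := by
    by_contra hcon
    push Not at hcon
    exact hg0 (funext hcon)
  refine ⟨f z₀ / g z₀, ?_, ?_⟩
  · rw [div_pow, h z₀, div_self (pow_ne_zero _ hz₀)]
  · have hconn : IsPreconnected {z : ℂ | 0 < z.im} :=
      (convex_halfSpace_im_gt 0).isPreconnected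
    have h1 := eq_root_mul_of_pow_eq hm isOpen_upperHalfPlaneSet hconn
      (UpperHalfPlane.mdifferentiable_iff.1 hf) (UpperHalfPlane.mdifferentiable_iff.1 hg) (fun z hz => h _) (z₀ := (z₀ : ℂ))
      z₀.im_pos (by simpa using hz₀)
    ext z
    have h2 := h1 z z.im_pos
    simpa using h2

end Fermat.Agent.H01
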