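import Fermat.Agent.H01.FnOrd

/-!
# Orders at cusps
-/

set_option autoImplicit false

namespace Fermat.Agent.H01

open UpperHalfPlane Filter Topology ModularForm CongruenceSubgroup
open scoped Manifold MatrixGroups ModularForm

/-- Holomorphic functions on `ℍ` with period `w`, bounded at `i∞`. -/
structure NiceAt (w : ℝ) (f : ℍ → ℂ) : Prop where
  mdiff : MDiff f
  bdd : IsBoundedAtImInfty f
  per : Function.Periodic (f ∘ ofComplex) w

lemma periodic_comp_ofComplex_of_vadd {f : ℍ → ℂ} {w : ℝ} (h : ∀ z : ℍ, f (w +ᵥ z) = f z) :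
    Function.Periodic (f ∘ ofComplex) w := by
  intro z
  by_cases hz : 0 < z.im
  · have h1 : 0 < (z + w).im := by simpa using hz
    simp only [Function.comp_apply, ofComplex_apply_of_im_pos h1, ofComplex_apply_of_im_pos hz]
    rw [← h ⟨z, hz⟩]
    congr 1
    ext
    simp [add_comm]
  · have h1 : (z + w).im ≤ 0 := by simpa using hz
    simp only [Function.comp_apply]
    rw [ofComplex_apply_eq_of_im_nonpos h1 (not_lt.1 hz)]

lemma vadd_of_periodic_comp_ofComplex {f : ℍ → ℂ} {w : ℝ}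
    (h : Function.Periodic (f ∘ ofComplex) w) (z : ℍ) : f (w +ᵥ z) = f z := by
  have h1 := h (z : ℂ)
  have h2 : ((z : ℂ) + (w : ℂ)) = ((w +ᵥ z : ℍ) : ℂ) := by
    simp [add_comm]
  rw [h2, comp_ofComplex, comp_ofComplex] at h1
  exact h1

/-- The order at `i∞`. -/
noncomputable def cuspOrd (w : ℝ) (f : ℍ → ℂ) : ℕ := (qExpansion w f).order.toNat

namespace NiceAt

variable {w : ℝ} {f g : ℍ → ℂ}

lemma analyticAt (hw : 0 < w) (hf : NiceAt w f) : AnalyticAt ℂ (cuspFunction w f) 0 :=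
  UpperHalfPlane.analyticAt_cuspFunction_zero hw hf.per hf.mdiff hf.bdd

lemma mul (hf : NiceAt w f) (hg : NiceAt w g) : NiceAt w (f * g) where
  mdiff := hf.mdiff.mul hg.mdiff
  bdd := hf.bdd.mul hg.bdd
  per := fun z => by
    have h1 := hf.per z
    have h2 := hg.per z
    simp only [Function.comp_apply, Pi.mul_apply] at h1 h2 ⊢
    rw [h1, h2]

lemma add (hf : NiceAt w f) (hg : NiceAt w g) : NiceAt w (f + g) where
  mdiff := hf.mdiff.add hg.mdiff
  bdd := hf.bdd.add hg.bdd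
  per := fun z => by
    have h1 := hf.per z
    have h2 := hg.per z
    simp only [Function.comp_apply, Pi.add_apply] at h1 h2 ⊢
    rw [h1, h2]

lemma const (w : ℝ) (c : ℂ) : NiceAt w (fun _ => c) where
  mdiff := mdifferentiable_const
  bdd := atImInfty.const_boundedAtFilter _
  per := fun _ => rfl

lemma pow (hf : NiceAt w f) (n : ℕ) : NiceAt w (f ^ n) := by
  induction n with
  | zero =>
    rw [pow_zero]
    exact const w 1
  | succ n ih =>
    rw [pow_succ]
    exact ih.mul hf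

lemma qExpansion_ne_zero (hw : 0 < w) (hf : NiceAt w f) (hf0 : f ≠ 0) : qExpansion w f ≠ 0 := by
  rw [ne_eq, UpperHalfPlane.qExpansion_eq_zero_iff hw hf.per hf.mdiff hf.bdd]
  exact hf0

lemma cuspOrd_mul (hw : 0 < w) (hf : NiceAt w f) (hg : NiceAt w g) (hf0 : f ≠ 0) (hg0 : g ≠ 0) :
    cuspOrd w (f * g) = cuspOrd w f + cuspOrd w g := by
  rw [cuspOrd, UpperHalfPlane.qExpansion_mul (hf.analyticAt hw) (hg.analyticAt hw),
    PowerSeries.order_mul, ENat.toNat_add]
  · rfl
  · rw [ne_eq, PowerSeries.order_eq_top]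
    exact hf.qExpansion_ne_zero hw hf0
  · rw [ne_eq, PowerSeries.order_eq_top]
    exact hg.qExpansion_ne_zero hw hg0

lemma cuspOrd_add (hw : 0 < w) (hf : NiceAt w f) (hg : NiceAt w g) (hf0 : f ≠ 0) (hg0 : g ≠ 0)
    (hfg : f + g ≠ 0) : min (cuspOrd w f) (cuspOrd w g) ≤ cuspOrd w (f + g) := by
  have h1 := PowerSeries.min_order_le_order_add (qExpansion w f) (qExpansion w g)
  rw [← UpperHalfPlane.qExpansion_add (hf.analyticAt hw) (hg.analyticAt hw),
    ← PowerSeries.coe_toNat_order (hf.qExpansion_ne_zero hw hf0),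
    ← PowerSeries.coe_toNat_order (hg.qExpansion_ne_zero hw hg0),
    ← PowerSeries.coe_toNat_order ((hf.add hg).qExpansion_ne_zero hw hfg)] at h1
  have h3 : (min (cuspOrd w f) (cuspOrd w g) : ℕ) ≤ (cuspOrd w (f + g) : ℕ∞) := by
    rw [(Nat.mono_cast (α := ℕ∞)).map_min]
    exact h1
  exact_mod_cast h3

lemma cuspOrd_const (hw : 0 < w) {c : ℂ} (hc : c ≠ 0) : cuspOrd w (fun _ => c) = 0 := by
  have h1 : (fun _ => c : ℍ → ℂ) = c • (1 : ℍ → ℂ) := by
    ext
    simp
  have h2 : NiceAt w (1 : ℍ → ℂ) := const w 1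
  rw [cuspOrd, h1, UpperHalfPlane.qExpansion_smul (h2.analyticAt hw),
    UpperHalfPlane.qExpansion_one, PowerSeries.smul_eq_C_mul, mul_one]
  have h3 : IsUnit (PowerSeries.C c) := (isUnit_iff_ne_zero.2 hc).map _
  rw [PowerSeries.order_zero_of_unit h3]
  rfl

lemma cuspOrd_pow (hw : 0 < w) (hf : NiceAt w f) (hf0 : f ≠ 0) (n : ℕ) :
    cuspOrd w (f ^ n) = n * cuspOrd w f := by
  induction n with
  | zero =>
    rw [pow_zero, zero_mul]
    exact cuspOrd_const hw one_ne_zero
  | succ n ih =>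
    rw [pow_succ, (hf.pow n).cuspOrd_mul hw hf (pow_ne_zero_of_mdiff hf0 n) hf0, ih]
    ring

lemma qParam (hw : 0 < w) : NiceAt w (fun z : ℍ => Function.Periodic.qParam w z) where
  mdiff := by
    rw [UpperHalfPlane.mdifferentiable_iff]
    have h1 : DifferentiableOn ℂ (fun z : ℂ => Function.Periodic.qParam w z)
        {z : ℂ | 0 < z.im} := by
      unfold Function.Periodic.qParam
      fun_prop
    refine h1.congr fun z hz => ?_
    simp [ofComplex_apply_of_im_pos hz]
  bdd := by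
    rw [UpperHalfPlane.isBoundedAtImInfty_iff]
    refine ⟨1, 0, fun z _ => ?_⟩
    exact (Function.Periodic.norm_qParam_lt_one hw z.im_pos).le
  per := by
    apply periodic_comp_ofComplex_of_vadd
    intro z
    have hw' : (w : ℂ) ≠ 0 := by exact_mod_cast hw.ne'
    have h1 : 2 * Real.pi * Complex.I * ((w +ᵥ z : ℍ) : ℂ) / w =
        2 * Real.pi * Complex.I * (z : ℂ) / w + 2 * Real.pi * Complex.I := by
      rw [coe_vadd]
      field_simp
      ring
    rw [Function.Periodic.qParam, Function.Periodic.qParam, h1, Complex.exp_periodic]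

lemma cuspOrd_qParam (hw : 0 < w) :
    cuspOrd w (fun z : ℍ => Function.Periodic.qParam w z) = 1 := by
  have h1 : qExpansion w (fun z : ℍ => Function.Periodic.qParam w z) = PowerSeries.X := by
    let : FunLike (ℍ → ℂ) ℍ ℂ := ⟨fun f => f, fun _ _ h => h⟩
    ext n
    have h3 := UpperHalfPlane.qExpansion_coeff_unique (F := ℍ → ℂ)
      (fun z : ℍ => Function.Periodic.qParam w z)
      (c := fun n => if n = 1 then 1 else 0) hw ((qParam hw).analyticAt hw) (by
        intro τ
        have h2 := hasSum_single (f := fun m : ℕ =>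
          (if m = 1 then (1 : ℂ) else 0) • Function.Periodic.qParam w (τ : ℂ) ^ m) 1 (by
            intro m hm
            simp [hm])
        simpa using! h2) n
    rw [PowerSeries.coeff_X]
    exact h3.symm
  rw [cuspOrd, h1, PowerSeries.order_X]
  rfl

end NiceAt

/-- The main local lemma at a cusp. -/
theorem eq_one_of_dvd_cuspOrd {m : ℕ} (hm : m ≠ 0) {w : ℝ} (hw : 0 < w) {P G : ℍ → ℂ}
    (hP : NiceAt w P) (hP0 : P ≠ 0) (hdvd : m ∣ cuspOrd w P) (hG : MDiff G)
    (hGP : ∀ z, G z ^ m = P z) {c : ℂ} (hc : ∀ z : ℍ, G (w +ᵥ z) = c * G z) : c = 1 := by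
  obtain ⟨z₀, hz₀⟩ : ∃ z, P z ≠ 0 := by
    by_contra hcon
    push Not at hcon
    exact hP0 (funext hcon)
  have hcm : c ^ m = 1 := by
    have h1 : G (w +ᵥ z₀) ^ m = P z₀ := by
      rw [hGP, vadd_of_periodic_comp_ofComplex hP.per]
    rw [hc, mul_pow, hGP] at h1
    exact mul_right_cancel₀ hz₀ (by rw [h1, one_mul])
  have : NeZero m := ⟨hm⟩
  obtain ⟨a, ham, hac⟩ := (Complex.isPrimitiveRoot_exp m hm).eq_pow_of_pow_eq_one hcm
  set e : ℍ → ℂ := fun z => Complex.exp (2 * Real.pi * Complex.I * ((m - a : ℕ) : ℂ) * z / (m * w))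
    with he
  have hm' : (m : ℂ) ≠ 0 := by exact_mod_cast hm
  have hw' : (w : ℂ) ≠ 0 := by exact_mod_cast hw.ne'
  have hem : ∀ z, e z ^ m = Function.Periodic.qParam w z ^ (m - a) := by
    intro z
    rw [he, Function.Periodic.qParam, ← Complex.exp_nat_mul, ← Complex.exp_nat_mul]
    congr 1
    field_simp
  have he1 : ∀ z : ℍ, e (w +ᵥ z) * c = e z := by
    intro z
    rw [← hac, ← Complex.exp_nat_mul, he]
    simp only [coe_vadd]
    rw [← Complex.exp_add]
    have h1 : 2 * Real.pi * Complex.I * ((m - a : ℕ) : ℂ) * (w + z) / (m * w) +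
        a * (2 * Real.pi * Complex.I / m) =
        2 * Real.pi * Complex.I * ((m - a : ℕ) : ℂ) * z / (m * w) + 2 * Real.pi * Complex.I := by
      rw [Nat.cast_sub ham.le]
      field_simp
      ring
    rw [h1, Complex.exp_periodic]
  have heM : MDiff e := by
    rw [UpperHalfPlane.mdifferentiable_iff]
    have h1 : DifferentiableOn ℂ (fun z : ℂ =>
        Complex.exp (2 * Real.pi * Complex.I * ((m - a : ℕ) : ℂ) * z / (m * w)))
        {z : ℂ | 0 < z.im} := by
      fun_prop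
    refine h1.congr fun z hz => ?_
    simp [he, ofComplex_apply_of_im_pos hz]
  have hKm : (G * e) ^ m = P * (fun z : ℍ => Function.Periodic.qParam w z) ^ (m - a) := by
    ext z
    simp only [Pi.mul_apply, Pi.pow_apply]
    rw [mul_pow, hGP, hem]
  have hK : NiceAt w (G * e) := by
    refine ⟨hG.mul heM, ?_, ?_⟩
    · have h1 : IsBoundedAtImInfty ((G * e) ^ m) := by
        rw [hKm]
        exact (hP.mul ((NiceAt.qParam hw).pow _)).bdd
      rw [UpperHalfPlane.isBoundedAtImInfty_iff] at h1 ⊢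
      obtain ⟨M, A, hMA⟩ := h1
      refine ⟨max 1 M, A, fun z hz => ?_⟩
      have h2 := hMA z hz
      by_contra hcon
      push Not at hcon
      have h3 : 1 < ‖(G * e) z‖ := (le_max_left _ _).trans_lt hcon
      have h4 : ‖(G * e) z‖ ≤ ‖((G * e) ^ m) z‖ := by
        rw [Pi.pow_apply, norm_pow]
        exact le_self_pow₀ h3.le hm
      have h5 : M < ‖(G * e) z‖ := (le_max_right _ _).trans_lt hcon
      linarith
    · apply periodic_comp_ofComplex_of_vadd
      intro z
      simp only [Pi.mul_apply]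
      rw [hc, ← he1 z]
      ring
  have hG0 : G ≠ 0 := by
    rintro rfl
    apply hz₀
    rw [← hGP]
    simp [hm]
  have he0 : e ≠ 0 := by
    intro h
    have := congrFun h I
    simp [he] at this
  have hK0 : G * e ≠ 0 := by
    intro h
    rcases (UpperHalfPlane.mul_eq_zero_iff hG heM).1 h with h | h
    · exact hG0 h
    · exact he0 h
  have hq0 : (fun z : ℍ => Function.Periodic.qParam w z) ≠ 0 := by
    intro h
    have := congrFun h I
    simp [Function.Periodic.qParam] at this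
  have h1 := hK.cuspOrd_pow hw hK0 m
  rw [hKm, hP.cuspOrd_mul hw ((NiceAt.qParam hw).pow _) hP0 (pow_ne_zero_of_mdiff hq0 _),
    (NiceAt.qParam hw).cuspOrd_pow hw hq0, NiceAt.cuspOrd_qParam hw, mul_one] at h1
  have h2 : m ∣ m - a := by
    have h3 : m ∣ cuspOrd w P + (m - a) := ⟨_, h1⟩
    exact (Nat.dvd_add_right hdvd).1 h3
  have h3 : a = 0 := by
    by_contra ha
    have h4 := Nat.le_of_dvd (by omega) h2
    omega
  rw [← hac, h3, pow_zero]

/-! ### Cusp orders of modular forms -/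

lemma slash_T_zpow (k : ℤ) (f : ℍ → ℂ) (n : ℤ) (z : ℍ) :
    (f ∣[k] (ModularGroup.T ^ n)) z = f ((n : ℝ) +ᵥ z) := by
  rw [SL_slash_apply, UpperHalfPlane.modular_T_zpow_smul]
  have h1 : denom ((ModularGroup.T ^ n : SL(2, ℤ)) : GL (Fin 2) ℝ) z = 1 := by
    simp [denom, ModularGroup.coe_T_zpow, -map_zpow]
  rw [h1, one_zpow, mul_one]

lemma IsMF.niceAt {N : ℕ} [NeZero N] {k : ℤ} {f : ℍ → ℂ} (hf : IsMF N k f) {σ : SL(2, ℤ)} {w : ℤ}
    (h : σ * ModularGroup.T ^ w * σ⁻¹ ∈ Gamma0 N) : NiceAt w (f ∣[k] σ) where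
  mdiff := by
    have : MDiff (f ∣[k] (σ : GL (Fin 2) ℝ)) := hf.mdiff.slash k _
    exact this
  bdd := hf.bdd σ
  per := by
    apply periodic_comp_ofComplex_of_vadd
    intro z
    have h1 := slash_T_zpow k (f ∣[k] σ) w z
    rw [← SlashAction.slash_mul] at h1
    have h2 : σ * ModularGroup.T ^ w = (σ * ModularGroup.T ^ w * σ⁻¹) * σ := by group
    rw [h2, SlashAction.slash_mul, hf.slash_eq ⟨_, h⟩] at h1
    exact_mod_cast h1.symm

lemma slash_ne_zero {k : ℤ} {f : ℍ → ℂ} (hf : f ≠ 0) (σ : SL(2, ℤ)) : f ∣[k] σ ≠ 0 := by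
  intro h
  apply hf
  have h1 : (f ∣[k] σ) ∣[k] σ⁻¹ = 0 := by
    rw [h, SlashAction.zero_slash]
  rwa [← SlashAction.slash_mul, mul_inv_cancel, SlashAction.slash_one] at h1

/-- The order at the cusp `σ ∞`. -/
noncomputable def ordCusp (N : ℕ) [NeZero N] (σ : SL(2, ℤ)) (w : ℤ) (hw : 0 < w)
    (h : σ * ModularGroup.T ^ w * σ⁻¹ ∈ Gamma0 N) : FnOrd N where
  o k f := cuspOrd w (f ∣[k] σ)
  o_mul {k l f g} hf hg hf0 hg0 := by
    rw [ModularForm.mul_slash_SL2, (hf.niceAt h).cuspOrd_mul (by exact_mod_cast hw)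
      (hg.niceAt h) (slash_ne_zero hf0 σ) (slash_ne_zero hg0 σ)]
    push_cast
    rfl
  o_add {k f g} hf hg hf0 hg0 hfg := by
    have h1 := (hf.niceAt h).cuspOrd_add (by exact_mod_cast hw) (hg.niceAt h)
      (slash_ne_zero hf0 σ) (slash_ne_zero hg0 σ) (by
        rw [← SlashAction.add_slash]
        exact slash_ne_zero hfg σ)
    rw [SlashAction.add_slash]
    exact_mod_cast h1
  o_const {c} hc := by
    have h1 : ((fun _ => c) : ℍ → ℂ) ∣[(0 : ℤ)] σ = (fun _ => c) :=
      ModularForm.is_invariant_const σ c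
    rw [h1, NiceAt.cuspOrd_const (by exact_mod_cast hw) hc]
    rfl

end Fermat.Agent.H01
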