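import Fermat.Agent.H01.RootChar

/-!
# The characters of `m`-th roots are trivial on elliptic and parabolic elements
-/

set_option autoImplicit false

namespace Fermat.Agent.H01

open UpperHalfPlane Filter Topology ModularForm CongruenceSubgroup
open scoped Manifold MatrixGroups ModularForm

lemma coe_smul_sub_coe_smul (γ : SL(2, ℤ)) (z τ : ℍ) :
    ((γ • z : ℍ) : ℂ) - ((γ • τ : ℍ) : ℂ) = ((z : ℂ) - τ) / (denom γ z * denom γ τ) := by
  have h1 := denom_ne_zero γ z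
  have h2 := denom_ne_zero γ τ
  rw [UpperHalfPlane.coe_specialLinearGroup_apply, UpperHalfPlane.coe_specialLinearGroup_apply]
  have hdet : ((γ 0 0 : ℤ) : ℂ) * (γ 1 1 : ℤ) - (γ 0 1 : ℤ) * (γ 1 0 : ℤ) = 1 := by
    have := γ.det_coe
    rw [Matrix.det_fin_two] at this
    exact_mod_cast this
  rw [ModularGroup.denom_apply] at h1 h2 ⊢
  rw [ModularGroup.denom_apply]
  simp only [algebraMap_int_eq, eq_intCast, Complex.ofReal_intCast]
  rw [div_sub_div _ _ h1 h2, div_eq_div_iff (mul_ne_zero h1 h2) (mul_ne_zero h1 h2)]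
  linear_combination (((z : ℂ) - τ) * (((γ 1 0 : ℤ) : ℂ) * z + (γ 1 1 : ℤ)) *
    (((γ 1 0 : ℤ) : ℂ) * τ + (γ 1 1 : ℤ))) * hdet

/-- The multiplier of a slash-eigenfunction at a fixed point. -/
lemma eq_denom_zpow_of_fix {k : ℤ} {H : ℍ → ℂ} (hH : MDiff H) (hH0 : H ≠ 0) {γ : SL(2, ℤ)}
    {τ : ℍ} (hγ : γ • τ = τ) {c : ℂ} (hc : H ∣[k] γ = c • H) :
    c = denom γ τ ^ (-(k + 2 * (ordAt τ H : ℤ))) := by
  obtain ⟨g, hg, hg0, hfac⟩ := exists_factor (analyticOnNhd_comp_ofComplex hH) τ.im_pos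
    (analyticOrderAt_ne_top hH hH0 τ)
  set n := ordAt τ H with hn
  have hfac' : ∀ z : ℍ, H z = ((z : ℂ) - τ) ^ n * g z := by
    intro z
    have := hfac z
    rw [comp_ofComplex] at this
    exact this
  have hj0 : denom γ τ ≠ 0 := denom_ne_zero γ τ
  have hev : ∀ᶠ z : ℍ in 𝓝[≠] τ,
      g ((γ • z : ℍ) : ℂ) * denom γ z ^ (-k) / (denom γ z * denom γ τ) ^ n = c * g z := by
    filter_upwards [self_mem_nhdsWithin] with z hz
    have hz' : (z : ℂ) - τ ≠ 0 := by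
      rw [sub_ne_zero]
      intro h
      exact hz (UpperHalfPlane.ext h)
    have h1 := congrFun hc z
    rw [SL_slash_apply, Pi.smul_apply, smul_eq_mul, hfac', hfac' z] at h1
    have h2 : ((γ • z : ℍ) : ℂ) - τ = ((z : ℂ) - τ) / (denom γ z * denom γ τ) := by
      rw [← coe_smul_sub_coe_smul, hγ]
    rw [h2, div_pow] at h1
    have h3 : (denom γ z * denom γ τ) ^ n ≠ 0 :=
      pow_ne_zero _ (mul_ne_zero (denom_ne_zero γ z) hj0)
    have h4 : ((z : ℂ) - τ) ^ n ≠ 0 := pow_ne_zero _ hz'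
    apply mul_left_cancel₀ h4
    rw [← mul_assoc, mul_comm (((z : ℂ) - τ) ^ n) c, mul_assoc, ← h1]
    field_simp
  have hgc : ContinuousAt g (τ : ℂ) := (hg _ τ.im_pos).continuousAt
  have hcoe : ContinuousAt ((↑) : ℍ → ℂ) τ := UpperHalfPlane.continuous_coe.continuousAt
  have hgc1 : ContinuousAt (fun z : ℍ => g z) τ :=
    ContinuousAt.comp (f := ((↑) : ℍ → ℂ)) (g := g) hgc hcoe
  have hsm : ContinuousAt (fun z : ℍ => γ • z) τ := by
    have h1 : Continuous (fun z : ℍ => (γ : GL (Fin 2) ℝ) • z) := continuous_const_smul _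
    exact h1.continuousAt
  have hgc2 : ContinuousAt (fun z : ℍ => g ((γ • z : ℍ) : ℂ)) τ := by
    have h1 : ContinuousAt (fun z : ℍ => g z) (γ • τ) := by rwa [hγ]
    exact ContinuousAt.comp (f := fun z : ℍ => γ • z) (g := fun z : ℍ => g z) h1 hsm
  have hdc : ContinuousAt (fun z : ℍ => denom γ z) τ :=
    (mdifferentiable_denom (γ : GL (Fin 2) ℝ)).continuous.continuousAt
  have hL : ContinuousAt (fun z : ℍ =>
      g ((γ • z : ℍ) : ℂ) * denom γ z ^ (-k) / (denom γ z * denom γ τ) ^ n) τ := by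
    refine (hgc2.mul (hdc.zpow₀ _ (Or.inl hj0))).div ((hdc.mul continuousAt_const).pow n) ?_
    exact pow_ne_zero _ (mul_ne_zero hj0 hj0)
  have hR : ContinuousAt (fun z : ℍ => c * g z) τ := continuousAt_const.mul hgc1
  have heq := tendsto_nhds_unique_of_eventuallyEq (hL.tendsto.mono_left nhdsWithin_le_nhds)
    (hR.tendsto.mono_left nhdsWithin_le_nhds) hev
  rw [hγ] at heq
  have h5 : c = denom γ τ ^ (-k) / (denom γ τ * denom γ τ) ^ n := by
    apply mul_right_cancel₀ hg0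
    rw [← heq]
    ring
  have h6 : (denom γ τ * denom γ τ) ^ n = denom γ τ ^ (2 * (n : ℤ)) := by
    rw [← pow_two, ← pow_mul, ← zpow_natCast, Nat.cast_mul, Nat.cast_two]
  rw [h5, h6, neg_add, zpow_add₀ hj0, zpow_neg _ (2 * (n : ℤ)), div_eq_mul_inv]

section

variable {N m : ℕ} {x y : LaurentSeries ℂ} {ψ ψ' : Gamma0 N →* ℂˣ} {k l : ℤ}
  {f g H f' g' H' : ℍ → ℂ}

lemma IsMF.denom_zpow_eq_one (hf : IsMF N k f) (hf0 : f ≠ 0) (γ : Gamma0 N) {τ : ℍ}
    (hγ : (γ : SL(2, ℤ)) • τ = τ) :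
    denom (γ : SL(2, ℤ)) τ ^ (-(k + 2 * (ordAt τ f : ℤ))) = 1 := by
  refine (eq_denom_zpow_of_fix hf.mdiff hf0 hγ (c := 1) ?_).symm
  rw [hf.slash_eq γ, one_smul]

/-- Triviality on elliptic elements (and on `-1`). -/
theorem HasRootChar.eq_one_of_fix (hm : m ≠ 0) (h : HasRootChar N m x ψ) (hx : StrongDvd N m x)
    (γ : Gamma0 N) {τ : ℍ} (hγ : (γ : SL(2, ℤ)) • τ = τ) : ψ γ = 1 := by
  obtain ⟨k, f, g, H, h⟩ := hasRootChar_iff.1 h
  have hj0 : denom (γ : SL(2, ℤ)) τ ≠ 0 := denom_ne_zero _ τ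
  set j : ℂ := denom (γ : SL(2, ℤ)) τ with hj
  set u : ℂˣ := Units.mk0 j hj0 with hu
  set e : ℕ := orderOf (u ^ 2) with he
  have hkey : ∀ (k : ℤ) (f g : ℍ → ℂ), IsMF N k f → IsMF N k g → f ≠ 0 → g ≠ 0 →
      (e : ℤ) ∣ (ordAt τ f : ℤ) - ordAt τ g := by
    intro k f g hf hg hf0 hg0
    have h1 := hf.denom_zpow_eq_one hf0 γ hγ
    have h2 := hg.denom_zpow_eq_one hg0 γ hγ
    rw [orderOf_dvd_iff_zpow_eq_one]
    ext
    simp only [Units.val_zpow_eq_zpow_val, Units.val_pow_eq_pow_val, Units.val_one, hu,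
      Units.val_mk0]
    rw [← zpow_natCast, ← zpow_mul]
    have h3 : ((2 : ℕ) : ℤ) * ((ordAt τ f : ℤ) - ordAt τ g) =
        -(k + 2 * (ordAt τ g : ℤ)) - -(k + 2 * (ordAt τ f : ℤ)) := by
      push_cast
      ring
    rw [h3, zpow_sub₀ hj0, h1, h2, div_one]
  have hval : ∀ y ∈ mfq N, y ≠ 0 → (e : ℤ) ∣ (ordPt N τ).val y := by
    intro y hy hy0
    obtain ⟨k', f', g', h'⟩ := MFRep.exists_of_mem hy hy0
    rw [(ordPt N τ).val_eq h']
    exact hkey k' f' g' h'.hf h'.hg h'.hf0 h'.hg0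
  obtain ⟨t, ht⟩ := hx (ordPt N τ) e (by omega) hval
  rw [(ordPt N τ).val_eq h.rep] at ht
  change (ordAt τ f : ℤ) - ordAt τ g = e * m * t at ht
  have h1 : m * ordAt τ H = ordAt τ f + (m - 1) * ordAt τ g := by
    rw [← ordAt_pow h.mdiff (h.H_ne_zero hm), h.pow_eq,
      ordAt_mul h.rep.hf.mdiff (mdiff_pow h.rep.hg.mdiff _) h.rep.hf0
        (pow_ne_zero_of_mdiff h.rep.hg0 _), ordAt_pow h.rep.hg.mdiff h.rep.hg0]
  have h2 : (ordAt τ H : ℤ) = e * t + ordAt τ g := by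
    have h3 : (m : ℤ) * ordAt τ H = ordAt τ f + (m - 1) * ordAt τ g := by
      have h4 : ((m * ordAt τ H : ℕ) : ℤ) = ((ordAt τ f + (m - 1) * ordAt τ g : ℕ) : ℤ) := by
        rw [h1]
      rw [Nat.cast_add, Nat.cast_mul, Nat.cast_mul,
        Nat.cast_sub (Nat.one_le_iff_ne_zero.2 hm)] at h4
      simpa using h4
    have hm' : (m : ℤ) ≠ 0 := by exact_mod_cast hm
    apply mul_left_cancel₀ hm'
    rw [h3]
    linear_combination ht
  have h3 := eq_denom_zpow_of_fix h.mdiff (h.H_ne_zero hm) hγ (h.slash γ)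
  ext
  rw [h3, Units.val_one, ← hj]
  have h4 : -(k + 2 * (ordAt τ H : ℤ)) = -(k + 2 * (ordAt τ g : ℤ)) + 2 * e * (-t) := by
    rw [h2]
    ring
  rw [h4, zpow_add₀ hj0, h.rep.hg.denom_zpow_eq_one h.rep.hg0 γ hγ, one_mul, zpow_mul, zpow_mul]
  have h5 : (j ^ (2 : ℤ)) ^ (e : ℤ) = 1 := by
    have h6 := pow_orderOf_eq_one (u ^ 2)
    have h7 := congrArg (Units.val) h6
    rw [Units.val_pow_eq_pow_val, Units.val_pow_eq_pow_val, Units.val_one] at h7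
    rw [zpow_natCast]
    exact_mod_cast h7
  rw [h5, one_zpow]

/-- Triviality on the elements `σ T^w σ⁻¹`, `w > 0`. -/
theorem HasRootChar.eq_one_of_unipotent [NeZero N] (hm : m ≠ 0) (h : HasRootChar N m x ψ)
    (hx : StrongDvd N m x) (γ : Gamma0 N) {σ : SL(2, ℤ)} {w : ℤ} (hw : 0 < w)
    (hγ : (γ : SL(2, ℤ)) = σ * ModularGroup.T ^ w * σ⁻¹) : ψ γ = 1 := by
  obtain ⟨k, f, g, H, h⟩ := hasRootChar_iff.1 h
  have hmem : σ * ModularGroup.T ^ w * σ⁻¹ ∈ Gamma0 N := hγ ▸ γ.2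
  have hw' : (0 : ℝ) < w := by exact_mod_cast hw
  have hPM := h.rep.isMF hm
  have hP : NiceAt w ((f * g ^ (m - 1)) ∣[(m * k : ℤ)] σ) := hPM.niceAt hmem
  have hP0 : (f * g ^ (m - 1)) ∣[(m * k : ℤ)] σ ≠ 0 := slash_ne_zero h.rep.ne_zero' σ
  have hord : (m : ℤ) ∣ cuspOrd w ((f * g ^ (m - 1)) ∣[(m * k : ℤ)] σ) := by
    have h1 : (f * g ^ (m - 1)) ∣[(m * k : ℤ)] σ = (f ∣[k] σ) * (g ∣[k] σ) ^ (m - 1) := by
      have h2 : (m * k : ℤ) = k + ((m - 1 : ℕ) * k : ℤ) := by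
        rw [Nat.cast_sub (Nat.one_le_iff_ne_zero.2 hm)]
        push_cast
        ring
      rw [h2, ModularForm.mul_slash_SL2, slash_pow]
    have hgσ0 : g ∣[k] σ ≠ 0 := slash_ne_zero h.rep.hg0 σ
    rw [h1, (h.rep.hf.niceAt hmem).cuspOrd_mul hw' ((h.rep.hg.niceAt hmem).pow _)
      (slash_ne_zero h.rep.hf0 σ) (pow_ne_zero_of_mdiff hgσ0 _),
      (h.rep.hg.niceAt hmem).cuspOrd_pow hw' hgσ0]
    have h3 := hx.dvd (ordCusp N σ w hw hmem)
    rw [(ordCusp N σ w hw hmem).val_eq h.rep] at h3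
    change (m : ℤ) ∣ (cuspOrd w (f ∣[k] σ) : ℤ) - cuspOrd w (g ∣[k] σ) at h3
    have h4 : ((cuspOrd w (f ∣[k] σ) + (m - 1) * cuspOrd w (g ∣[k] σ) : ℕ) : ℤ) =
        ((cuspOrd w (f ∣[k] σ) : ℤ) - cuspOrd w (g ∣[k] σ)) + m * cuspOrd w (g ∣[k] σ) := by
      rw [Nat.cast_add, Nat.cast_mul, Nat.cast_sub (Nat.one_le_iff_ne_zero.2 hm)]
      push_cast
      ring
    rw [h4]
    exact dvd_add h3 (dvd_mul_right _ _)
  have key := eq_one_of_dvd_cuspOrd hm hw' hP hP0 (by exact_mod_cast hord)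
    (slash_mdiff k h.mdiff σ) (by
      intro z
      have h1 := slash_pow k H σ m
      rw [h.pow_eq] at h1
      exact (congrFun h1 z).symm) (c := (ψ γ : ℂ)) (by
      intro z
      rw [← slash_T_zpow k (H ∣[k] σ) w z, ← SlashAction.slash_mul]
      have h2 : σ * ModularGroup.T ^ w = (γ : SL(2, ℤ)) * σ := by
        rw [hγ]
        group
      rw [h2, SlashAction.slash_mul, h.slash γ, ModularForm.SL_smul_slash]
      rfl)
  ext
  exact key

end

/-! ### Classification of parabolic elements -/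

lemma exists_conj_of_trace_sq {γ : SL(2, ℤ)} (h : (γ 0 0 + γ 1 1) ^ 2 = 4) :
    ∃ (σ : SL(2, ℤ)) (w : ℤ), γ = σ * ModularGroup.T ^ w * σ⁻¹ ∨
      γ = -(σ * ModularGroup.T ^ w * σ⁻¹) := by
  have hdet : γ 0 0 * γ 1 1 - γ 0 1 * γ 1 0 = 1 := by
    have := γ.det_coe
    rwa [Matrix.det_fin_two] at this
  obtain ⟨ε, hε, hε2⟩ : ∃ ε : ℤ, γ 0 0 + γ 1 1 = 2 * ε ∧ (ε = 1 ∨ ε = -1) := by
    have h1 : (γ 0 0 + γ 1 1 - 2) * (γ 0 0 + γ 1 1 + 2) = 0 := by linear_combination h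
    rcases mul_eq_zero.1 h1 with h2 | h2
    · exact ⟨1, by linarith, Or.inl rfl⟩
    · exact ⟨-1, by linarith, Or.inr rfl⟩
  have hεε : ε * ε = 1 := by rcases hε2 with h | h <;> rw [h] <;> norm_num
  -- a primitive eigenvector
  obtain ⟨p, q, hpq, h1, h2⟩ : ∃ p q : ℤ, IsCoprime p q ∧ γ 0 0 * p + γ 0 1 * q = ε * p ∧
      γ 1 0 * p + γ 1 1 * q = ε * q := by
    by_cases hc : γ 1 0 = 0
    · refine ⟨1, 0, isCoprime_one_left, ?_, ?_⟩
      · rw [hc] at hdet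
        have h3 : (γ 0 0 - ε) ^ 2 = 0 := by
          have : γ 1 1 = 2 * ε - γ 0 0 := by linarith
          rw [this] at hdet
          linear_combination -hdet + hεε
        have h4 : γ 0 0 - ε = 0 := by
          exact pow_eq_zero_iff (two_ne_zero) |>.1 h3
        linear_combination h4
      · rw [hc]
        ring
    · have hd : (Int.gcd (γ 0 0 - ε) (γ 1 0) : ℤ) ≠ 0 := by
        intro h0
        have := Int.gcd_eq_zero_iff.1 (by exact_mod_cast h0 : Int.gcd (γ 0 0 - ε) (γ 1 0) = 0)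
        exact hc this.2
      obtain ⟨p, hp⟩ : ((Int.gcd (γ 0 0 - ε) (γ 1 0) : ℕ) : ℤ) ∣ γ 0 0 - ε :=
        Int.gcd_dvd_left _ _
      obtain ⟨q, hq⟩ : ((Int.gcd (γ 0 0 - ε) (γ 1 0) : ℕ) : ℤ) ∣ γ 1 0 := Int.gcd_dvd_right _ _
      set d : ℤ := ((Int.gcd (γ 0 0 - ε) (γ 1 0) : ℕ) : ℤ) with hd'
      refine ⟨p, q, ?_, ?_, ?_⟩
      · have h3 := Int.gcd_eq_gcd_ab (γ 0 0 - ε) (γ 1 0)
        rw [← hd'] at h3
        refine ⟨Int.gcdA (γ 0 0 - ε) (γ 1 0), Int.gcdB (γ 0 0 - ε) (γ 1 0), ?_⟩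
        apply mul_left_cancel₀ hd
        rw [mul_one]
        conv_rhs => rw [h3]
        conv_rhs => rw [hp, hq]
        rw [← hp, ← hq]
        linear_combination (-Int.gcdA (γ 0 0 - ε) (γ 1 0)) * hp +
          (-Int.gcdB (γ 0 0 - ε) (γ 1 0)) * hq
      · apply mul_left_cancel₀ hd
        have h4 : γ 1 1 = 2 * ε - γ 0 0 := by linarith
        rw [h4] at hdet
        linear_combination (-(γ 0 0 - ε)) * hp - γ 0 1 * hq - hdet + hεε
      · apply mul_left_cancel₀ hd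
        linear_combination (-(γ 1 0)) * hp - (γ 1 1 - ε) * hq + γ 1 0 * hε
  obtain ⟨σ, hσ0, hσ1⟩ := hpq.exists_SL2_col 0
  have hσdet : σ 0 0 * σ 1 1 - σ 0 1 * σ 1 0 = 1 := by
    have := σ.det_coe
    rwa [Matrix.det_fin_two] at this
  -- the conjugate is upper triangular
  set δ : SL(2, ℤ) := σ⁻¹ * γ * σ with hδ
  have hδ00 : δ 0 0 = ε := by
    rw [hδ]
    simp only [Matrix.SpecialLinearGroup.coe_mul, Matrix.SpecialLinearGroup.coe_inv,
      Matrix.mul_apply, Fin.sum_univ_two, Matrix.adjugate_fin_two, Matrix.of_apply,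
      Matrix.cons_val', Matrix.cons_val_zero, Matrix.cons_val_one, Matrix.cons_val_fin_one]
    rw [hσ0, hσ1] at *
    linear_combination σ 1 1 * h1 - σ 0 1 * h2 + ε * hσdet
  have hδ10 : δ 1 0 = 0 := by
    rw [hδ]
    simp only [Matrix.SpecialLinearGroup.coe_mul, Matrix.SpecialLinearGroup.coe_inv,
      Matrix.mul_apply, Fin.sum_univ_two, Matrix.adjugate_fin_two, Matrix.of_apply,
      Matrix.cons_val', Matrix.cons_val_zero, Matrix.cons_val_one, Matrix.cons_val_fin_one]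
    rw [hσ0, hσ1] at *
    linear_combination (-q) * h1 + p * h2
  have hδdet : δ 0 0 * δ 1 1 - δ 0 1 * δ 1 0 = 1 := by
    have := δ.det_coe
    rwa [Matrix.det_fin_two] at this
  have hδ11 : δ 1 1 = ε := by
    rw [hδ00, hδ10] at hδdet
    have : ε * (ε * δ 1 1) = ε * 1 := by
      congr 1
      linarith
    rw [← mul_assoc, hεε, one_mul, mul_one] at this
    exact this
  have hγδ : γ = σ * δ * σ⁻¹ := by
    rw [hδ]
    group
  rcases hε2 with h | h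
  · refine ⟨σ, δ 0 1, Or.inl ?_⟩
    rw [hγδ]
    congr 2
    ext i j
    fin_cases i <;> fin_cases j <;>
      simp [ModularGroup.coe_T_zpow, hδ00, hδ10, hδ11, h]
  · obtain ⟨b, hb⟩ : ∃ b, b = δ 0 1 := ⟨_, rfl⟩
    refine ⟨σ, -b, Or.inr ?_⟩
    rw [hγδ]
    have h5 : δ = -(ModularGroup.T ^ (-b)) := by
      ext i j
      fin_cases i <;> fin_cases j <;>
        simp [ModularGroup.coe_T_zpow, hδ00, hδ10, hδ11, h, hb]
    rw [h5]
    simp

section

variable {N m : ℕ} {x y : LaurentSeries ℂ} {ψ ψ' : Gamma0 N →* ℂˣ}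

/-- Triviality on all elements of trace `± 2`. -/
theorem HasRootChar.eq_one_of_trace_sq [NeZero N] (hm : m ≠ 0) (h : HasRootChar N m x ψ)
    (hx : StrongDvd N m x) (γ : Gamma0 N)
    (hγ : ((γ : SL(2, ℤ)) 0 0 + (γ : SL(2, ℤ)) 1 1) ^ 2 = 4) : ψ γ = 1 := by
  have hneg : ∀ δ : Gamma0 N, (δ : SL(2, ℤ)) = -1 → ψ δ = 1 := by
    intro δ hδ
    refine h.eq_one_of_fix hm hx δ (τ := I) ?_
    rw [hδ]
    simp
  have hone : ∀ δ : Gamma0 N, (δ : SL(2, ℤ)) = 1 → ψ δ = 1 := by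
    intro δ hδ
    have : δ = 1 := Subtype.ext hδ
    rw [this, map_one]
  have huni : ∀ (δ : Gamma0 N) (σ : SL(2, ℤ)) (w : ℤ),
      (δ : SL(2, ℤ)) = σ * ModularGroup.T ^ w * σ⁻¹ → ψ δ = 1 := by
    intro δ σ w hδ
    rcases lt_trichotomy w 0 with hw | hw | hw
    · have h1 : ψ δ⁻¹ = 1 := by
        refine h.eq_one_of_unipotent hm hx δ⁻¹ (σ := σ) (w := -w) (by omega) ?_
        rw [Subgroup.coe_inv, hδ]
        group
      rw [map_inv, inv_eq_one] at h1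
      exact h1
    · apply hone
      rw [hδ, hw]
      simp
    · exact h.eq_one_of_unipotent hm hx δ hw hδ
  obtain ⟨σ, w, hσ | hσ⟩ := exists_conj_of_trace_sq hγ
  · exact huni γ σ w hσ
  · have hnmem : (-1 : SL(2, ℤ)) ∈ Gamma0 N := by
      rw [Gamma0_mem]
      simp
    have h1 : ψ (⟨-1, hnmem⟩ * γ) = 1 := by
      refine huni _ σ w ?_
      rw [Subgroup.coe_mul, hσ]
      simp
    rw [map_mul, hneg ⟨-1, hnmem⟩ rfl, one_mul] at h1
    exact h1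

end

end Fermat.Agent.H01
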