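import Fermat.Agent.H01.LevelRaise
import Fermat.Agent.H01.EllPar

/-!
# `laurentBaseChange ℂ (modularFunctionFieldFull N) ≤ mfq N`
-/

set_option autoImplicit false

namespace Fermat.Agent.H01

open UpperHalfPlane Filter Topology ModularForm CongruenceSubgroup ModularCurve
open scoped Manifold MatrixGroups ModularForm

lemma coeffMap_ofPowerSeries {R S : Type*} [CommRing R] [CommRing S] (φ : R →+* S)
    (P : PowerSeries R) :
    coeffMap φ (HahnSeries.ofPowerSeries ℤ R P) = HahnSeries.ofPowerSeries ℤ S (P.map φ) := by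
  ext n
  rw [coeffMap_coeff]
  rcases lt_or_ge n 0 with hm | hm
  · rw [ofPowerSeries_coeff_of_neg _ hm, ofPowerSeries_coeff_of_neg _ hm, map_zero]
  · lift n to ℕ using hm
    rw [HahnSeries.ofPowerSeries_apply_coeff, HahnSeries.ofPowerSeries_apply_coeff,
      PowerSeries.coeff_map]

lemma coeffEmb_jq : coeffEmb ℂ jq =
    HahnSeries.single (-1 : ℤ) 1 * HahnSeries.ofPowerSeries ℤ ℂ (jNum.map (Int.castRingHom ℂ)) := by
  rw [jq, coeffEmb, map_mul, coeffMap_single, map_one, coeffMap_ofPowerSeries, jNumQ]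
  congr 2

/-- `j = E₄³ / Δ` as Laurent series. -/
theorem coeffEmb_jq_mul :
    coeffEmb ℂ jq * qLf ModularForm.discriminant = qLf ((ModularForm.E₄ : ℍ → ℂ) ^ 3) := by
  have h1 : qLf ((ModularForm.E₄ : ℍ → ℂ) ^ 3) = qLf (ModularForm.E₄ : ℍ → ℂ) ^ 3 :=
    qLf_pow (IsMF.of_levelOne 1 ModularForm.E₄) 3
  rw [h1, coeffEmb_jq, qLf, qLf, qExpansion_discriminant, qExpansion_E4, map_mul,
    HahnSeries.ofPowerSeries_X, ← map_pow, ← map_pow]
  have h2 : jNum * dedekindEtaUnit = eisenstein4 ^ 3 := by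
    rw [jNum, mul_assoc, mul_comm dedekindEtaUnitInv, dedekindEtaUnit_mul_inv, mul_one]
  rw [← h2, map_mul, map_mul]
  have h3 : (HahnSeries.single (-1 : ℤ) (1 : ℂ)) * HahnSeries.single (1 : ℤ) (1 : ℂ) = 1 := by
    rw [HahnSeries.single_mul_single]
    simp
  calc _ = ((HahnSeries.single (-1 : ℤ) (1 : ℂ)) * HahnSeries.single (1 : ℤ) (1 : ℂ)) *
      (HahnSeries.ofPowerSeries ℤ ℂ (jNum.map (Int.castRingHom ℂ)) *
        HahnSeries.ofPowerSeries ℤ ℂ (dedekindEtaUnit.map (Int.castRingHom ℂ))) := by ring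
    _ = _ := by rw [h3, one_mul]

lemma coeffMap_qExpand {R S : Type*} [CommRing R] [CommRing S] (f : R →+* S) (n : ℕ)
    [NeZero n] (x : LaurentSeries R) : coeffMap f (qExpand R n x) = qExpand S n (coeffMap f x) := by
  ext k
  by_cases hk : (n : ℤ) ∣ k
  · obtain ⟨m, rfl⟩ := hk
    rw [coeffMap_coeff, qExpand_coeff_mul, qExpand_coeff_mul, coeffMap_coeff]
  · rw [coeffMap_coeff, qExpand_coeff_of_not_dvd n _ hk, qExpand_coeff_of_not_dvd n _ hk,
      map_zero]

lemma discriminant_fun_ne_zero : ModularForm.discriminant ≠ 0 := by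
  intro h
  exact ModularForm.discriminant_ne_zero I (congrFun h I)

lemma vz_ne_zero {f : ℍ → ℂ} (hf : f ≠ 0) {d : ℕ} (hd : 0 < d) : vz d f ≠ 0 := by
  intro h
  apply hf
  ext z
  have hz : 0 < ((z : ℂ) / d).im := by
    have : ((z : ℂ) / d).im = (z : ℂ).im / d := by
      rw [Complex.div_natCast_im]
    rw [this]
    exact div_pos z.im_pos (by exact_mod_cast hd)
  have h1 := congrFun h ⟨(z : ℂ) / d, hz⟩
  have hd' : (d : ℂ) ≠ 0 := by exact_mod_cast hd.ne'
  simp only [vz, Pi.zero_apply] at h1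
  have h2 : (d : ℂ) * ((z : ℂ) / d) = z := by field_simp
  change f (ofComplex ((d : ℂ) * ((z : ℂ) / d))) = 0 at h1
  rw [h2, ofComplex_apply] at h1
  exact h1

/-- The map `q ↦ q^d` sends `mfq N` to `mfq (N d)`. -/
theorem qExpand_mem_mfq {N : ℕ} [NeZero N] {d : ℕ} [NeZero d] {x : LaurentSeries ℂ}
    (hx : x ∈ mfq N) : qExpand ℂ d x ∈ mfq (N * d) := by
  have hd : 0 < d := Nat.pos_of_ne_zero (NeZero.ne d)
  obtain ⟨k, f, g, hf, hg, hg0, h⟩ := mem_mfq'.1 hx
  refine mem_mfq'.2 ⟨k, vz d f, vz d g, hf.vz hd, hg.vz hd, vz_ne_zero hg0 hd, ?_⟩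
  rw [hf.qLf_vz, hg.qLf_vz, ← map_mul, h]

lemma mfq_mono {M N : ℕ} [NeZero N] [NeZero M] (h : M ∣ N) : mfq M ≤ mfq N := by
  intro x hx
  obtain ⟨k, f, g, hf, hg, hg0, h1⟩ := mem_mfq'.1 hx
  exact mem_mfq'.2 ⟨k, f, g, hf.mono h, hg.mono h, hg0, h1⟩

lemma coeffEmb_jq_mem : coeffEmb ℂ jq ∈ mfq 1 := by
  refine mem_mfq'.2 ⟨12, _, _, ?_, IsMF.discriminant 1, discriminant_fun_ne_zero, coeffEmb_jq_mul⟩
  exact ((IsMF.of_levelOne 1 ModularForm.E₄).pow 3).cast (by norm_num)

/-- The function field of `X₀(N)` over `ℂ` consists of quotients of modular forms. -/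
theorem laurentBaseChange_le_mfq (N : ℕ) [NeZero N] :
    laurentBaseChange ℂ (modularFunctionFieldFull N) ≤ mfq N := by
  have h1 : ∀ x ∈ modularFunctionFieldFull N, coeffEmb ℂ x ∈ mfq N := by
    intro x hx
    rw [modularFunctionFieldFull] at hx
    induction hx using IntermediateField.adjoin_induction with
    | mem y hy =>
      obtain ⟨d, hd0, hd, rfl⟩ := hy
      rw [coeffEmb, coeffMap_qExpand]
      have h2 : qExpand ℂ d (coeffEmb ℂ jq) ∈ mfq (1 * d) := qExpand_mem_mfq coeffEmb_jq_mem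
      rw [one_mul] at h2
      exact mfq_mono hd h2
    | algebraMap c =>
      have h3 : coeffEmb ℂ (algebraMap ℚ (LaurentSeries ℚ) c) =
          algebraMap ℂ (LaurentSeries ℂ) (c : ℂ) := by
        rw [algebraMap_apply_eq_single, algebraMap_laurentSeries_eq_single, coeffEmb,
          coeffMap_single]
        simp
      rw [h3]
      exact (mfq N).algebraMap_mem _
    | add x y _ _ hx hy =>
      rw [map_add]
      exact add_mem hx hy
    | mul x y _ _ hx hy =>
      rw [map_mul]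
      exact mul_mem hx hy
    | inv x _ hx =>
      rw [map_inv₀]
      exact inv_mem hx
  rw [laurentBaseChange, IntermediateField.adjoin_le_iff]
  rintro _ ⟨x, hx, rfl⟩
  exact h1 x hx

end Fermat.Agent.H01
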