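import Fermat.Agent.H01.OrdRel

/-!
# The determinant of a representation attached to a Hecke system
-/

set_option autoImplicit false
set_option linter.style.haveILetI false
set_option linter.unusedSectionVars false
set_option maxSynthPendingDepth 3

noncomputable section

namespace Fermat.Agent.Strict

open Polynomial Module Fermat.Agent.H05

local notation "Qb" => AlgebraicClosure ℚ
local notation "Γℚ" => AlgebraicClosure ℚ ≃ₐ[ℚ] AlgebraicClosure ℚ

/-- the ring homomorphism to a trivial ring -/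
def toTrivial (R S : Type*) [CommRing R] [Ring S] [Subsingleton S] : R →+* S where
  toFun _ := 0
  map_one' := Subsingleton.elim _ _
  map_mul' _ _ := Subsingleton.elim _ _
  map_zero' := rfl
  map_add' _ _ := Subsingleton.elim _ _

/-- **The determinant is the cyclotomic character.** -/
theorem detIsCyclotomic_of_frob {p N : ℕ} [NeZero N] (hp : p.Prime)
    {S : Finset ℕ} (hpS : p ∈ S) (hNS : ∀ q : ℕ, q.Prime → q ∣ N → q ∈ S)
    {T : Type} [CommRing T] [IsLocalRing T] [IsNoetherianRing T]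
    (hpT : (p : T) ∈ IsLocalRing.maximalIdeal T) (ρ : GaloisRepAdic T)
    (π : CuspForm.heckeAlgebra N 2 (↑S : Set ℕ) →+* T)
    (hfrob : ∀ (ℓ : ℕ) (hℓ : ℓ.Prime) (hℓN : ¬ ℓ ∣ N) (hℓS : ℓ ∉ (↑S : Set ℕ)),
      ∀ A : ValuationSubring (AlgebraicClosure ℚ), A.LiesOverPrime ℓ →
        ∀ σ : Γℚ, A.IsFrobeniusAt σ ℓ → LinearMap.charpoly (ρ.ρ σ) =
          X ^ 2 - C (π (CuspForm.heckeAlgebra.T hℓ hℓN hℓS)) * X + C ((ℓ : T))) :
    ρ.DetIsCyclotomic p := by
  refine ⟨hpT, fun n σ a ha => ?_⟩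
  -- the ideal `(pⁿ)` is closed
  have hcl : ∀ x : T, (∀ k : ℕ, x ∈ Ideal.span {((p ^ n : ℕ) : T)} ⊔
      IsLocalRing.maximalIdeal T ^ k) → x ∈ Ideal.span {((p ^ n : ℕ) : T)} := by
    intro x hx
    set I := Ideal.span {((p ^ n : ℕ) : T)} with hI
    by_cases htop : I = ⊤
    · rw [htop]; trivial
    haveI : Nontrivial (T ⧸ I) := Ideal.Quotient.nontrivial_iff.mpr htop
    haveI : IsLocalRing (T ⧸ I) := IsLocalRing.of_surjective' (Ideal.Quotient.mk I)
      Ideal.Quotient.mk_surjective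
    have h1 : (⨅ k : ℕ, IsLocalRing.maximalIdeal (T ⧸ I) ^ k) = ⊥ :=
      Ideal.iInf_pow_eq_bot_of_isLocalRing _ (IsLocalRing.maximalIdeal.isMaximal _).ne_top
    rw [← Ideal.Quotient.eq_zero_iff_mem, ← Submodule.mem_bot (R := T ⧸ I), ← h1,
      Submodule.mem_iInf]
    intro k
    obtain ⟨y, hy, z, hz, rfl⟩ := Submodule.mem_sup.mp (hx k)
    rw [map_add, Ideal.Quotient.eq_zero_iff_mem.mpr hy, zero_add]
    have h2 : (IsLocalRing.maximalIdeal T).map (Ideal.Quotient.mk I) ≤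
        IsLocalRing.maximalIdeal (T ⧸ I) := by
      rw [Ideal.map_le_iff_le_comap]
      intro w hw
      rw [Ideal.mem_comap, IsLocalRing.mem_maximalIdeal]
      intro hu
      haveI : IsLocalHom (Ideal.Quotient.mk I) :=
        IsLocalHom.of_surjective (Ideal.Quotient.mk I) Ideal.Quotient.mk_surjective
      exact (IsLocalRing.mem_maximalIdeal _).mp hw (isUnit_of_map_unit (Ideal.Quotient.mk I) w hu)
    have h3 : Ideal.Quotient.mk I z ∈ (IsLocalRing.maximalIdeal T ^ k).map (Ideal.Quotient.mk I) :=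
      Ideal.mem_map_of_mem _ hz
    rw [Ideal.map_pow] at h3
    exact Ideal.pow_right_mono h2 k h3
  apply hcl
  intro k
  obtain ⟨ζ, hζ⟩ := exists_primitive hp n
  haveI : Subsingleton (Module.End ℤ PUnit) := ⟨fun f g => LinearMap.ext fun x => rfl⟩
  obtain ⟨s, c, -, hc, -, hcyc⟩ := exists_hecke_trace_det H25.weakChebotarev hp hpS
    hNS ρ π hfrob (W := PUnit) (toTrivial _ _) 1 ⟨⊥, inferInstance, fun σ _ => rfl⟩
    (fun ℓ hℓ hℓN hℓS hℓp A hA φ hφ w => Subsingleton.elim _ _) k n ζ hζ.pow_eq_one σ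
  have h1 : ((p ^ n : ℕ) : ℤ) ∣ (c : ℤ) - a := by
    apply dvd_of_pow_eq (pow_pos hp.pos _).ne' hζ
    rw [← hcyc, ha ζ hζ.pow_eq_one]
  have h2 : LinearMap.det (ρ.ρ σ) - (a : T) =
      ((c : T) - a) + (LinearMap.det (ρ.ρ σ) - (c : T)) := by ring
  rw [h2]
  refine Submodule.add_mem_sup ?_ hc
  rw [Ideal.mem_span_singleton]
  obtain ⟨d, hd⟩ := h1
  exact ⟨(d : T), by
    have := congrArg (Int.cast (R := T)) hd
    push_cast at this ⊢
    exact this⟩

end Fermat.Agent.Strict
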