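import Mathlib

/-!
# Field theoretic and group theoretic lemmas for the norm formula
-/

set_option autoImplicit false

namespace Fermat.Agent.H01

open Polynomial

/-- If every element of `L` is annihilated by a monic polynomial of degree at most `n` then
`[L : K] ≤ n`. -/
theorem finrank_le_of_forall_annihilated {K L : Type*} [Field K] [Field L] [Algebra K L]
    [CharZero K] {n : ℕ}
    (h : ∀ y : L, ∃ P : K[X], P.Monic ∧ P.natDegree ≤ n ∧ aeval y P = 0) :
    FiniteDimensional K L ∧ Module.finrank K L ≤ n := by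
  have hint : ∀ y : L, IsIntegral K y := fun y => by
    obtain ⟨P, hP, -, h0⟩ := h y
    exact ⟨P, hP, h0⟩
  have hcard : ∀ s : Finset L, LinearIndependent K (fun i : s => (i : L)) → s.card ≤ n := by
    intro s hs
    let E := IntermediateField.adjoin K (s : Set L)
    have hfin : FiniteDimensional K E :=
      IntermediateField.finiteDimensional_adjoin fun x _ => hint x
    obtain ⟨α, hα⟩ := Field.exists_primitive_element K E
    have h1 : Module.finrank K E = (minpoly K α).natDegree := by
      rw [← IntermediateField.adjoin.finrank (IsIntegral.of_finite K α), hα]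
      exact (IntermediateField.finrank_top' (F := K) (E := E)).symm
    obtain ⟨P, hP, hPn, hP0⟩ := h (α : L)
    have h2 : aeval α P = 0 := by
      have h3 : aeval (α : L) P = ((aeval α P : E) : L) := by
        rw [← IntermediateField.val_mk (S := E) (x := (aeval α P : E).1) (aeval α P : E).2]
        exact aeval_algHom_apply E.val α P
      rw [h3] at hP0
      exact Subtype.ext hP0
    have h4 : (minpoly K α).natDegree ≤ n :=
      (natDegree_le_of_dvd (minpoly.dvd K α h2) hP.ne_zero).trans hPn
    have h5 : LinearIndependent K (fun i : s => (⟨(i : L),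
        IntermediateField.subset_adjoin K _ i.2⟩ : E)) := by
      apply LinearIndependent.of_comp E.val.toLinearMap
      exact hs
    have h6 := h5.fintype_card_le_finrank
    rw [Fintype.card_coe] at h6
    omega
  have hrank : Module.rank K L ≤ n := rank_le hcard
  have hfin : FiniteDimensional K L :=
    Module.rank_lt_aleph0_iff.1 (hrank.trans_lt (Cardinal.natCast_lt_aleph0))
  exact ⟨hfin, Module.finrank_le_of_rank_le hrank⟩

/-- A polynomial whose values at many points lie in a subfield has coefficients in the subfield. -/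
theorem exists_map_eq_of_eval {K W : Type*} [Field K] [Field W] [CharZero K] [CharZero W]
    (φ : K →+* W) (P : W[X]) (h : ∀ t : ℕ, ∃ c : K, φ c = P.eval (t : W)) :
    ∃ P' : K[X], P'.map φ = P := by
  classical
  choose r hr using h
  set n := P.natDegree + 1 with hn
  refine ⟨Lagrange.interpolate (Finset.range n) (fun i : ℕ => (i : K)) r, ?_⟩
  have hinj : Set.InjOn (fun i : ℕ => (i : W)) (Finset.range n) :=
    fun a _ b _ hab => Nat.cast_injective hab
  have hinjK : Set.InjOn (fun i : ℕ => (i : K)) (Finset.range n) :=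
    fun a _ b _ hab => Nat.cast_injective hab
  refine Polynomial.eq_of_degrees_lt_of_eval_index_eq (Finset.range n) (v := fun i : ℕ => (i : W))
    hinj ?_ ?_ ?_
  · exact (degree_map_le).trans_lt (Lagrange.degree_interpolate_lt _ hinjK)
  · rw [Finset.card_range, hn]
    refine degree_le_natDegree.trans_lt ?_
    exact_mod_cast Nat.lt_succ_self _
  · intro i hi
    have h1 := Lagrange.eval_interpolate_at_node r hinjK hi
    rw [eval_map, ← map_natCast φ i, eval₂_at_apply, h1, hr i, map_natCast]

/-- The transfer as a product over the quotient. -/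
theorem transfer_eq_prod {G : Type*} [Group G] {H : Subgroup G} [H.FiniteIndex] {A : Type*}
    [CommGroup A] (φ : H →* A) [Fintype (G ⧸ H)] (g : G)
    (hmem : ∀ q : G ⧸ H, q.out⁻¹ * g * (g⁻¹ • q).out ∈ H) :
    MonoidHom.transfer φ g = ∏ q : G ⧸ H, φ ⟨q.out⁻¹ * g * (g⁻¹ • q).out, hmem q⟩ := by
  let T : H.LeftTransversal :=
    ⟨Set.range Quotient.out, Subgroup.isComplement_range_left Quotient.out_eq'⟩
  have hT : ∀ q : G ⧸ H, (T.2.leftQuotientEquiv q : G) = q.out := fun q =>
    Subgroup.IsComplement.leftQuotientEquiv_apply (f := Quotient.out) Quotient.out_eq' q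
  rw [MonoidHom.transfer_def φ T g, Subgroup.leftTransversals.diff]
  have key : ∀ q : G ⧸ H, ∀ (h1 : _) (h2 : _),
      φ ⟨(T.2.leftQuotientEquiv q : G)⁻¹ * ((g • T).2.leftQuotientEquiv q : G), h1⟩ =
        φ ⟨q.out⁻¹ * g * (g⁻¹ • q).out, h2⟩ := by
    intro q h1 h2
    congr 1
    apply Subtype.ext
    change (T.2.leftQuotientEquiv q : G)⁻¹ * ((g • T).2.leftQuotientEquiv q : G) =
      q.out⁻¹ * g * (g⁻¹ • q).out
    rw [hT, Subgroup.smul_apply_eq_smul_apply_inv_smul, hT, smul_eq_mul, mul_assoc]
  refine (Finset.prod_congr rfl fun q _ => key q _ (hmem q)).trans ?_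
  exact Finset.prod_congr (by ext; simp) fun _ _ => rfl

lemma transfer_mem {G : Type*} [Group G] {H : Subgroup G} (g : G) (q : G ⧸ H) :
    q.out⁻¹ * g * (g⁻¹ • q).out ∈ H := by
  have h1 : (((g⁻¹ • q).out : G) : G ⧸ H) = g⁻¹ • q := Quotient.out_eq' _
  have h2 : ((q.out : G) : G ⧸ H) = q := Quotient.out_eq' _
  have h3 : ((g * (g⁻¹ • q).out : G) : G ⧸ H) = q := by
    have : ((g * (g⁻¹ • q).out : G) : G ⧸ H) = g • (((g⁻¹ • q).out : G) : G ⧸ H) := rfl
    rw [this, h1, smul_inv_smul]
  rw [mul_assoc, ← QuotientGroup.eq, h2, h3]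

end Fermat.Agent.H01
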