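import Fermat.Prelude.Def_AlgebraicCurve_DivisorClassGroup

/-!
# Integer valued valuations trivial on constants come from places
-/

set_option autoImplicit false

namespace Fermat.Agent.H01

open AlgebraicCurve

variable {K F : Type*} [Field K] [Field F] [Algebra K F]

/-- An additive `ℤ`-valued valuation on `F^*`, trivial on `K^*`. -/
structure IntVal (K F : Type*) [Field K] [Field F] [Algebra K F] where
  /-- the function -/
  w : F → ℤ
  w_mul : ∀ x y : F, x ≠ 0 → y ≠ 0 → w (x * y) = w x + w y
  w_add : ∀ x y : F, x ≠ 0 → y ≠ 0 → x + y ≠ 0 → min (w x) (w y) ≤ w (x + y)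
  w_const : ∀ c : K, c ≠ 0 → w (algebraMap K F c) = 0

namespace IntVal

variable (W : IntVal K F)

lemma w_one : W.w 1 = 0 := by
  have := W.w_mul 1 1 one_ne_zero one_ne_zero
  rw [mul_one] at this
  omega

lemma w_neg {x : F} (hx : x ≠ 0) : W.w (-x) = W.w x := by
  have h1 := W.w_mul (-1) (-1) (by simp) (by simp)
  rw [neg_mul_neg, mul_one, W.w_one] at h1
  have h2 := W.w_mul (-1) x (by simp) hx
  rw [neg_one_mul] at h2
  omega

lemma w_inv {x : F} (hx : x ≠ 0) : W.w x⁻¹ = -W.w x := by
  have h1 := W.w_mul x x⁻¹ hx (inv_ne_zero hx)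
  rw [mul_inv_cancel₀ hx, W.w_one] at h1
  omega

lemma w_zpow {x : F} (hx : x ≠ 0) (n : ℤ) : W.w (x ^ n) = n * W.w x := by
  have hnat : ∀ n : ℕ, W.w (x ^ n) = n * W.w x := by
    intro n
    induction n with
    | zero => simp [W.w_one]
    | succ n ih =>
      rw [pow_succ, W.w_mul _ _ (pow_ne_zero _ hx) hx, ih]
      push_cast
      ring
  cases n with
  | ofNat n => simpa using hnat n
  | negSucc n =>
    rw [zpow_negSucc, W.w_inv (pow_ne_zero _ hx), hnat, Int.negSucc_eq]
    push_cast
    ring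

/-- The valuation ring. -/
def valSubring : ValuationSubring F where
  carrier := {x | x = 0 ∨ 0 ≤ W.w x}
  zero_mem' := Or.inl rfl
  one_mem' := Or.inr W.w_one.ge
  add_mem' := by
    rintro x y hx hy
    by_cases hxy : x + y = 0
    · exact Or.inl hxy
    by_cases hx0 : x = 0
    · subst hx0
      simpa using hy
    by_cases hy0 : y = 0
    · subst hy0
      simpa using hx
    right
    have h1 := hx.resolve_left hx0
    have h2 := hy.resolve_left hy0
    have := W.w_add x y hx0 hy0 hxy
    exact (le_min h1 h2).trans this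
  mul_mem' := by
    rintro x y hx hy
    by_cases hx0 : x = 0
    · subst hx0
      left
      simp
    by_cases hy0 : y = 0
    · subst hy0
      left
      simp
    right
    rw [W.w_mul x y hx0 hy0]
    exact add_nonneg (hx.resolve_left hx0) (hy.resolve_left hy0)
  neg_mem' := by
    rintro x hx
    by_cases hx0 : x = 0
    · subst hx0
      left
      simp
    right
    rw [W.w_neg hx0]
    exact hx.resolve_left hx0
  mem_or_inv_mem' := by
    intro x
    by_cases hx0 : x = 0
    · exact Or.inl (Or.inl hx0)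
    rcases le_total 0 (W.w x) with h | h
    · exact Or.inl (Or.inr h)
    · refine Or.inr (Or.inr ?_)
      rw [W.w_inv hx0]
      omega

lemma mem_valSubring {x : F} : x ∈ W.valSubring ↔ x = 0 ∨ 0 ≤ W.w x := Iff.rfl

lemma isPrincipalIdealRing_valSubring : IsPrincipalIdealRing W.valSubring := by
  constructor
  intro I
  by_cases hI : I = ⊥
  · subst hI
    exact ⟨⟨0, by simp⟩⟩
  obtain ⟨x, hxI, hx0⟩ := Submodule.exists_mem_ne_zero_of_ne_bot hI
  have hex : ∃ n : ℕ, ∃ x : W.valSubring, x ∈ I ∧ x ≠ 0 ∧ (W.w (x : F)).toNat = n :=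
    ⟨_, x, hxI, hx0, rfl⟩
  classical
  obtain ⟨y, hyI, hy0, hyn⟩ := Nat.find_spec hex
  have hmin : ∀ z : W.valSubring, z ∈ I → z ≠ 0 → W.w (y : F) ≤ W.w (z : F) := by
    intro z hz hz0
    have h1 := Nat.find_min' hex ⟨z, hz, hz0, rfl⟩
    rw [← hyn] at h1
    have hy1 : 0 ≤ W.w (y : F) := (W.mem_valSubring.1 y.2).resolve_left (by simpa using hy0)
    have hz1 : 0 ≤ W.w (z : F) := (W.mem_valSubring.1 z.2).resolve_left (by simpa using hz0)
    omega
  refine ⟨⟨y, le_antisymm ?_ ?_⟩⟩
  · intro z hz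
    rw [Submodule.mem_span_singleton]
    by_cases hz0 : z = 0
    · exact ⟨0, by simp [hz0]⟩
    have hy0' : (y : F) ≠ 0 := by simpa using hy0
    have hz0' : (z : F) ≠ 0 := by simpa using hz0
    refine ⟨⟨(z : F) * (y : F)⁻¹, ?_⟩, ?_⟩
    · rw [W.mem_valSubring]
      right
      rw [W.w_mul _ _ hz0' (inv_ne_zero hy0'), W.w_inv hy0']
      have := hmin z hz hz0
      omega
    · apply Subtype.ext
      simp [hy0']
  · rw [Submodule.span_le, Set.singleton_subset_iff]
    exact hyI

theorem eq_zero_or_exists_place :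
    (∀ x : F, x ≠ 0 → W.w x = 0) ∨
      ∃ (v : Place K F) (e : ℤ), 0 < e ∧ ∀ x : F, x ≠ 0 → W.w x = e * v.ord x := by
  by_cases hW : ∀ x : F, x ≠ 0 → W.w x = 0
  · exact Or.inl hW
  right
  push Not at hW
  obtain ⟨x₀, hx₀, hwx₀⟩ := hW
  -- minimal positive value
  have hex : ∃ n : ℕ, 0 < n ∧ ∃ x : F, x ≠ 0 ∧ W.w x = n := by
    rcases lt_or_gt_of_ne hwx₀ with h | h
    · exact ⟨(W.w x₀⁻¹).toNat, by rw [W.w_inv hx₀]; omega, x₀⁻¹, inv_ne_zero hx₀, by
        rw [W.w_inv hx₀]; omega⟩
    · exact ⟨(W.w x₀).toNat, by omega, x₀, hx₀, by omega⟩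
  classical
  obtain ⟨hn0, π, hπ0, hπ⟩ := Nat.find_spec hex
  set n := Nat.find hex with hn
  have hdvd : ∀ x : F, x ≠ 0 → (n : ℤ) ∣ W.w x := by
    intro x hx
    by_contra hnd
    have hr0 : 0 < W.w x % n := by
      have h1 := Int.emod_nonneg (W.w x) (b := (n : ℤ)) (by omega)
      have h2 : W.w x % n ≠ 0 := fun h => hnd (Int.dvd_of_emod_eq_zero h)
      omega
    have hrlt : W.w x % n < n := Int.emod_lt_of_pos _ (by omega)
    have h3 : W.w (x * π ^ (-(W.w x / n))) = W.w x % n := by
      rw [W.w_mul _ _ hx (zpow_ne_zero _ hπ0), W.w_zpow hπ0, hπ]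
      have := Int.emod_add_mul_ediv (W.w x) n
      linarith
    have h4 := Nat.find_min hex (m := (W.w x % n).toNat) (by omega)
    exact h4 ⟨by omega, _, mul_ne_zero hx (zpow_ne_zero _ hπ0), by rw [h3]; omega⟩
  have hne_top : W.valSubring ≠ ⊤ := by
    intro h
    have h1 : π⁻¹ ∈ W.valSubring := by rw [h]; exact ValuationSubring.mem_top _
    rcases W.mem_valSubring.1 h1 with h2 | h2
    · exact inv_ne_zero hπ0 h2
    · rw [W.w_inv hπ0] at h2
      omega
  let v : Place K F :=
    { toValuationSubring := W.valSubring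
      algebraMap_mem' := by
        intro a
        rw [W.mem_valSubring]
        by_cases ha : a = 0
        · left
          simp [ha]
        · right
          rw [W.w_const a ha]
      ne_top' := hne_top
      isPrincipalIdealRing' := W.isPrincipalIdealRing_valSubring }
  have hunit : ∀ x : v.toValuationSubring, (x : F) ≠ 0 → W.w (x : F) = 0 → IsUnit x := by
    intro x hx hw
    have hmem : (x : F)⁻¹ ∈ W.valSubring := by
      rw [W.mem_valSubring]
      right
      rw [W.w_inv hx]
      omega
    refine IsUnit.of_mul_eq_one (⟨(x : F)⁻¹, hmem⟩ : v.toValuationSubring) ?_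
    apply Subtype.ext
    exact mul_inv_cancel₀ hx
  have hunit' : ∀ x : v.toValuationSubring, IsUnit x → W.w (x : F) = 0 := by
    rintro x ⟨u, rfl⟩
    have hu0 : ((u : v.toValuationSubring) : F) ≠ 0 := by
      intro h
      exact u.ne_zero (Subtype.ext h)
    have hui0 : (((u⁻¹ : v.toValuationSubringˣ) : v.toValuationSubring) : F) ≠ 0 := by
      intro h
      exact (u⁻¹).ne_zero (Subtype.ext h)
    have h1 : ((u : v.toValuationSubring) : F) *
        (((u⁻¹ : v.toValuationSubringˣ) : v.toValuationSubring) : F) = 1 := by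
      have := congrArg (Subtype.val) (u.mul_inv)
      exact this
    have h2 := W.w_mul _ _ hu0 hui0
    rw [h1, W.w_one] at h2
    have h3 := (W.mem_valSubring.1 (u : v.toValuationSubring).2).resolve_left hu0
    have h4 := (W.mem_valSubring.1 ((u⁻¹ : v.toValuationSubringˣ) :
      v.toValuationSubring).2).resolve_left hui0
    omega
  have hπmem : π ∈ v.toValuationSubring := by
    show π ∈ W.valSubring
    rw [W.mem_valSubring]
    right
    omega
  have hirr : Irreducible (⟨π, hπmem⟩ : v.toValuationSubring) := by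
    constructor
    · intro h
      have := hunit' _ h
      simp only at this
      omega
    · intro a b hab
      have hab' : π = (a : F) * (b : F) := congrArg Subtype.val hab
      have ha0 : (a : F) ≠ 0 := by
        intro h
        rw [h, zero_mul] at hab'
        exact hπ0 hab'
      have hb0 : (b : F) ≠ 0 := by
        intro h
        rw [h, mul_zero] at hab'
        exact hπ0 hab'
      have h1 := W.w_mul _ _ ha0 hb0
      rw [← hab', hπ] at h1
      have h2 := (W.mem_valSubring.1 a.2).resolve_left ha0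
      have h3 := (W.mem_valSubring.1 b.2).resolve_left hb0
      obtain ⟨s, hs⟩ := hdvd _ ha0
      obtain ⟨t, ht⟩ := hdvd _ hb0
      have hst : s + t = 1 := by
        have : (n : ℤ) * (s + t) = n * 1 := by rw [mul_add, ← hs, ← ht, ← h1, mul_one]
        exact mul_left_cancel₀ (by omega) this
      have hs0 : 0 ≤ s := by
        by_contra hcon
        have : (n : ℤ) * s < 0 := mul_neg_of_pos_of_neg (by omega) (by omega)
        omega
      have ht0 : 0 ≤ t := by
        by_contra hcon
        have : (n : ℤ) * t < 0 := mul_neg_of_pos_of_neg (by omega) (by omega)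
        omega
      rcases (show s = 0 ∨ t = 0 by omega) with h | h
      · left
        exact hunit a ha0 (by rw [hs, h, mul_zero])
      · right
        exact hunit b hb0 (by rw [ht, h, mul_zero])
  refine ⟨v, n, by omega, ?_⟩
  intro x hx
  obtain ⟨k, hk⟩ := hdvd x hx
  rw [hk]
  congr 1
  have hu0 : x * π ^ (-k) ≠ 0 := mul_ne_zero hx (zpow_ne_zero _ hπ0)
  have hw : W.w (x * π ^ (-k)) = 0 := by
    rw [W.w_mul _ _ hx (zpow_ne_zero _ hπ0), W.w_zpow hπ0, hπ, hk]
    ring
  have hmem : x * π ^ (-k) ∈ v.toValuationSubring := by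
    show _ ∈ W.valSubring
    rw [W.mem_valSubring]
    right
    omega
  obtain ⟨u, hu⟩ := hunit ⟨_, hmem⟩ hu0 hw
  have h5 := v.ord_unit_smul_zpow u hirr k
  rw [hu] at h5
  simp only at h5
  rw [mul_assoc, ← zpow_add₀ hπ0, neg_add_cancel, zpow_zero, mul_one] at h5
  exact h5.symm

/-- If `m` divides the order of `x` at every place, it divides every `ℤ`-valued valuation. -/
theorem dvd_of_forall_dvd_ord {m : ℤ} {x : F} (hx : x ≠ 0)
    (h : ∀ v : Place K F, m ∣ v.ord x) : m ∣ W.w x := by
  rcases W.eq_zero_or_exists_place with h0 | ⟨v, e, -, he⟩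
  · rw [h0 x hx]
    exact dvd_zero m
  · rw [he x hx]
    exact dvd_mul_of_dvd_right (h v) e

/-- Divide a valuation by a common divisor of its values. -/
def div (e : ℤ) (he : 0 ≤ e) (h : ∀ x : F, x ≠ 0 → e ∣ W.w x) : IntVal K F where
  w x := W.w x / e
  w_mul x y hx hy := by
    rw [W.w_mul x y hx hy, Int.add_ediv_of_dvd_left (h x hx)]
  w_add x y hx hy hxy := by
    have h1 := W.w_add x y hx hy hxy
    rcases he.eq_or_lt with h0 | h0
    · subst h0
      simp
    · rcases min_le_iff.1 h1 with h2 | h2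
      · exact min_le_iff.2 (Or.inl (Int.ediv_le_ediv h0 h2))
      · exact min_le_iff.2 (Or.inr (Int.ediv_le_ediv h0 h2))
  w_const c hc := by
    rw [W.w_const c hc, Int.zero_ediv]

/-- If `m` divides the order of `x` at every place, and `e` divides all the values of a valuation,
then `e * m` divides the valuation of `x`. -/
theorem mul_dvd_of_forall_dvd_ord {m e : ℤ} (he : 0 ≤ e) (hW : ∀ x : F, x ≠ 0 → e ∣ W.w x)
    {x : F} (hx : x ≠ 0) (h : ∀ v : Place K F, m ∣ v.ord x) : e * m ∣ W.w x := by
  obtain ⟨t, ht⟩ := (W.div e he hW).dvd_of_forall_dvd_ord hx h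
  refine ⟨t, ?_⟩
  have h1 : (W.div e he hW).w x = W.w x / e := rfl
  rw [h1] at ht
  rw [mul_assoc, ← ht, Int.mul_ediv_cancel' (hW x hx)]

end IntVal

end Fermat.Agent.H01
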