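import Fermat.Agent.H01.MFQ
import Fermat.Agent.H01.ValPlace

/-!
# Order functionals on modular forms and the induced valuations on function fields
-/

set_option autoImplicit false

namespace Fermat.Agent.H01

open UpperHalfPlane Filter Topology ModularForm CongruenceSubgroup
open scoped Manifold MatrixGroups ModularForm

/-- An order functional on modular forms for `Γ₀(N)`. -/
structure FnOrd (N : ℕ) where
  /-- the order of a form of weight `k` -/
  o : ℤ → (ℍ → ℂ) → ℤ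
  o_mul : ∀ {k l : ℤ} {f g : ℍ → ℂ}, IsMF N k f → IsMF N l g → f ≠ 0 → g ≠ 0 →
    o (k + l) (f * g) = o k f + o l g
  o_add : ∀ {k : ℤ} {f g : ℍ → ℂ}, IsMF N k f → IsMF N k g → f ≠ 0 → g ≠ 0 → f + g ≠ 0 →
    min (o k f) (o k g) ≤ o k (f + g)
  o_const : ∀ {c : ℂ}, c ≠ 0 → o 0 (fun _ => c) = 0

/-- A function field embedded in the field of quotients of modular forms. -/
structure EmbMF (N : ℕ) (K F : Type*) [Field K] [Field F] [Algebra K F] where
  /-- the embedding -/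
  σ : F →+* LaurentSeries ℂ
  mem : ∀ x, σ x ∈ mfq N
  const : ∀ c : K, ∃ c' : ℂ, σ (algebraMap K F c) = HahnSeries.C c'

/-- A representation of a Laurent series as a quotient of modular forms. -/
structure MFRep (N : ℕ) (x : LaurentSeries ℂ) (k : ℤ) (f g : ℍ → ℂ) : Prop where
  hf : IsMF N k f
  hg : IsMF N k g
  hf0 : f ≠ 0
  hg0 : g ≠ 0
  eq : x * qLf g = qLf f

namespace MFRep

variable {N : ℕ} {x y : LaurentSeries ℂ} {k l : ℤ} {f g f' g' : ℍ → ℂ}

lemma exists_of_mem (hx : x ∈ mfq N) (hx0 : x ≠ 0) : ∃ k f g, MFRep N x k f g := by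
  obtain ⟨k, f, g, hf, hg, hg0, h⟩ := mem_mfq'.1 hx
  refine ⟨k, f, g, hf, hg, ?_, hg0, h⟩
  rintro rfl
  rw [hf.qLf_eq_zero_iff.2 rfl] at h
  rcases mul_eq_zero.1 h with h | h
  · exact hx0 h
  · exact hg0 (hg.qLf_eq_zero_iff.1 h)

lemma ne_zero (h : MFRep N x k f g) : x ≠ 0 := by
  rintro rfl
  have h1 := h.eq
  rw [zero_mul] at h1
  exact h.hf0 (h.hf.qLf_eq_zero_iff.1 h1.symm)

lemma cross (h : MFRep N x k f g) (h' : MFRep N x l f' g') : f * g' = f' * g := by
  have h1 : IsMF N (k + l) (f * g') := h.hf.mul h'.hg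
  have h2 : IsMF N (k + l) (f' * g) := (h'.hf.mul h.hg).cast (add_comm l k)
  apply h1.qLf_injective h2
  rw [h.hf.qLf_mul h'.hg, h'.hf.qLf_mul h.hg, ← h.eq, ← h'.eq]
  ring

lemma mul (h : MFRep N x k f g) (h' : MFRep N y l f' g') :
    MFRep N (x * y) (k + l) (f * f') (g * g') where
  hf := h.hf.mul h'.hf
  hg := h.hg.mul h'.hg
  hf0 := mf_mul_ne_zero h.hf h'.hf h.hf0 h'.hf0
  hg0 := mf_mul_ne_zero h.hg h'.hg h.hg0 h'.hg0
  eq := by
    rw [h.hf.qLf_mul h'.hf, h.hg.qLf_mul h'.hg, ← h.eq, ← h'.eq]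
    ring

lemma of_coe {A B : ModularForm (Gamma0 N) k} (hA : A ≠ 0) (hB : B ≠ 0)
    (h : x * qL B = qL A) : MFRep N x k A B where
  hf := IsMF.coe A
  hg := IsMF.coe B
  hf0 := fun h0 => hA (DFunLike.coe_injective h0)
  hg0 := fun h0 => hB (DFunLike.coe_injective h0)
  eq := h

lemma const {c : ℂ} (hc : c ≠ 0) : MFRep N (HahnSeries.C c) 0 (fun _ => c) (fun _ => 1) where
  hf := IsMF.const N c
  hg := IsMF.const N 1
  hf0 := fun h => hc (congrFun h I)
  hg0 := fun h => one_ne_zero (congrFun h I)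
  eq := by
    rw [qLf_const N c, qLf_const N 1, map_one, mul_one]

end MFRep

namespace FnOrd

variable {N : ℕ} (O : FnOrd N)

lemma o_rep {x : LaurentSeries ℂ} {k l : ℤ} {f g f' g' : ℍ → ℂ}
    (h : MFRep N x k f g) (h' : MFRep N x l f' g') : O.o k f - O.o k g = O.o l f' - O.o l g' := by
  have h1 := O.o_mul h.hf h'.hg h.hf0 h'.hg0
  have h2 := O.o_mul h'.hf h.hg h'.hf0 h.hg0
  rw [h.cross h', add_comm k l, h2] at h1
  omega

open Classical in
/-- The valuation of a Laurent series which is a quotient of modular forms. -/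
noncomputable def val (x : LaurentSeries ℂ) : ℤ :=
  if h : ∃ (k : ℤ) (f g : ℍ → ℂ), MFRep N x k f g then
    O.o h.choose h.choose_spec.choose - O.o h.choose h.choose_spec.choose_spec.choose
  else 0

lemma val_eq {x : LaurentSeries ℂ} {k : ℤ} {f g : ℍ → ℂ} (h : MFRep N x k f g) :
    O.val x = O.o k f - O.o k g := by
  have hex : ∃ (k : ℤ) (f g : ℍ → ℂ), MFRep N x k f g := ⟨k, f, g, h⟩
  rw [val, dif_pos hex]
  exact O.o_rep hex.choose_spec.choose_spec.choose_spec h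

lemma val_mul {x y : LaurentSeries ℂ} (hx : x ∈ mfq N) (hy : y ∈ mfq N) (hx0 : x ≠ 0)
    (hy0 : y ≠ 0) : O.val (x * y) = O.val x + O.val y := by
  obtain ⟨k, f, g, h⟩ := MFRep.exists_of_mem hx hx0
  obtain ⟨l, f', g', h'⟩ := MFRep.exists_of_mem hy hy0
  rw [O.val_eq h, O.val_eq h', O.val_eq (h.mul h'), O.o_mul h.hf h'.hf h.hf0 h'.hf0,
    O.o_mul h.hg h'.hg h.hg0 h'.hg0]
  ring

lemma val_add {x y : LaurentSeries ℂ} (hx : x ∈ mfq N) (hy : y ∈ mfq N) (hx0 : x ≠ 0)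
    (hy0 : y ≠ 0) (hxy : x + y ≠ 0) : min (O.val x) (O.val y) ≤ O.val (x + y) := by
  obtain ⟨k, f, g, h⟩ := MFRep.exists_of_mem hx hx0
  obtain ⟨l, f', g', h'⟩ := MFRep.exists_of_mem hy hy0
  have h1 : IsMF N (k + l) (f * g') := h.hf.mul h'.hg
  have h2 : IsMF N (k + l) (f' * g) := (h'.hf.mul h.hg).cast (add_comm l k)
  have h10 : f * g' ≠ 0 := mf_mul_ne_zero h.hf h'.hg h.hf0 h'.hg0
  have h20 : f' * g ≠ 0 := mf_mul_ne_zero h'.hf h.hg h'.hf0 h.hg0
  have h30 : g * g' ≠ 0 := mf_mul_ne_zero h.hg h'.hg h.hg0 h'.hg0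
  have heq : (x + y) * qLf (g * g') = qLf (f * g' + f' * g) := by
    rw [h1.qLf_add h2, h.hf.qLf_mul h'.hg, h'.hf.qLf_mul h.hg, h.hg.qLf_mul h'.hg, ← h.eq,
      ← h'.eq]
    ring
  have h40 : f * g' + f' * g ≠ 0 := by
    intro h0
    rw [(h1.add h2).qLf_eq_zero_iff.2 h0] at heq
    rcases mul_eq_zero.1 heq with h5 | h5
    · exact hxy h5
    · exact h30 ((h.hg.mul h'.hg).qLf_eq_zero_iff.1 h5)
  have hrep : MFRep N (x + y) (k + l) (f * g' + f' * g) (g * g') :=
    ⟨h1.add h2, h.hg.mul h'.hg, h40, h30, heq⟩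
  rw [O.val_eq h, O.val_eq h', O.val_eq hrep, O.o_mul h.hg h'.hg h.hg0 h'.hg0]
  have h5 := O.o_add h1 h2 h10 h20 h40
  rw [O.o_mul h.hf h'.hg h.hf0 h'.hg0] at h5
  have h6 : O.o (k + l) (f' * g) = O.o l f' + O.o k g := by
    rw [add_comm k l, O.o_mul h'.hf h.hg h'.hf0 h.hg0]
  rw [h6] at h5
  rcases min_le_iff.1 h5 with h7 | h7
  · exact min_le_iff.2 (Or.inl (by omega))
  · exact min_le_iff.2 (Or.inr (by omega))

lemma val_const {c : ℂ} (hc : c ≠ 0) : O.val (HahnSeries.C c) = 0 := by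
  rw [O.val_eq (MFRep.const hc), O.o_const hc, O.o_const one_ne_zero, sub_zero]

variable {K F : Type*} [Field K] [Field F] [Algebra K F]

/-- The valuation on a function field induced by an order functional. -/
noncomputable def toIntVal (E : EmbMF N K F) : IntVal K F where
  w x := O.val (E.σ x)
  w_mul x y hx hy := by
    rw [map_mul]
    exact O.val_mul (E.mem x) (E.mem y) ((map_ne_zero E.σ).2 hx) ((map_ne_zero E.σ).2 hy)
  w_add x y hx hy hxy := by
    rw [map_add]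
    refine O.val_add (E.mem x) (E.mem y) ((map_ne_zero E.σ).2 hx) ((map_ne_zero E.σ).2 hy) ?_
    rw [← map_add]
    exact (map_ne_zero E.σ).2 hxy
  w_const c hc := by
    obtain ⟨c', hc'⟩ := E.const c
    have h0 : c' ≠ 0 := by
      rintro rfl
      rw [map_zero, map_eq_zero, map_eq_zero] at hc'
      exact hc hc'
    rw [hc', O.val_const h0]

lemma toIntVal_w (E : EmbMF N K F) (x : F) : (O.toIntVal E).w x = O.val (E.σ x) := rfl

end FnOrd

/-- The order at a point of the upper half plane. -/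
noncomputable def ordPt (N : ℕ) (τ : ℍ) : FnOrd N where
  o _ f := ordAt τ f
  o_mul hf hg hf0 hg0 := by
    rw [ordAt_mul hf.mdiff hg.mdiff hf0 hg0]
    push_cast
    rfl
  o_add hf hg hf0 hg0 hfg := by
    have := ordAt_add hf.mdiff hg.mdiff hf0 hg0 hfg τ
    exact_mod_cast this
  o_const hc := by
    rw [ordAt_const hc]
    rfl

end Fermat.Agent.H01
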