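import Fermat.Agent.H01.NormChar

/-!
# Degree of `mfq M / mfq N`, norm formula and Hecke operators over `ℂ`
-/

set_option autoImplicit false

namespace Fermat.Agent.H01

open UpperHalfPlane Filter Topology ModularForm CongruenceSubgroup ModularCurve
open scoped Manifold MatrixGroups ModularForm

variable {N M : ℕ} [NeZero N] [NeZero M]

/-- The product of the conjugates of an element of level `M` is of level `N`. -/
lemma exists_nrm (hNM : N ∣ M) (y : mfq M) : ∃ c : mfq N,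
    Phi N 1 c = ∏ q : QGam N M, Phi M ((q.out⁻¹ : Gamma0 N) : SL(2, ℤ)) y := by
  obtain ⟨k, f, g, h⟩ := MFRep0.exists_of_mem y.2
  have hg0 : nrm N M k g ≠ 0 := nrm_ne_zero h.hg.mdiff h.hg0
  have hq0 : qLf (nrm N M k g) ≠ 0 := fun h0 => hg0 ((h.hg.nrm hNM).qLf_eq_zero_iff.1 h0)
  have hrep : MFRep0 N (qLf (nrm N M k f) / qLf (nrm N M k g)) (nidx N M * k) (nrm N M k f)
      (nrm N M k g) := ⟨h.hf.nrm hNM, h.hg.nrm hNM, hg0, div_mul_cancel₀ _ hq0⟩
  refine ⟨⟨_, mem_mfq'.2 ⟨_, _, _, hrep.hf, hrep.hg, hrep.hg0, hrep.eq⟩⟩, ?_⟩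
  rw [Phi_apply (x := ⟨_, _⟩) hrep, SlashAction.slash_one, SlashAction.slash_one,
    io_nrm h.hf.mdiff, io_nrm h.hg.mdiff, ← Finset.prod_div_distrib]
  exact Finset.prod_congr rfl fun q _ => (Phi_apply h).symm

/-- Every element of level `M` is annihilated by a monic polynomial of degree the index with
coefficients of level `N`. -/
lemma exists_annihilating (hNM : N ∣ M) (y : mfq M) : ∃ P : Polynomial (mfq N), P.Monic ∧
    P.natDegree = Fintype.card (QGam N M) ∧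
    P.map (Phi N 1) = ∏ q : QGam N M,
      (Polynomial.X - Polynomial.C (Phi M ((q.out⁻¹ : Gamma0 N) : SL(2, ℤ)) y)) := by
  set R : Polynomial Om := ∏ q : QGam N M,
      (Polynomial.X - Polynomial.C (Phi M ((q.out⁻¹ : Gamma0 N) : SL(2, ℤ)) y)) with hR
  have hchar : CharZero Om := by
    refine ⟨fun a b hab => ?_⟩
    have h1 : Phi N 1 (a : mfq N) = Phi N 1 (b : mfq N) := by
      rw [map_natCast, map_natCast, hab]
    exact Nat.cast_injective ((Phi N 1).injective h1)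
  obtain ⟨P, hP⟩ := exists_map_eq_of_eval (Phi N 1) R (by
    intro t
    obtain ⟨c, hc⟩ := exists_nrm hNM ((t : mfq M) - y)
    refine ⟨c, ?_⟩
    rw [hc, hR, Polynomial.eval_prod]
    refine Finset.prod_congr rfl fun q _ => ?_
    rw [map_sub, map_natCast]
    simp)
  have hRm : R.Monic := Polynomial.monic_prod_of_monic _ _ fun q _ => Polynomial.monic_X_sub_C _
  have hRn : R.natDegree = Fintype.card (QGam N M) := by
    rw [hR, Polynomial.natDegree_prod_of_monic _ _ fun q _ => Polynomial.monic_X_sub_C _]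
    simp
  refine ⟨P, ?_, ?_, hP⟩
  · rw [← hP] at hRm
    exact Polynomial.monic_of_injective (Phi N 1).injective hRm
  · rw [← hRn, ← hP, Polynomial.natDegree_map]

omit [NeZero N] [NeZero M] in
/-- The conjugate by the trivial coset. -/
lemma Phi_out_one (y : mfq M) :
    Phi M (((((1 : Gamma0 N) : QGam N M)).out⁻¹ : Gamma0 N) : SL(2, ℤ)) y = Phi M 1 y := by
  have h1 : ((((1 : Gamma0 N) : QGam N M)).out : Gamma0 N) ∈ (Gamma0 M).subgroupOf (Gamma0 N) := by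
    have h2 : ((((((1 : Gamma0 N) : QGam N M)).out : Gamma0 N)) : QGam N M) =
      ((1 : Gamma0 N) : QGam N M) := Quotient.out_eq' _
    have h3 := QuotientGroup.eq.1 h2.symm
    simpa using h3
  have h4 : ((((((1 : Gamma0 N) : QGam N M)).out⁻¹ : Gamma0 N)) : SL(2, ℤ)) ∈ Gamma0 M :=
    Subgroup.mem_subgroupOf.1 (inv_mem h1)
  have h5 := Phi_mul_left (⟨_, h4⟩ : Gamma0 M) 1 y
  rw [mul_one] at h5
  exact h5

section Degree

variable [alg : Algebra (mfq N) (mfq M)]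

/-- The degree bound. -/
theorem finrank_mfq_le (hNM : N ∣ M)
    (halg : ∀ x : mfq N, ((algebraMap (mfq N) (mfq M) x : mfq M) : LaurentSeries ℂ) = x) :
    FiniteDimensional (mfq N) (mfq M) ∧
      Module.finrank (mfq N) (mfq M) ≤ Fintype.card (QGam N M) := by
  apply finrank_le_of_forall_annihilated
  intro y
  obtain ⟨P, hPm, hPn, hP⟩ := exists_annihilating hNM y
  refine ⟨P, hPm, hPn.le, ?_⟩
  apply (Phi M 1).injective
  rw [map_zero, Polynomial.aeval_def, Polynomial.hom_eval₂]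
  have hcomp : (Phi M 1).comp (algebraMap (mfq N) (mfq M)) = Phi N 1 := by
    ext x
    rw [RingHom.comp_apply, Phi_eq_of_mem hNM 1 _ (by rw [halg]; exact x.2)]
    congr 1
    exact Subtype.ext (halg x)
  rw [hcomp, ← Polynomial.eval_map, hP, Polynomial.eval_prod]
  refine Finset.prod_eq_zero (Finset.mem_univ ((1 : Gamma0 N) : QGam N M)) ?_
  rw [Phi_out_one]
  simp

end Degree

/-- The Laurent series of `j(Mz)`. -/
lemma rep_jM (M : ℕ) [NeZero M] : MFRep0 M (coeffEmb ℂ (qExpand ℚ M jq)) 12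
    (vz M ((ModularForm.E₄ : ℍ → ℂ) ^ 3)) (vz M ModularForm.discriminant) := by
  have hM : 0 < M := Nat.pos_of_ne_zero (NeZero.ne M)
  have hE : IsMF 1 12 ((ModularForm.E₄ : ℍ → ℂ) ^ 3) :=
    ((IsMF.of_levelOne 1 ModularForm.E₄).pow 3).cast (by norm_num)
  have hD : IsMF 1 12 ModularForm.discriminant := IsMF.discriminant 1
  have h1 := hE.vz hM
  have h2 := hD.vz hM
  rw [one_mul] at h1 h2
  refine ⟨h1, h2, vz_ne_zero discriminant_fun_ne_zero hM, ?_⟩
  rw [coeffEmb, coeffMap_qExpand, hD.qLf_vz, hE.qLf_vz, ← map_mul]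
  exact congrArg _ coeffEmb_jq_mul

/-- `j(Mz)` as an element of `mfq M`. -/
noncomputable def jM (M : ℕ) [NeZero M] : mfq M := ⟨coeffEmb ℂ (qExpand ℚ M jq),
  mem_mfq'.2 ⟨_, _, _, (rep_jM M).hf, (rep_jM M).hg, (rep_jM M).hg0, (rep_jM M).eq⟩⟩

lemma coe_jM (M : ℕ) [NeZero M] : (jM M : LaurentSeries ℂ) = coeffEmb ℂ (qExpand ℚ M jq) := rfl

/-- `j(Mz)` separates the cosets. -/
theorem mem_Gamma0_of_Phi_eq {γ : SL(2, ℤ)} (h : Phi M γ (jM M) = Phi M 1 (jM M)) :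
    γ ∈ Gamma0 M := by
  have hM : 0 < M := Nat.pos_of_ne_zero (NeZero.ne M)
  apply H02.mem_Gamma0_of_tr_jN hM
  have hrep : MFRep0 M (jM M : LaurentSeries ℂ) 12 (vz M ((ModularForm.E₄ : ℍ → ℂ) ^ 3))
    (vz M ModularForm.discriminant) := rep_jM M
  rw [Phi_apply hrep, Phi_apply hrep, SlashAction.slash_one, SlashAction.slash_one] at h
  have hf := (rep_jM M).hf.mdiff
  have hg := (rep_jM M).hg.mdiff
  have hg0 := (rep_jM M).hg0
  rw [div_eq_div_iff (io_ne_zero (slash_mdiff _ hg γ) (slash_ne_zero hg0 γ))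
    (io_ne_zero hg hg0), ← io_mul (slash_mdiff _ hf γ) hg, ← io_mul hf (slash_mdiff _ hg γ)] at h
  have h1 := io_inj ((slash_mdiff _ hf γ).mul hg) (hf.mul (slash_mdiff _ hg γ)) h
  ext z
  have h2 := congrFun h1 z
  simp only [Pi.mul_apply, SL_slash_apply, vz, Pi.pow_apply] at h2
  have haff : ∀ z : ℍ, IntStr.aff M 1 0 z = ofComplex ((M : ℂ) * z) := by
    intro z
    simp [IntStr.aff]
  simp only [H02.tr_apply, H02.jN, haff]
  have hd := ModularForm.discriminant_ne_zero (ofComplex ((M : ℂ) * z))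
  have hd' := ModularForm.discriminant_ne_zero (ofComplex ((M : ℂ) * ((γ • z : ℍ) : ℂ)))
  have hden : denom γ z ^ (-12 : ℤ) ≠ 0 := zpow_ne_zero _ (denom_ne_zero γ z)
  change (ModularForm.E₄ (ofComplex ((M : ℂ) * ((γ • z : ℍ) : ℂ)))) ^ 3 /
    ModularForm.discriminant (ofComplex ((M : ℂ) * ((γ • z : ℍ) : ℂ))) =
    (ModularForm.E₄ (ofComplex ((M : ℂ) * z))) ^ 3 /
    ModularForm.discriminant (ofComplex ((M : ℂ) * z))
  rw [div_eq_div_iff hd' hd]
  apply mul_right_cancel₀ hden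
  linear_combination h2

section General

variable {K₀ L₀ : Type*} [Field K₀] [Field L₀] [Algebra K₀ L₀]

/-- General form: norms and root characters. -/
theorem hasRootChar_norm [CharZero K₀] [FiniteDimensional K₀ L₀] (hNM : N ∣ M)
    (s : L₀ →+* LaurentSeries ℂ) (hs : ∀ y, s y ∈ mfq M)
    (hK : ∀ c : K₀, s (algebraMap K₀ L₀ c) ∈ mfq N)
    (hdeg : Module.finrank K₀ L₀ ≤ Fintype.card (QGam N M))
    (hz : ∃ z₀ : L₀, s z₀ = coeffEmb ℂ (qExpand ℚ M jq))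
    {m : ℕ} (hm : m ≠ 0) {y : L₀} (hy : y ≠ 0) {ψ : Gamma0 M →* ℂˣ}
    (h : HasRootChar M m (s y) ψ) :
    HasRootChar N m (s (algebraMap K₀ L₀ (Algebra.norm K₀ y)))
      (MonoidHom.transfer (ψ.comp (subIncl N M))) := by
  let s' : L₀ →+* mfq M := s.codRestrict (mfq M).toSubring hs
  have hs' : ∀ y, (s' y : LaurentSeries ℂ) = s y := fun _ => rfl
  have h1 := norm_formula hNM s' hK hdeg (by
    intro γ hγ
    obtain ⟨z₀, hz₀⟩ := hz
    have h2 := hγ z₀
    have h3 : s' z₀ = jM M := by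
      apply Subtype.ext
      rw [hs', hz₀, coe_jM]
    rw [h3] at h2
    exact mem_Gamma0_of_Phi_eq h2) y
  have h2 : Phi M 1 (s' (algebraMap K₀ L₀ (Algebra.norm K₀ y))) =
      Phi N 1 ⟨s (algebraMap K₀ L₀ (Algebra.norm K₀ y)), hK (Algebra.norm K₀ y)⟩ :=
    Phi_eq_of_mem hNM 1 (s' (algebraMap K₀ L₀ (Algebra.norm K₀ y))) (hK (Algebra.norm K₀ y))
  rw [h2] at h1
  refine h.nrm hNM hm (hK (Algebra.norm K₀ y)) ?_ (hs y) h1
  rw [map_ne_zero, map_ne_zero]
  exact Algebra.norm_ne_zero_iff.2 hy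

end General

/-- The pullback `q ↦ q^d`. -/
theorem RootData.vz {m : ℕ} {x : LaurentSeries ℂ} {ψ : Gamma0 N →* ℂˣ} {k : ℤ} {f g H : ℍ → ℂ}
    (h : RootData N m x ψ k f g H) {d : ℕ} [NeZero d] (c : Gamma0 (N * d) →* Gamma0 N)
    (hc : ∀ γ : Gamma0 (N * d), DegRel d (γ : SL(2, ℤ)) (c γ)) :
    RootData (N * d) m (qExpand ℂ d x) (ψ.comp c) k (vz d f) (vz d g) (vz d H) where
  rep := by
    have hd : 0 < d := Nat.pos_of_ne_zero (NeZero.ne d)
    refine ⟨h.rep.hf.vz hd, h.rep.hg.vz hd, vz_ne_zero h.rep.hf0 hd, vz_ne_zero h.rep.hg0 hd, ?_⟩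
    rw [h.rep.hf.qLf_vz, h.rep.hg.qLf_vz, ← map_mul, h.rep.eq]
  mdiff := mdiff_vz h.mdiff (Nat.pos_of_ne_zero (NeZero.ne d))
  pow_eq := by
    ext z
    exact congrFun h.pow_eq (ofComplex ((d : ℂ) * z))
  slash γ := by
    rw [(hc γ).vz_slash (Nat.pos_of_ne_zero (NeZero.ne d)), h.slash]
    rfl

theorem HasRootChar.vz {m : ℕ} {x : LaurentSeries ℂ} {ψ : Gamma0 N →* ℂˣ}
    (h : HasRootChar N m x ψ) {d : ℕ} [NeZero d] (c : Gamma0 (N * d) →* Gamma0 N)
    (hc : ∀ γ : Gamma0 (N * d), DegRel d (γ : SL(2, ℤ)) (c γ)) :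
    HasRootChar (N * d) m (qExpand ℂ d x) (ψ.comp c) := by
  obtain ⟨k, f, g, H, h⟩ := hasRootChar_iff.1 h
  exact hasRootChar_iff.2 ⟨_, _, _, _, h.vz c hc⟩

/-- Change of level. -/
theorem HasRootChar.incl (hNM : N ∣ M) {m : ℕ} {x : LaurentSeries ℂ} {ψ : Gamma0 N →* ℂˣ}
    (h : HasRootChar N m x ψ) :
    HasRootChar M m x (ψ.comp (Subgroup.inclusion (Gamma0_le_of_dvd hNM))) := by
  obtain ⟨k, f, g, H, h⟩ := hasRootChar_iff.1 h
  have hrep : MFRep M x k f g := ⟨h.rep.hf.mono hNM, h.rep.hg.mono hNM, h.rep.hf0,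
    h.rep.hg0, h.rep.eq⟩
  have hs : ∀ γ : Gamma0 M, H ∣[k] (γ : SL(2, ℤ)) =
      ((ψ.comp (Subgroup.inclusion (Gamma0_le_of_dvd hNM))) γ : ℂ) • H := by
    intro γ
    have h1 := h.slash (Subgroup.inclusion (Gamma0_le_of_dvd hNM) γ)
    rw [MonoidHom.comp_apply, ← h1]
    rfl
  exact hasRootChar_iff.2 ⟨k, f, g, H, ⟨hrep, h.mdiff, h.pow_eq, hs⟩⟩

end Fermat.Agent.H01
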