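import Fermat.Agent.H01.JQ

/-!
# `f(dz)`, change of level, and `laurentBaseChange ℂ (modularFunctionFieldFull N) ≤ mfq N`
-/

set_option autoImplicit false

namespace Fermat.Agent.H01

open UpperHalfPlane Filter Topology ModularForm CongruenceSubgroup
open scoped Manifold MatrixGroups ModularForm

/-! ### Change of level -/

lemma Gamma0_le_of_dvd {M N : ℕ} (h : M ∣ N) : Gamma0 N ≤ Gamma0 M := by
  intro γ hγ
  rw [Gamma0_mem] at hγ ⊢
  rw [ZMod.intCast_zmod_eq_zero_iff_dvd] at hγ ⊢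
  exact (Int.natCast_dvd_natCast.2 h).trans hγ

/-- Constructor for modular forms. -/
lemma IsMF.mk' {N : ℕ} [NeZero N] {k : ℤ} {f : ℍ → ℂ} (hf : MDiff f)
    (hs : ∀ γ ∈ Gamma0 N, f ∣[k] γ = f) (hb : ∀ σ : SL(2, ℤ), IsBoundedAtImInfty (f ∣[k] σ)) :
    IsMF N k f := by
  refine ⟨{ toFun := f, slash_action_eq' := ?_, holo' := hf, bdd_at_cusps' := ?_ }, rfl⟩
  · rintro _ ⟨γ, hγ, rfl⟩
    exact hs γ hγ
  · intro c hc
    rw [Subgroup.IsArithmetic.isCusp_iff_isCusp_SL2Z] at hc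
    rw [OnePoint.isBoundedAt_iff_forall_SL2Z hc]
    exact fun σ _ => hb σ

lemma IsMF.mono {M N : ℕ} [NeZero N] [NeZero M] {k : ℤ} {f : ℍ → ℂ} (hf : IsMF M k f)
    (h : M ∣ N) : IsMF N k f :=
  IsMF.mk' hf.mdiff (fun γ hγ => hf.slash_eq ⟨γ, Gamma0_le_of_dvd h hγ⟩)
    (fun σ => hf.bdd σ)

lemma IsMF.of_levelOne (N : ℕ) [NeZero N] {k : ℤ} (A : ModularForm 𝒮ℒ k) : IsMF N k A := by
  refine IsMF.mk' A.holo' (fun γ _ => ?_) (fun σ => ?_)
  · exact SlashInvariantFormClass.slash_action_eq A _ ⟨γ, rfl⟩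
  · exact ModularFormClass.bdd_at_infty_slash A σ

lemma IsMF.discriminant (N : ℕ) [NeZero N] : IsMF N 12 ModularForm.discriminant :=
  IsMF.of_levelOne N (CuspForm.discriminant : ModularForm 𝒮ℒ 12)

/-! ### `f(dz)` -/

/-- `z ↦ f (d z)`. -/
noncomputable def vz (d : ℕ) (f : ℍ → ℂ) : ℍ → ℂ := fun z => f (ofComplex ((d : ℂ) * z))

lemma im_natCast_mul_pos {d : ℕ} (hd : 0 < d) {z : ℂ} (hz : 0 < z.im) :
    0 < ((d : ℂ) * z).im := by
  have : ((d : ℂ) * z).im = d * z.im := by simp [Complex.mul_im]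
  rw [this]
  positivity

lemma vz_one (f : ℍ → ℂ) : vz 1 f = f := by
  ext z
  simp [vz]

/-- The matrix `diag(d, 1)`. -/
noncomputable def dg (d : ℕ) (hd : 0 < d) : GL (Fin 2) ℚ :=
  Matrix.GeneralLinearGroup.mkOfDetNeZero !![(d : ℚ), 0; 0, 1] (by
    rw [Matrix.det_fin_two_of]
    simp
    omega)

/-- The matrix `diag(d, 1)` over `ℝ`. -/
noncomputable def dgR (d : ℕ) (hd : 0 < d) : GL (Fin 2) ℝ :=
  Matrix.GeneralLinearGroup.map (Rat.castHom ℝ) (dg d hd)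

lemma dgR_val (d : ℕ) (hd : 0 < d) : (dgR d hd).val = !![(d : ℝ), 0; 0, 1] := by
  ext i j
  fin_cases i <;> fin_cases j <;> simp [dgR, dg, Matrix.GeneralLinearGroup.mkOfDetNeZero]

lemma dgR_det (d : ℕ) (hd : 0 < d) : (dgR d hd).det.val = d := by
  rw [Matrix.GeneralLinearGroup.val_det_apply, dgR_val, Matrix.det_fin_two_of]
  ring

lemma dgR_det_pos (d : ℕ) (hd : 0 < d) : 0 < (dgR d hd).det.val := by
  rw [dgR_det]
  exact_mod_cast hd

lemma denom_dgR (d : ℕ) (hd : 0 < d) (z : ℂ) : denom (dgR d hd) z = 1 := by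
  have h1 : (dgR d hd).val 1 0 = 0 := by rw [dgR_val]; rfl
  have h2 : (dgR d hd).val 1 1 = 1 := by rw [dgR_val]; rfl
  rw [denom, h1, h2]
  simp

lemma coe_dgR_smul (d : ℕ) (hd : 0 < d) (z : ℍ) : ((dgR d hd • z : ℍ) : ℂ) = d * z := by
  rw [coe_smul_of_det_pos (dgR_det_pos d hd), denom_dgR]
  have h1 : (dgR d hd).val 0 0 = d := by rw [dgR_val]; rfl
  have h2 : (dgR d hd).val 0 1 = 0 := by rw [dgR_val]; rfl
  rw [num, h1, h2]
  simp

lemma dgR_smul (d : ℕ) (hd : 0 < d) (z : ℍ) : dgR d hd • z = ofComplex ((d : ℂ) * z) := by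
  rw [← coe_dgR_smul d hd z, ofComplex_apply]

lemma slash_dgR (k : ℤ) (d : ℕ) (hd : 0 < d) (f : ℍ → ℂ) :
    f ∣[k] dgR d hd = ((d : ℂ) ^ (k - 1)) • vz d f := by
  ext z
  rw [slash_apply, denom_dgR, dgR_smul, dgR_det]
  have h1 : (0 : ℝ) < (dgR d hd).det.val := dgR_det_pos d hd
  simp only [σ, h1, if_true, ContinuousAlgEquiv.refl_apply, one_zpow, mul_one, Pi.smul_apply,
    smul_eq_mul, vz, Nat.abs_cast]
  push_cast
  ring

lemma vz_eq (k : ℤ) (d : ℕ) (hd : 0 < d) (f : ℍ → ℂ) :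
    vz d f = ((d : ℂ) ^ (1 - k)) • (f ∣[k] dgR d hd) := by
  have hd' : (d : ℂ) ≠ 0 := by exact_mod_cast hd.ne'
  rw [slash_dgR, smul_smul, ← zpow_add₀ hd']
  simp

/-- The relation `diag(d,1) γ = δ diag(d,1)`. -/
structure DegRel (d : ℕ) (γ δ : SL(2, ℤ)) : Prop where
  h00 : δ 0 0 = γ 0 0
  h01 : δ 0 1 = d * γ 0 1
  h10 : d * δ 1 0 = γ 1 0
  h11 : δ 1 1 = γ 1 1

lemma DegRel.mul_eq {d : ℕ} (hd : 0 < d) {γ δ : SL(2, ℤ)} (h : DegRel d γ δ) :
    dgR d hd * (γ : GL (Fin 2) ℝ) = (δ : GL (Fin 2) ℝ) * dgR d hd := by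
  apply Units.ext
  rw [Units.val_mul, Units.val_mul, dgR_val]
  have e00 : ((δ 0 0 : ℤ) : ℝ) = γ 0 0 := by exact_mod_cast h.h00
  have e01 : ((δ 0 1 : ℤ) : ℝ) = d * γ 0 1 := by exact_mod_cast h.h01
  have e10 : (d : ℝ) * ((δ 1 0 : ℤ) : ℝ) = γ 1 0 := by exact_mod_cast h.h10
  have e11 : ((δ 1 1 : ℤ) : ℝ) = γ 1 1 := by exact_mod_cast h.h11
  ext i j
  fin_cases i <;> fin_cases j <;>
    simp [Matrix.mul_apply, Fin.sum_univ_two, e00, e01, e11, ← e10, mul_comm]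

/-- `(f ∣ δ)(dz) = (f(d ·)) ∣ γ`. -/
lemma DegRel.vz_slash {d : ℕ} (hd : 0 < d) {γ δ : SL(2, ℤ)} (h : DegRel d γ δ) (k : ℤ)
    (f : ℍ → ℂ) : vz d f ∣[k] γ = vz d (f ∣[k] δ) := by
  rw [vz_eq k d hd f, vz_eq k d hd (f ∣[k] δ), ModularForm.SL_smul_slash]
  congr 1
  rw [SL_slash, SL_slash, ← SlashAction.slash_mul, ← SlashAction.slash_mul, h.mul_eq hd]

lemma exists_degRel {d N : ℕ} {γ : SL(2, ℤ)} (hγ : γ ∈ Gamma0 (N * d)) :
    ∃ δ ∈ Gamma0 N, DegRel d γ δ := by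
  rw [Gamma0_mem, ZMod.intCast_zmod_eq_zero_iff_dvd] at hγ
  obtain ⟨c, hc⟩ := hγ
  have hdet : γ 0 0 * γ 1 1 - γ 0 1 * γ 1 0 = 1 := by
    have := γ.det_coe
    rwa [Matrix.det_fin_two] at this
  refine ⟨⟨!![γ 0 0, d * γ 0 1; N * c, γ 1 1], ?_⟩, ?_, ⟨rfl, rfl, ?_, rfl⟩⟩
  · rw [Matrix.det_fin_two_of]
    have h1 := hdet
    rw [hc] at h1
    push_cast at h1
    linarith
  · rw [Gamma0_mem, ZMod.intCast_zmod_eq_zero_iff_dvd]
    exact ⟨c, rfl⟩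
  · change (d : ℤ) * (N * c) = _
    rw [hc]
    push_cast
    ring

lemma mdiff_vz {f : ℍ → ℂ} (hf : MDiff f) {d : ℕ} (hd : 0 < d) : MDiff (vz d f) := by
  rw [vz_eq 0 d hd f]
  exact (hf.slash 0 _).const_smul _

/-- `f(dz)` is a modular form of level `N d`. -/
lemma IsMF.vz {N : ℕ} [NeZero N] {k : ℤ} {f : ℍ → ℂ} (hf : IsMF N k f) {d : ℕ} (hd : 0 < d) :
    IsMF (N * d) k (vz d f) := by
  have : NeZero (N * d) := ⟨Nat.mul_ne_zero (NeZero.ne N) hd.ne'⟩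
  refine ⟨{ toFun := H01.vz d f, slash_action_eq' := ?_, holo' := mdiff_vz hf.mdiff hd,
            bdd_at_cusps' := ?_ }, rfl⟩
  · rintro _ ⟨γ, hγ, rfl⟩
    obtain ⟨δ, hδ, hrel⟩ := exists_degRel hγ
    change H01.vz d f ∣[k] γ = H01.vz d f
    rw [hrel.vz_slash hd, hf.slash_eq ⟨δ, hδ⟩]
  · intro c hc
    obtain ⟨A, rfl⟩ := hf
    rw [vz_eq k d hd]
    rw [Subgroup.IsArithmetic.isCusp_iff_isCusp_SL2Z, isCusp_SL2Z_iff] at hc
    have hc' : IsCusp (dgR d hd • c) ((Gamma0 N).map (Matrix.SpecialLinearGroup.mapGL ℝ)) := by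
      rw [Subgroup.IsArithmetic.isCusp_iff_isCusp_SL2Z, isCusp_SL2Z_iff]
      obtain ⟨q, rfl⟩ := hc
      refine ⟨dg d hd • q, ?_⟩
      rw [dgR]
      exact OnePoint.map_smul (Rat.castHom ℝ) (dg d hd) q
    have h1 : OnePoint.IsBoundedAt c (⇑A ∣[k] dgR d hd) k :=
      OnePoint.IsBoundedAt.smul_iff.1 (A.bdd_at_cusps' hc')
    intro g hg
    have h2 := h1 g hg
    rw [ModularForm.smul_slash]
    exact h2.const_smul_left _

/-! ### `q`-expansions -/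

/-- Uniqueness of `q`-expansions. -/
lemma NiceAt.qExpansion_eq {w : ℝ} (hw : 0 < w) {f : ℍ → ℂ} (hf : NiceAt w f) {c : ℕ → ℂ}
    (hc : ∀ τ : ℍ, HasSum (fun m => c m • Function.Periodic.qParam w τ ^ m) (f τ)) :
    qExpansion w f = PowerSeries.mk c := by
  let : FunLike (ℍ → ℂ) ℍ ℂ := ⟨fun f => f, fun _ _ h => h⟩
  ext n
  rw [PowerSeries.coeff_mk]
  exact (UpperHalfPlane.qExpansion_coeff_unique (F := ℍ → ℂ) f hw (hf.analyticAt hw) hc n).symm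

lemma NiceAt.hasSum {w : ℝ} (hw : 0 < w) {f : ℍ → ℂ} (hf : NiceAt w f) (τ : ℍ) :
    HasSum (fun m => (qExpansion w f).coeff m • Function.Periodic.qParam w τ ^ m) (f τ) :=
  UpperHalfPlane.hasSum_qExpansion hw hf.per hf.mdiff hf.bdd τ

lemma IsMF.niceAt_one {N : ℕ} [NeZero N] {k : ℤ} {f : ℍ → ℂ} (hf : IsMF N k f) : NiceAt 1 f where
  mdiff := hf.mdiff
  bdd := by simpa using hf.bdd 1
  per := hf.periodic

lemma qParam_vz (d : ℕ) (hd : 0 < d) (τ : ℍ) :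
    Function.Periodic.qParam 1 (ofComplex ((d : ℂ) * τ) : ℍ) =
      Function.Periodic.qParam 1 τ ^ d := by
  rw [ofComplex_apply_of_im_pos (im_natCast_mul_pos hd τ.im_pos)]
  simp only [Function.Periodic.qParam]
  rw [← Complex.exp_nat_mul]
  congr 1
  ring

/-- The `q`-expansion of `f(dz)`. -/
lemma IsMF.qExpansion_vz {N : ℕ} [NeZero N] {k : ℤ} {f : ℍ → ℂ} (hf : IsMF N k f) {d : ℕ}
    (hd : 0 < d) : qExpansion 1 (H01.vz d f) =
      PowerSeries.mk fun m => if d ∣ m then (qExpansion 1 f).coeff (m / d) else 0 := by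
  have : NeZero (N * d) := ⟨Nat.mul_ne_zero (NeZero.ne N) hd.ne'⟩
  refine (hf.vz hd).niceAt_one.qExpansion_eq one_pos fun τ => ?_
  have h1 := hf.niceAt_one.hasSum one_pos (ofComplex ((d : ℂ) * τ))
  rw [qParam_vz d hd] at h1
  have hinj : Function.Injective (fun m : ℕ => d * m) := fun a b hab =>
    Nat.eq_of_mul_eq_mul_left hd hab
  have h2 : HasSum ((fun m : ℕ => (if d ∣ m then (qExpansion 1 f).coeff (m / d) else 0) •
      Function.Periodic.qParam 1 (τ : ℂ) ^ m) ∘ fun m => d * m) (H01.vz d f τ) := by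
    have heq : ((fun m : ℕ => (if d ∣ m then (qExpansion 1 f).coeff (m / d) else 0) •
        Function.Periodic.qParam 1 (τ : ℂ) ^ m) ∘ fun m => d * m) = fun m =>
        (qExpansion 1 f).coeff m • (Function.Periodic.qParam 1 (τ : ℂ) ^ d) ^ m := by
      ext m
      simp only [Function.comp_apply, dvd_mul_right, if_true]
      rw [Nat.mul_div_cancel_left m hd, pow_mul]
    rw [heq]
    exact h1
  exact (hinj.hasSum_iff (by
    intro m hm
    have : ¬ d ∣ m := by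
      rintro ⟨c, rfl⟩
      exact hm ⟨c, rfl⟩
    simp [this])).1 h2

/-- The `q`-expansion of `f(dz)` as a Laurent series. -/
lemma IsMF.qLf_vz {N : ℕ} [NeZero N] {k : ℤ} {f : ℍ → ℂ} (hf : IsMF N k f) {d : ℕ} [NeZero d] :
    qLf (H01.vz d f) = ModularCurve.qExpand ℂ d (qLf f) := by
  have hd : 0 < d := Nat.pos_of_ne_zero (NeZero.ne d)
  ext n
  rw [qLf, hf.qExpansion_vz hd]
  by_cases hn : (d : ℤ) ∣ n
  · obtain ⟨m, rfl⟩ := hn
    rw [ModularCurve.qExpand_coeff_mul, qLf]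
    rcases lt_or_ge m 0 with hm | hm
    · rw [ModularCurve.ofPowerSeries_coeff_of_neg _ hm,
        ModularCurve.ofPowerSeries_coeff_of_neg _ (mul_neg_of_pos_of_neg (by omega) hm)]
    · lift m to ℕ using hm
      rw [HahnSeries.ofPowerSeries_apply_coeff, ← Nat.cast_mul,
        HahnSeries.ofPowerSeries_apply_coeff, PowerSeries.coeff_mk,
        if_pos (dvd_mul_right d m), Nat.mul_div_cancel_left m hd]
  · rw [ModularCurve.qExpand_coeff_of_not_dvd d _ hn]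
    rcases lt_or_ge n 0 with hm | hm
    · rw [ModularCurve.ofPowerSeries_coeff_of_neg _ hm]
    · lift n to ℕ using hm
      rw [HahnSeries.ofPowerSeries_apply_coeff, PowerSeries.coeff_mk, if_neg]
      exact fun h => hn (Int.natCast_dvd_natCast.2 h)

end Fermat.Agent.H01
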