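import Fermat.Agent.H01.Omega
import Fermat.Agent.H01.FieldLemmas
import Fermat.Agent.H01.Finite
import Fermat.Agent.H01.BaseChange
import Fermat.Agent.H02_JN

/-!
# Norms, transfer and Hecke operators on root characters
-/

set_option autoImplicit false

namespace Fermat.Agent.H01

open UpperHalfPlane Filter Topology ModularForm CongruenceSubgroup ModularCurve
open scoped Manifold MatrixGroups ModularForm

variable {N M : ℕ}

lemma mdiff_prod {ι : Type*} (s : Finset ι) {f : ι → ℍ → ℂ} (hf : ∀ i, MDiff (f i)) :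
    MDiff (∏ i ∈ s, f i) := (io_prod s hf).2

lemma prod_slash_SL2 {ι : Type*} (s : Finset ι) (k : ℤ) (f : ι → ℍ → ℂ) (σ : SL(2, ℤ)) :
    (∏ i ∈ s, f i) ∣[(s.card * k : ℤ)] σ = ∏ i ∈ s, (f i ∣[k] σ) := by
  classical
  induction s using Finset.induction_on with
  | empty =>
    rw [Finset.prod_empty, Finset.prod_empty]
    have : ((∅ : Finset ι).card * k : ℤ) = 0 := by simp
    rw [this]
    exact ModularForm.is_invariant_one σ
  | insert a s ha ih =>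
    rw [Finset.prod_insert ha, Finset.prod_insert ha, ← ih]
    have : ((insert a s : Finset ι).card * k : ℤ) = k + s.card * k := by
      rw [Finset.card_insert_of_notMem ha]
      push_cast
      ring
    rw [this, ModularForm.mul_slash_SL2]

/-- The product of the conjugates. -/
noncomputable def nrm (N M : ℕ) [NeZero M] (k : ℤ) (f : ℍ → ℂ) : ℍ → ℂ :=
  ∏ q : QGam N M, f ∣[k] ((q.out⁻¹ : Gamma0 N) : SL(2, ℤ))

/-- The index as an integer. -/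
noncomputable def nidx (N M : ℕ) [NeZero M] : ℤ := Fintype.card (QGam N M)

section

variable [NeZero M]

lemma mdiff_nrm {k : ℤ} {f : ℍ → ℂ} (hf : MDiff f) : MDiff (nrm N M k f) :=
  mdiff_prod _ fun _ => slash_mdiff k hf _

/-- The transformation law of the product of the conjugates. -/
lemma nrm_slash {k : ℤ} {H : ℍ → ℂ} (φ : (Gamma0 M).subgroupOf (Gamma0 N) →* ℂˣ)
    (hH : ∀ e : (Gamma0 M).subgroupOf (Gamma0 N),
      H ∣[k] ((e : Gamma0 N) : SL(2, ℤ)) = (φ e : ℂ) • H) (γ : Gamma0 N) :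
    nrm N M k H ∣[(nidx N M * k : ℤ)] (γ : SL(2, ℤ)) =
      (MonoidHom.transfer φ γ : ℂ) • nrm N M k H := by
  have hcard : (nidx N M * k : ℤ) = ((Finset.univ : Finset (QGam N M)).card * k : ℤ) := rfl
  rw [nrm, hcard, prod_slash_SL2, transfer_eq_prod φ γ (transfer_mem γ)]
  have h1 : ∀ q : QGam N M, (H ∣[k] ((q.out⁻¹ : Gamma0 N) : SL(2, ℤ))) ∣[k] (γ : SL(2, ℤ)) =
      (φ ⟨q.out⁻¹ * γ * (γ⁻¹ • q).out, transfer_mem γ q⟩ : ℂ) •
        (H ∣[k] (((γ⁻¹ • q).out⁻¹ : Gamma0 N) : SL(2, ℤ))) := by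
    intro q
    rw [← SlashAction.slash_mul]
    have h2 : ((q.out⁻¹ : Gamma0 N) : SL(2, ℤ)) * (γ : SL(2, ℤ)) =
        ((q.out⁻¹ * γ * (γ⁻¹ • q).out : Gamma0 N) : SL(2, ℤ)) *
          (((γ⁻¹ • q).out⁻¹ : Gamma0 N) : SL(2, ℤ)) := by
      rw [← Subgroup.coe_mul, ← Subgroup.coe_mul]
      congr 1
      group
    rw [h2, SlashAction.slash_mul,
      hH ⟨q.out⁻¹ * γ * (γ⁻¹ • q).out, transfer_mem γ q⟩, ModularForm.SL_smul_slash]
  rw [Finset.prod_congr rfl fun q _ => h1 q]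
  ext z
  simp only [Finset.prod_apply, Pi.smul_apply, smul_eq_mul, Finset.prod_mul_distrib,
    Units.coe_prod]
  congr 1
  exact Fintype.prod_equiv (MulAction.toPerm γ⁻¹) _
    (fun q : QGam N M => (H ∣[k] ((q.out⁻¹ : Gamma0 N) : SL(2, ℤ))) z) fun q => rfl

variable [NeZero N]

lemma IsMF.nrm (hNM : N ∣ M) {k : ℤ} {f : ℍ → ℂ} (hf : IsMF M k f) :
    IsMF N (nidx N M * k) (H01.nrm N M k f) := by
  refine IsMF.mk' (mdiff_nrm hf.mdiff) (fun γ hγ => ?_) (fun σ => ?_)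
  · have h1 := nrm_slash (N := N) (M := M) (k := k) (H := f) 1 (by
      intro e
      rw [hf.slash_eq ⟨((e : Gamma0 N) : SL(2, ℤ)), e.2⟩]
      simp) ⟨γ, hγ⟩
    rw [h1]
    have h2 : MonoidHom.transfer (1 : (Gamma0 M).subgroupOf (Gamma0 N) →* ℂˣ) ⟨γ, hγ⟩ = 1 := by
      rw [transfer_eq_prod _ _ (transfer_mem _)]
      simp
    rw [h2]
    simp
  · have hcard : (nidx N M * k : ℤ) = ((Finset.univ : Finset (QGam N M)).card * k : ℤ) := rfl
    rw [H01.nrm, hcard, prod_slash_SL2]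
    have h1 : ∀ s : Finset (QGam N M), IsBoundedAtImInfty
        (∏ q ∈ s, (f ∣[k] ((q.out⁻¹ : Gamma0 N) : SL(2, ℤ))) ∣[k] σ) := by
      intro s
      classical
      induction s using Finset.induction_on with
      | empty =>
        rw [Finset.prod_empty]
        exact atImInfty.const_boundedAtFilter (1 : ℂ)
      | insert a s ha ih =>
        rw [Finset.prod_insert ha]
        have h2 := hf.bdd (((a.out⁻¹ : Gamma0 N) : SL(2, ℤ)) * σ)
        rw [SlashAction.slash_mul] at h2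
        exact h2.mul ih
    exact h1 _

omit [NeZero N] in
lemma io_nrm {k : ℤ} {f : ℍ → ℂ} (hf : MDiff f) :
    io (nrm N M k f) = ∏ q : QGam N M, io (f ∣[k] ((q.out⁻¹ : Gamma0 N) : SL(2, ℤ))) :=
  (io_prod _ fun _ => slash_mdiff k hf _).1

lemma nrm_ne_zero {k : ℤ} {f : ℍ → ℂ} (hf : MDiff f) (hf0 : f ≠ 0) : nrm N M k f ≠ 0 := by
  intro h
  have h1 := io_nrm (N := N) (M := M) (k := k) hf
  rw [h, io_zero] at h1
  obtain ⟨q, -, hq⟩ := Finset.prod_eq_zero_iff.1 h1.symm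
  exact io_ne_zero (slash_mdiff k hf _) (slash_ne_zero hf0 _) hq

omit [NeZero N] in
lemma nrm_mul {k l : ℤ} (f g : ℍ → ℂ) :
    nrm N M (k + l) (f * g) = nrm N M k f * nrm N M l g := by
  rw [nrm, nrm, nrm, ← Finset.prod_mul_distrib]
  exact Finset.prod_congr rfl fun q _ => ModularForm.mul_slash_SL2 _ _ _ _ _

omit [NeZero N] in
lemma nrm_pow (k : ℤ) (f : ℍ → ℂ) (n : ℕ) : nrm N M (n * k) (f ^ n) = nrm N M k f ^ n := by
  rw [nrm, nrm, ← Finset.prod_pow]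
  exact Finset.prod_congr rfl fun q _ => slash_pow _ _ _ _

/-- The rep of an element whose image is the product of the conjugates. -/
lemma MFRep0.nrm_rep (hNM : N ∣ M) {x y : LaurentSeries ℂ} {k : ℤ} {f g : ℍ → ℂ}
    (h : MFRep0 M y k f g) (hx : x ∈ mfq N) (hy : y ∈ mfq M)
    (hxy : Phi N 1 ⟨x, hx⟩ =
      ∏ q : QGam N M, Phi M ((q.out⁻¹ : Gamma0 N) : SL(2, ℤ)) ⟨y, hy⟩) :
    MFRep0 N x (nidx N M * k) (nrm N M k f) (nrm N M k g) := by
  obtain ⟨l, a, b, hab⟩ := MFRep0.exists_of_mem hx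
  rw [Phi_apply (x := ⟨x, hx⟩) hab, SlashAction.slash_one, SlashAction.slash_one] at hxy
  have h1 : ∀ q : QGam N M, Phi M ((q.out⁻¹ : Gamma0 N) : SL(2, ℤ)) ⟨y, hy⟩ =
      io (f ∣[k] ((q.out⁻¹ : Gamma0 N) : SL(2, ℤ))) /
        io (g ∣[k] ((q.out⁻¹ : Gamma0 N) : SL(2, ℤ))) :=
    fun q => Phi_apply (x := ⟨y, hy⟩) h
  rw [Finset.prod_congr rfl fun q _ => h1 q, Finset.prod_div_distrib, ← io_nrm h.hf.mdiff,
    ← io_nrm h.hg.mdiff, div_eq_div_iff (io_ne_zero hab.hg.mdiff hab.hg0)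
      (io_ne_zero (mdiff_nrm h.hg.mdiff) (nrm_ne_zero h.hg.mdiff h.hg0)),
    ← io_mul hab.hf.mdiff (mdiff_nrm h.hg.mdiff), ← io_mul (mdiff_nrm h.hf.mdiff) hab.hg.mdiff]
    at hxy
  have h2 := io_inj (hab.hf.mdiff.mul (mdiff_nrm h.hg.mdiff))
    ((mdiff_nrm h.hf.mdiff).mul hab.hg.mdiff) hxy
  refine ⟨h.hf.nrm hNM, h.hg.nrm hNM, nrm_ne_zero h.hg.mdiff h.hg0, ?_⟩
  have hb0 : qLf b ≠ 0 := fun h0 => hab.hg0 (hab.hg.qLf_eq_zero_iff.1 h0)
  have h3 := congrArg qLf h2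
  rw [hab.hf.qLf_mul (h.hg.nrm hNM), (h.hf.nrm hNM).qLf_mul hab.hg, ← hab.eq] at h3
  apply mul_right_cancel₀ hb0
  rw [← h3]
  ring

/-- The restriction homomorphism. -/
def subIncl (N M : ℕ) : (Gamma0 M).subgroupOf (Gamma0 N) →* Gamma0 M where
  toFun e := ⟨((e : Gamma0 N) : SL(2, ℤ)), e.2⟩
  map_one' := rfl
  map_mul' _ _ := rfl

/-- Root data for the norm. -/
theorem RootData.nrm (hNM : N ∣ M) {m : ℕ} (hm : m ≠ 0) {x y : LaurentSeries ℂ}
    {ψ : Gamma0 M →* ℂˣ} {k : ℤ} {f g H : ℍ → ℂ} (h : RootData M m y ψ k f g H)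
    (hx : x ∈ mfq N) (hx0 : x ≠ 0) (hy : y ∈ mfq M)
    (hxy : Phi N 1 ⟨x, hx⟩ =
      ∏ q : QGam N M, Phi M ((q.out⁻¹ : Gamma0 N) : SL(2, ℤ)) ⟨y, hy⟩) :
    RootData N m x (MonoidHom.transfer (ψ.comp (subIncl N M))) (nidx N M * k)
      (H01.nrm N M k f) (H01.nrm N M k g) (H01.nrm N M k H) where
  rep := by
    have h1 := h.rep.rep0.nrm_rep hNM hx hy hxy
    exact ⟨h1.hf, h1.hg, nrm_ne_zero h.rep.hf.mdiff h.rep.hf0, h1.hg0, h1.eq⟩
  mdiff := mdiff_nrm h.mdiff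
  pow_eq := by
    have h1 : (m * k : ℤ) = k + ((m - 1 : ℕ) * k : ℤ) := by
      rw [Nat.cast_sub (Nat.one_le_iff_ne_zero.2 hm)]
      push_cast
      ring
    rw [← nrm_pow, h.pow_eq, h1, nrm_mul, nrm_pow]
  slash γ := by
    refine nrm_slash (ψ.comp (subIncl N M)) (fun e => ?_) γ
    exact h.slash (subIncl N M e)

/-- The root character of a norm is the transfer of the root character. -/
theorem HasRootChar.nrm (hNM : N ∣ M) {m : ℕ} (hm : m ≠ 0) {x y : LaurentSeries ℂ}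
    {ψ : Gamma0 M →* ℂˣ} (h : HasRootChar M m y ψ)
    (hx : x ∈ mfq N) (hx0 : x ≠ 0) (hy : y ∈ mfq M)
    (hxy : Phi N 1 ⟨x, hx⟩ =
      ∏ q : QGam N M, Phi M ((q.out⁻¹ : Gamma0 N) : SL(2, ℤ)) ⟨y, hy⟩) :
    HasRootChar N m x (MonoidHom.transfer (ψ.comp (subIncl N M))) := by
  obtain ⟨k, f, g, H, h⟩ := hasRootChar_iff.1 h
  exact hasRootChar_iff.2 ⟨_, _, _, _, h.nrm hNM hm hx hx0 hy hxy⟩

end

end Fermat.Agent.H01
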