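import Fermat.Agent.H01.EllPar
import Fermat.Agent.H01.LevelRaise

/-!
# Conjugates of quotients of modular forms, in the fraction field of holomorphic functions on `ℍ`
-/

set_option autoImplicit false

namespace Fermat.Agent.H01

open UpperHalfPlane Filter Topology ModularForm CongruenceSubgroup
open scoped Manifold MatrixGroups ModularForm

/-- The ring of holomorphic functions on `ℍ`. -/
def holo : Subring (ℍ → ℂ) where
  carrier := {f | MDiff f}
  mul_mem' hf hg := MDifferentiable.mul hf hg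
  add_mem' hf hg := MDifferentiable.add hf hg
  one_mem' := mdifferentiable_const
  zero_mem' := mdifferentiable_const
  neg_mem' hf := MDifferentiable.neg hf

lemma mem_holo {f : ℍ → ℂ} : f ∈ holo ↔ MDiff f := Iff.rfl

instance : NoZeroDivisors holo where
  eq_zero_or_eq_zero_of_mul_eq_zero := by
    rintro ⟨f, hf⟩ ⟨g, hg⟩ h
    have h1 : f * g = 0 := congrArg Subtype.val h
    rcases (UpperHalfPlane.mul_eq_zero_iff hf hg).1 h1 with h2 | h2
    · exact Or.inl (Subtype.ext h2)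
    · exact Or.inr (Subtype.ext h2)

instance : Nontrivial holo := ⟨⟨0, 1, fun h => by
  have := congrFun (congrArg Subtype.val h) I
  simp at this⟩⟩

instance : IsDomain holo := NoZeroDivisors.to_isDomain _

/-- The field of fractions of the ring of holomorphic functions on `ℍ`. -/
abbrev Om : Type := FractionRing holo

open Classical in
/-- A holomorphic function as an element of `Om`. -/
noncomputable def io (f : ℍ → ℂ) : Om := if h : MDiff f then algebraMap holo Om ⟨f, h⟩ else 0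

lemma io_of {f : ℍ → ℂ} (h : MDiff f) : io f = algebraMap holo Om ⟨f, h⟩ := dif_pos h

lemma io_mul {f g : ℍ → ℂ} (hf : MDiff f) (hg : MDiff g) : io (f * g) = io f * io g := by
  rw [io_of hf, io_of hg, io_of (hf.mul hg), ← map_mul]
  rfl

lemma io_add {f g : ℍ → ℂ} (hf : MDiff f) (hg : MDiff g) : io (f + g) = io f + io g := by
  rw [io_of hf, io_of hg, io_of (hf.add hg), ← map_add]
  rfl

lemma io_one : io 1 = 1 := by
  rw [io_of (f := 1) mdifferentiable_const, ← map_one (algebraMap holo Om)]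
  rfl

lemma io_inj {f g : ℍ → ℂ} (hf : MDiff f) (hg : MDiff g) (h : io f = io g) : f = g := by
  rw [io_of hf, io_of hg] at h
  exact congrArg Subtype.val (IsFractionRing.injective holo Om h)

lemma io_zero : io 0 = 0 := by
  rw [io_of (f := 0) mdifferentiable_const, ← map_zero (algebraMap holo Om)]
  rfl

lemma io_ne_zero {f : ℍ → ℂ} (hf : MDiff f) (hf0 : f ≠ 0) : io f ≠ 0 := by
  intro h
  rw [← io_zero] at h
  exact hf0 (io_inj hf mdifferentiable_const h)

lemma io_prod {ι : Type*} (s : Finset ι) {f : ι → ℍ → ℂ} (hf : ∀ i, MDiff (f i)) :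
    io (∏ i ∈ s, f i) = ∏ i ∈ s, io (f i) ∧ MDiff (∏ i ∈ s, f i) := by
  classical
  induction s using Finset.induction_on with
  | empty =>
    rw [Finset.prod_empty, Finset.prod_empty]
    exact ⟨io_one, mdifferentiable_const⟩
  | insert a s ha ih =>
    rw [Finset.prod_insert ha, Finset.prod_insert ha, io_mul (hf a) ih.2, ih.1]
    exact ⟨rfl, (hf a).mul ih.2⟩

/-- A representation of a Laurent series as a quotient of modular forms (numerator may be zero). -/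
structure MFRep0 (N : ℕ) (x : LaurentSeries ℂ) (k : ℤ) (f g : ℍ → ℂ) : Prop where
  hf : IsMF N k f
  hg : IsMF N k g
  hg0 : g ≠ 0
  eq : x * qLf g = qLf f

lemma MFRep.rep0 {N : ℕ} {x : LaurentSeries ℂ} {k : ℤ} {f g : ℍ → ℂ} (h : MFRep N x k f g) :
    MFRep0 N x k f g := ⟨h.hf, h.hg, h.hg0, h.eq⟩

namespace MFRep0

variable {N : ℕ} {x y : LaurentSeries ℂ} {k l : ℤ} {f g f' g' : ℍ → ℂ}

lemma exists_of_mem (hx : x ∈ mfq N) : ∃ k f g, MFRep0 N x k f g := by
  obtain ⟨k, f, g, hf, hg, hg0, h⟩ := mem_mfq'.1 hx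
  exact ⟨k, f, g, hf, hg, hg0, h⟩

lemma cross (h : MFRep0 N x k f g) (h' : MFRep0 N x l f' g') : f * g' = f' * g := by
  have h1 : IsMF N (k + l) (f * g') := h.hf.mul h'.hg
  have h2 : IsMF N (k + l) (f' * g) := (h'.hf.mul h.hg).cast (add_comm l k)
  apply h1.qLf_injective h2
  rw [h.hf.qLf_mul h'.hg, h'.hf.qLf_mul h.hg, ← h.eq, ← h'.eq]
  ring

lemma mul (h : MFRep0 N x k f g) (h' : MFRep0 N y l f' g') :
    MFRep0 N (x * y) (k + l) (f * f') (g * g') where
  hf := h.hf.mul h'.hf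
  hg := h.hg.mul h'.hg
  hg0 := mf_mul_ne_zero h.hg h'.hg h.hg0 h'.hg0
  eq := by
    rw [h.hf.qLf_mul h'.hf, h.hg.qLf_mul h'.hg, ← h.eq, ← h'.eq]
    ring

lemma add (h : MFRep0 N x k f g) (h' : MFRep0 N y l f' g') :
    MFRep0 N (x + y) (k + l) (f * g' + f' * g) (g * g') where
  hf := (h.hf.mul h'.hg).add ((h'.hf.mul h.hg).cast (add_comm l k))
  hg := h.hg.mul h'.hg
  hg0 := mf_mul_ne_zero h.hg h'.hg h.hg0 h'.hg0
  eq := by
    have h1 : IsMF N (k + l) (f * g') := h.hf.mul h'.hg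
    have h2 : IsMF N (k + l) (f' * g) := (h'.hf.mul h.hg).cast (add_comm l k)
    rw [h1.qLf_add h2, h.hf.qLf_mul h'.hg, h'.hf.qLf_mul h.hg, h.hg.qLf_mul h'.hg, ← h.eq,
      ← h'.eq]
    ring

lemma mono {M : ℕ} [NeZero N] [NeZero M] (h : MFRep0 N x k f g) (hNM : N ∣ M) :
    MFRep0 M x k f g :=
  ⟨h.hf.mono hNM, h.hg.mono hNM, h.hg0, h.eq⟩

end MFRep0

open Classical in
/-- The value of the conjugate by `σ`. -/
noncomputable def conjVal (N : ℕ) (σ : SL(2, ℤ)) (x : LaurentSeries ℂ) : Om :=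
  if h : ∃ (k : ℤ) (f g : ℍ → ℂ), MFRep0 N x k f g then
    io (h.choose_spec.choose ∣[h.choose] σ) / io (h.choose_spec.choose_spec.choose ∣[h.choose] σ)
  else 0

lemma conjVal_eq {N : ℕ} {σ : SL(2, ℤ)} {x : LaurentSeries ℂ} {k : ℤ} {f g : ℍ → ℂ}
    (h : MFRep0 N x k f g) : conjVal N σ x = io (f ∣[k] σ) / io (g ∣[k] σ) := by
  have hex : ∃ (k : ℤ) (f g : ℍ → ℂ), MFRep0 N x k f g := ⟨k, f, g, h⟩
  have key : ∀ (l : ℤ) (f' g' : ℍ → ℂ), MFRep0 N x l f' g' →
      io (f' ∣[l] σ) / io (g' ∣[l] σ) = io (f ∣[k] σ) / io (g ∣[k] σ) := by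
    intro l f' g' h'
    have h1 := h.cross h'
    have h2 : (f * g') ∣[k + l] σ = (f' * g) ∣[k + l] σ := by rw [h1]
    rw [ModularForm.mul_slash_SL2, add_comm k l, ModularForm.mul_slash_SL2] at h2
    rw [div_eq_div_iff (io_ne_zero (slash_mdiff _ h'.hg.mdiff σ) (slash_ne_zero h'.hg0 σ))
      (io_ne_zero (slash_mdiff _ h.hg.mdiff σ) (slash_ne_zero h.hg0 σ)),
      ← io_mul (slash_mdiff _ h'.hf.mdiff σ) (slash_mdiff _ h.hg.mdiff σ),
      ← io_mul (slash_mdiff _ h.hf.mdiff σ) (slash_mdiff _ h'.hg.mdiff σ), h2]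
  rw [conjVal, dif_pos hex]
  exact key _ _ _ hex.choose_spec.choose_spec.choose_spec

/-- The conjugation embedding `x = A / B ↦ (A ∣ σ) / (B ∣ σ)`. -/
noncomputable def Phi (N : ℕ) (σ : SL(2, ℤ)) : mfq N →+* Om where
  toFun x := conjVal N σ x
  map_one' := by
    have h : MFRep0 N (1 : LaurentSeries ℂ) 0 1 1 := ⟨IsMF.one N, IsMF.one N, one_ne_zero, by simp⟩
    change conjVal N σ 1 = 1
    rw [conjVal_eq h]
    have h1 : (1 : ℍ → ℂ) ∣[(0 : ℤ)] σ = 1 := ModularForm.is_invariant_one σ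
    rw [h1, io_one, div_one]
  map_zero' := by
    have h : MFRep0 N (0 : LaurentSeries ℂ) 0 0 1 := ⟨IsMF.zero N 0, IsMF.one N, one_ne_zero, by
      rw [zero_mul, (IsMF.zero N 0).qLf_eq_zero_iff.2 rfl]⟩
    change conjVal N σ 0 = 0
    rw [conjVal_eq h]
    have h1 : (0 : ℍ → ℂ) ∣[(0 : ℤ)] σ = 0 := SlashAction.zero_slash _ _
    rw [h1, io_zero, zero_div]
  map_mul' := by
    rintro ⟨x, hx⟩ ⟨y, hy⟩
    obtain ⟨k, f, g, h⟩ := MFRep0.exists_of_mem hx
    obtain ⟨l, f', g', h'⟩ := MFRep0.exists_of_mem hy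
    change conjVal N σ (x * y) = conjVal N σ x * conjVal N σ y
    rw [conjVal_eq h, conjVal_eq h', conjVal_eq (h.mul h'), ModularForm.mul_slash_SL2,
      ModularForm.mul_slash_SL2,
      io_mul (slash_mdiff _ h.hf.mdiff σ) (slash_mdiff _ h'.hf.mdiff σ),
      io_mul (slash_mdiff _ h.hg.mdiff σ) (slash_mdiff _ h'.hg.mdiff σ), div_mul_div_comm]
  map_add' := by
    rintro ⟨x, hx⟩ ⟨y, hy⟩
    obtain ⟨k, f, g, h⟩ := MFRep0.exists_of_mem hx
    obtain ⟨l, f', g', h'⟩ := MFRep0.exists_of_mem hy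
    change conjVal N σ (x + y) = conjVal N σ x + conjVal N σ y
    have hf := slash_mdiff k h.hf.mdiff σ
    have hg := slash_mdiff k h.hg.mdiff σ
    have hf' := slash_mdiff l h'.hf.mdiff σ
    have hg' := slash_mdiff l h'.hg.mdiff σ
    have e1 : (f' * g) ∣[k + l] σ = (f' ∣[l] σ) * (g ∣[k] σ) := by
      rw [add_comm k l, ModularForm.mul_slash_SL2]
    rw [conjVal_eq h, conjVal_eq h', conjVal_eq (h.add h'), SlashAction.add_slash, e1,
      ModularForm.mul_slash_SL2, ModularForm.mul_slash_SL2, io_add (hf.mul hg') (hf'.mul hg),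
      io_mul hf hg', io_mul hf' hg, io_mul hg hg', div_add_div _ _
        (io_ne_zero hg (slash_ne_zero h.hg0 σ)) (io_ne_zero hg' (slash_ne_zero h'.hg0 σ))]
    ring

lemma Phi_apply {N : ℕ} {σ : SL(2, ℤ)} {x : mfq N} {k : ℤ} {f g : ℍ → ℂ}
    (h : MFRep0 N (x : LaurentSeries ℂ) k f g) :
    Phi N σ x = io (f ∣[k] σ) / io (g ∣[k] σ) := conjVal_eq h

lemma Phi_mul_left {N : ℕ} (γ : Gamma0 N) (σ : SL(2, ℤ)) (x : mfq N) :
    Phi N ((γ : SL(2, ℤ)) * σ) x = Phi N σ x := by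
  obtain ⟨k, f, g, h⟩ := MFRep0.exists_of_mem x.2
  rw [Phi_apply h, Phi_apply h, SlashAction.slash_mul, SlashAction.slash_mul, h.hf.slash_eq,
    h.hg.slash_eq]

lemma Phi_eq_of_mem {N M : ℕ} [NeZero N] [NeZero M] (hNM : N ∣ M) (σ : SL(2, ℤ)) (x : mfq M)
    (hx : (x : LaurentSeries ℂ) ∈ mfq N) : Phi M σ x = Phi N σ ⟨x, hx⟩ := by
  obtain ⟨k, f, g, h⟩ := MFRep0.exists_of_mem hx
  rw [Phi_apply (h.mono hNM), Phi_apply (x := ⟨x, hx⟩) h]

/-- The conjugates of elements of level `N` by elements of `Γ₀(N)` are trivial. -/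
lemma Phi_eq_of_mem_of_mem {N M : ℕ} [NeZero N] [NeZero M] (hNM : N ∣ M) (γ : Gamma0 N)
    (x : mfq M) (hx : (x : LaurentSeries ℂ) ∈ mfq N) :
    Phi M (γ : SL(2, ℤ)) x = Phi M 1 x := by
  rw [Phi_eq_of_mem hNM _ x hx, Phi_eq_of_mem hNM _ x hx, ← mul_one (γ : SL(2, ℤ)),
    Phi_mul_left]

/-- Cancelling a conjugation. -/
lemma Phi_eq_iff {N : ℕ} (σ σ' : SL(2, ℤ)) (x : mfq N) :
    Phi N σ x = Phi N σ' x ↔ Phi N (σ * σ'⁻¹) x = Phi N 1 x := by
  obtain ⟨k, f, g, h⟩ := MFRep0.exists_of_mem x.2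
  rw [Phi_apply h, Phi_apply h, Phi_apply h, Phi_apply h]
  have hf := fun τ => slash_mdiff k h.hf.mdiff τ
  have hg := fun τ => slash_mdiff k h.hg.mdiff τ
  have hg0 := fun τ => io_ne_zero (hg τ) (slash_ne_zero h.hg0 τ)
  rw [div_eq_div_iff (hg0 _) (hg0 _), div_eq_div_iff (hg0 _) (hg0 _), ← io_mul (hf _) (hg _),
    ← io_mul (hf _) (hg _), ← io_mul (hf _) (hg _), ← io_mul (hf _) (hg _)]
  constructor
  · intro h1
    have h2 := io_inj ((hf _).mul (hg _)) ((hf _).mul (hg _)) h1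
    have h3 : (f ∣[k] σ * g ∣[k] σ') ∣[k + k] σ'⁻¹ = (f ∣[k] σ' * g ∣[k] σ) ∣[k + k] σ'⁻¹ := by
      rw [h2]
    rw [ModularForm.mul_slash_SL2, ModularForm.mul_slash_SL2, ← SlashAction.slash_mul,
      ← SlashAction.slash_mul, ← SlashAction.slash_mul, ← SlashAction.slash_mul,
      mul_inv_cancel] at h3
    rw [h3]
  · intro h1
    have h2 := io_inj ((hf _).mul (hg _)) ((hf _).mul (hg _)) h1
    have h3 : (f ∣[k] (σ * σ'⁻¹) * g ∣[k] (1 : SL(2, ℤ))) ∣[k + k] σ' =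
        (f ∣[k] (1 : SL(2, ℤ)) * g ∣[k] (σ * σ'⁻¹)) ∣[k + k] σ' := by
      rw [h2]
    rw [ModularForm.mul_slash_SL2, ModularForm.mul_slash_SL2, ← SlashAction.slash_mul,
      ← SlashAction.slash_mul, ← SlashAction.slash_mul, ← SlashAction.slash_mul,
      inv_mul_cancel_right, one_mul] at h3
    rw [h3]

/-! ### The norm formula -/

section NormFormula

variable {N M : ℕ} [NeZero N] [NeZero M]

/-- The coset space. -/
abbrev QGam (N M : ℕ) : Type := Gamma0 N ⧸ (Gamma0 M).subgroupOf (Gamma0 N)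

instance : ((Gamma0 M).subgroupOf (Gamma0 N)).FiniteIndex := inferInstance

noncomputable instance : Fintype (QGam N M) := Subgroup.fintypeQuotientOfFiniteIndex

variable {K₀ L₀ : Type*} [Field K₀] [Field L₀] [Algebra K₀ L₀]

/-- The norm formula: the norm is the product of the conjugates. -/
theorem norm_formula [CharZero K₀] [FiniteDimensional K₀ L₀] (hNM : N ∣ M) (s : L₀ →+* mfq M)
    (hK : ∀ c : K₀, (s (algebraMap K₀ L₀ c) : LaurentSeries ℂ) ∈ mfq N)
    (hdeg : Module.finrank K₀ L₀ ≤ Fintype.card (QGam N M))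
    (hsep : ∀ γ : Gamma0 N, (∀ y : L₀, Phi M (γ : SL(2, ℤ)) (s y) = Phi M 1 (s y)) →
      (γ : SL(2, ℤ)) ∈ Gamma0 M) (y : L₀) :
    Phi M 1 (s (algebraMap K₀ L₀ (Algebra.norm K₀ y))) =
      ∏ q : QGam N M, Phi M ((q.out⁻¹ : Gamma0 N) : SL(2, ℤ)) (s y) := by
  classical
  let E := AlgebraicClosure Om
  let ι : K₀ →+* E := (algebraMap Om E).comp ((Phi M 1).comp (s.comp (algebraMap K₀ L₀)))
  let : Algebra K₀ E := ι.toAlgebra
  let e : QGam N M → (L₀ →ₐ[K₀] E) := fun q =>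
    { (algebraMap Om E).comp ((Phi M ((q.out⁻¹ : Gamma0 N) : SL(2, ℤ))).comp s) with
      commutes' := by
        intro c
        change algebraMap Om E (Phi M _ (s (algebraMap K₀ L₀ c))) =
          algebraMap Om E (Phi M 1 (s (algebraMap K₀ L₀ c)))
        rw [Phi_eq_of_mem_of_mem hNM _ _ (hK c)] }
  have he : ∀ q y, e q y = algebraMap Om E (Phi M ((q.out⁻¹ : Gamma0 N) : SL(2, ℤ)) (s y)) :=
    fun _ _ => rfl
  have hinj : Function.Injective e := by
    intro q q' hqq'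
    have h1 : ∀ y, Phi M ((q.out⁻¹ : Gamma0 N) : SL(2, ℤ)) (s y) =
        Phi M ((q'.out⁻¹ : Gamma0 N) : SL(2, ℤ)) (s y) := by
      intro y
      have h2 := DFunLike.congr_fun hqq' y
      rw [he, he] at h2
      exact (algebraMap Om E).injective h2
    have h2 : ((q.out⁻¹ * q'.out : Gamma0 N) : SL(2, ℤ)) ∈ Gamma0 M := by
      apply hsep
      intro y
      have h3 := (Phi_eq_iff _ _ _).1 (h1 y)
      rw [← h3]
      simp
    rw [← Quotient.out_eq q, ← Quotient.out_eq q']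
    exact QuotientGroup.eq.2 h2
  have hcard : Fintype.card (L₀ →ₐ[K₀] E) = Module.finrank K₀ L₀ := AlgHom.card K₀ L₀ E
  have hbij : Function.Bijective e := by
    rw [Fintype.bijective_iff_injective_and_card]
    refine ⟨hinj, le_antisymm (Fintype.card_le_of_injective e hinj) ?_⟩
    rw [hcard]
    exact hdeg
  have hnorm := Algebra.norm_eq_prod_embeddings K₀ E y
  rw [← hbij.prod_comp (fun σ : L₀ →ₐ[K₀] E => σ y)] at hnorm
  have h3 : algebraMap K₀ E (Algebra.norm K₀ y) =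
      algebraMap Om E (Phi M 1 (s (algebraMap K₀ L₀ (Algebra.norm K₀ y)))) := rfl
  rw [h3] at hnorm
  apply (algebraMap Om E).injective
  rw [hnorm, map_prod]
  rfl

end NormFormula

end Fermat.Agent.H01
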