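import Fermat.Agent.H01.OrdSys

/-!
# Relations for Frobenius on the unramified quotient: the `T`-level statement
-/

set_option autoImplicit false
set_option linter.style.haveILetI false
set_option linter.unusedSectionVars false
set_option maxSynthPendingDepth 3

noncomputable section

namespace Fermat.Agent.Strict

open Polynomial Module Fermat.Agent.H05

local notation "Qb" => AlgebraicClosure ℚ
local notation "Γℚ" => AlgebraicClosure ℚ ≃ₐ[ℚ] AlgebraicClosure ℚ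

variable {R T : Type} [CommRing R] [CommRing T] [IsLocalRing T]
  {ρ : GaloisRepAdic T} {A : ValuationSubring Qb}

theorem trace_eq (b : Basis (Fin 2) T ρ.V) (σ : Γℚ) :
    LinearMap.trace T ρ.V (ρ.ρ σ) = xc b σ + zc b σ := by
  rw [LinearMap.trace_eq_matrix_trace T b, Matrix.trace_fin_two, LinearMap.toMatrix_apply,
    LinearMap.toMatrix_apply]
  rfl

theorem OrdLine.xc_mul {b : Basis (Fin 2) T ρ.V} (h : OrdLine b A) {σ τ : Γℚ}
    (hσ : σ ∈ A.decompositionSubgroup ℚ) (hτ : τ ∈ A.decompositionSubgroup ℚ) :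
    xc b (σ * τ) = xc b σ * xc b τ := by
  have h0 : b 0 ∈ T ∙ b 0 := Submodule.mem_span_singleton_self _
  rw [xc, map_mul, Module.End.mul_apply, h.smul_line hτ h0, map_smul, h.smul_line hσ h0,
    map_smul, map_smul, Finsupp.smul_apply, Finsupp.smul_apply, b.repr_self,
    Finsupp.single_eq_same, smul_eq_mul, smul_eq_mul, mul_one, mul_comm]

theorem haus_of [hT : IsHausdorff (IsLocalRing.maximalIdeal T) T] :
    ∀ x : T, (∀ n : ℕ, x ∈ IsLocalRing.maximalIdeal T ^ n) → x = 0 := by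
  intro x hx
  apply IsHausdorff.haus hT
  intro n
  rw [SModEq.zero, smul_eq_mul, Ideal.mul_top]
  exact hx n

/-- **A quadratic relation of `g ∈ D` modulo `K` holds on the unramified quotient.** -/
theorem relation_of_sys {p : ℕ} (hp : p.Prime) {π : R →+* T}
    (hpT : (p : T) ∈ IsLocalRing.maximalIdeal T)
    (haus : ∀ x : T, (∀ n : ℕ, x ∈ IsLocalRing.maximalIdeal T ^ n) → x = 0)
    (hspan : Submodule.span T (Set.range ρ.ρ) = ⊤)
    (hPmax : ((IsLocalRing.maximalIdeal T).comap π).IsMaximal)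
    {b : Basis (Fin 2) T ρ.V} (hb : OrdLine b A)
    {σ₀ : Γℚ} (hσ₀ : σ₀ ∈ A.inertiaSubgroupIn ℚ) (hunit : IsUnit (LinearMap.det (ρ.ρ σ₀) - 1))
    {g : Γℚ} (hg : g ∈ A.decompositionSubgroup ℚ) {c₀ d₀ t : R}
    (hM : ∀ n : ℕ, n ≠ 0 → ∃ M : OrdSys p n ρ π A, (∀ w ∈ M.K, M.act c₀ w ∈ M.K) ∧
      (∀ w ∈ M.K, M.act d₀ w ∈ M.K) ∧
      ∀ w, M.r g (M.r g (M.act t w)) - M.act c₀ (M.r g (M.act t w)) + M.act d₀ (M.act t w) ∈
        M.K) :
    π t * (zc b g ^ 2 - π c₀ * zc b g + π d₀) = 0 := by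
  have hID : A.inertiaSubgroupIn ℚ ≤ A.decompositionSubgroup ℚ := by
    intro σ hσ
    obtain ⟨τ, -, rfl⟩ := Subgroup.mem_map.mp hσ
    exact τ.2
  have hres : ∀ τ ∈ A.inertiaSubgroupIn ℚ, LinearMap.trace T ρ.V (ρ.ρ τ) -
      (1 + LinearMap.det (ρ.ρ τ)) ∈ IsLocalRing.maximalIdeal T := by
    intro τ hτ
    rw [trace_eq b, hb.det_eq (hID hτ), hb.zc_inertia hτ]
    have : xc b τ + 1 - (1 + xc b τ * 1) = 0 := by ring
    rw [this]
    exact zero_mem _
  set d := LinearMap.det (ρ.ρ σ₀) with hd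
  have hσ₀D := hID hσ₀
  -- the trace identity
  have key : π t * (LinearMap.trace T ρ.V (ρ.ρ (σ₀ * g * g)) -
      π c₀ * LinearMap.trace T ρ.V (ρ.ρ (σ₀ * g)) + π d₀ * LinearMap.trace T ρ.V (ρ.ρ σ₀) -
      d * (LinearMap.trace T ρ.V (ρ.ρ (g * g)) - π c₀ * LinearMap.trace T ρ.V (ρ.ρ g) +
        2 * π d₀)) = 0 := by
    apply haus
    intro n
    by_cases hn : n = 0
    · subst hn
      rw [pow_zero, Ideal.one_eq_top]
      trivial
    obtain ⟨M, hMc, hMd, hMF⟩ := hM n hn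
    have h1 := M.hG hp hn hpT hspan hPmax hres σ₀ hσ₀ hunit
      (relOp M.s M.c c₀ d₀ σ₀ g * t) (fun w => by
        rw [map_mul, Module.End.mul_apply]
        exact M.relOp_mem hp hMc hMd hσ₀ hg (M.act t w) (hMF w))
    set t1 := LinearMap.trace T ρ.V (ρ.ρ (σ₀ * g * g)) with ht1
    set t2 := LinearMap.trace T ρ.V (ρ.ρ (σ₀ * g)) with ht2
    set t3 := LinearMap.trace T ρ.V (ρ.ρ σ₀) with ht3
    set t4 := LinearMap.trace T ρ.V (ρ.ρ (g * g)) with ht4
    set t5 := LinearMap.trace T ρ.V (ρ.ρ g) with ht5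
    have h2 : π t * (t1 - π c₀ * t2 + π d₀ * t3 - d * (t4 - π c₀ * t5 + 2 * π d₀)) =
        π (relOp M.s M.c c₀ d₀ σ₀ g * t) + π t * ((t1 - π (M.s (σ₀ * g * g))) -
          π c₀ * (t2 - π (M.s (σ₀ * g))) + π d₀ * (t3 - π (M.s σ₀)) -
          d * ((t4 - π (M.s (g * g))) - π c₀ * (t5 - π (M.s g))) -
          (d - (M.c σ₀ : T)) * (π (M.s (g * g)) - π c₀ * π (M.s g) + 2 * π d₀)) := by
      rw [relOp, map_mul, map_sub, map_add, map_sub, map_mul, map_mul, map_mul, map_add, map_sub,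
        map_mul, map_mul, map_natCast, map_ofNat]
      ring
    rw [h2]
    refine add_mem h1 (Ideal.mul_mem_left _ _ ?_)
    refine sub_mem (sub_mem (add_mem (sub_mem (M.hs _) (Ideal.mul_mem_left _ _ (M.hs _)))
      (Ideal.mul_mem_left _ _ (M.hs _))) (Ideal.mul_mem_left _ _ (sub_mem (M.hs _)
      (Ideal.mul_mem_left _ _ (M.hs _))))) (Ideal.mul_mem_right _ _ (M.hc _))
  have hdx : d = xc b σ₀ := by
    rw [hd, hb.det_eq hσ₀D, hb.zc_inertia hσ₀, mul_one]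
  rw [trace_eq b, trace_eq b, trace_eq b, trace_eq b, trace_eq b,
    hb.xc_mul (mul_mem hσ₀D hg) hg, hb.xc_mul hσ₀D hg, hb.xc_mul hg hg,
    hb.zc_mul (mul_mem hσ₀D hg), hb.zc_mul hσ₀D, hb.zc_mul hg, hb.zc_inertia hσ₀] at key
  have h3 : (d - 1) * (π t * (zc b g ^ 2 - π c₀ * zc b g + π d₀)) = 0 := by
    rw [hdx] at key ⊢
    linear_combination -key
  obtain ⟨u, hu⟩ := hunit
  have h4 : (u : T) * (π t * (zc b g ^ 2 - π c₀ * zc b g + π d₀)) = 0 := by
    rw [hu]; exact h3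
  exact (Units.mul_right_eq_zero u).mp h4

end Fermat.Agent.Strict
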