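import Fermat.Agent.TW.Local1
import Fermat.Prelude.Def_GaloisRep_StrictOrdinary

/-!
# Ordinary and strictly ordinary representations: passing from Frobenius to the decomposition group
-/

set_option autoImplicit false
set_option linter.unusedSectionVars false

namespace Fermat.Agent.Strict

open Fermat.Agent.CC IsLocalRing
open scoped Pointwise

variable {T : Type} [CommRing T] [IsLocalRing T]

/-- the kernel of the representation modulo `𝔪ⁿ` -/
def kerN (ρ : GaloisRepAdic T) (n : ℕ) : Subgroup GQ where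
  carrier := {σ | ∀ v : ρ.V, ρ.ρ σ v - v ∈ (maximalIdeal T ^ n) • (⊤ : Submodule T ρ.V)}
  one_mem' := fun v => by
    rw [map_one, Module.End.one_apply, sub_self]
    exact Submodule.zero_mem _
  mul_mem' := by
    intro σ τ hσ hτ v
    have h1 : ρ.ρ (σ * τ) v - v = (ρ.ρ σ (ρ.ρ τ v) - ρ.ρ τ v) + (ρ.ρ τ v - v) := by
      rw [map_mul, Module.End.mul_apply]; abel
    rw [h1]
    exact Submodule.add_mem _ (hσ _) (hτ _)
  inv_mem' := by
    intro σ hσ v
    have h1 : ρ.ρ σ⁻¹ v - v = -(ρ.ρ σ (ρ.ρ σ⁻¹ v) - ρ.ρ σ⁻¹ v) := by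
      rw [← Module.End.mul_apply, ← map_mul, mul_inv_cancel, map_one, Module.End.one_apply]
      abel
    rw [h1]
    exact Submodule.neg_mem _ (hσ _)

theorem kerN_normal (ρ : GaloisRepAdic T) (n : ℕ) : (kerN ρ n).Normal := by
  constructor
  intro σ hσ g v
  have h1 : ρ.ρ (g * σ * g⁻¹) v - v = ρ.ρ g (ρ.ρ σ (ρ.ρ g⁻¹ v) - ρ.ρ g⁻¹ v) := by
    rw [map_sub, ← Module.End.mul_apply (ρ.ρ g) (ρ.ρ g⁻¹), ← map_mul ρ.ρ g, mul_inv_cancel,
      map_one, Module.End.one_apply, map_mul, map_mul]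
    rfl
  rw [h1]
  have h2 := hσ (ρ.ρ g⁻¹ v)
  have h3 : Submodule.map (ρ.ρ g) ((maximalIdeal T ^ n) • (⊤ : Submodule T ρ.V)) ≤
      (maximalIdeal T ^ n) • (⊤ : Submodule T ρ.V) := by
    rw [Submodule.map_smul'']
    exact Submodule.smul_mono le_rfl le_top
  exact h3 ⟨_, h2, rfl⟩

theorem kerN_isOpen (ρ : GaloisRepAdic T) (n : ℕ) : lev.isOpen (kerN ρ n) := by
  obtain ⟨L, hL, h⟩ := ρ.isAdicContinuous n
  exact ⟨L, hL, fun σ hσ v => h σ (fun x hx =>
    (IntermediateField.mem_fixingSubgroup_iff L σ).mp hσ x hx) v⟩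


variable {ρ : GaloisRepAdic T} (b : Module.Basis (Fin 2) T ρ.V)

theorem mem_line {v : ρ.V} : v ∈ T ∙ b 0 ↔ b.repr v 1 = 0 := by
  constructor
  · intro h
    obtain ⟨c, rfl⟩ := Submodule.mem_span_singleton.1 h
    rw [map_smul, Finsupp.smul_apply, b.repr_self, Finsupp.single_apply]
    simp
  · intro h
    rw [Submodule.mem_span_singleton]
    refine ⟨b.repr v 0, ?_⟩
    have h1 := b.sum_repr v
    rw [Fin.sum_univ_two, h, zero_smul, add_zero] at h1
    exact h1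

theorem repr_mem_of_mem_smul {I : Ideal T} {v : ρ.V} (hv : v ∈ I • (⊤ : Submodule T ρ.V))
    (i : Fin 2) : b.repr v i ∈ I := by
  have h1 : b.coord i v ∈ Submodule.map (b.coord i) (I • (⊤ : Submodule T ρ.V)) := ⟨v, hv, rfl⟩
  rw [Submodule.map_smul''] at h1
  have h2 : b.coord i v ∈ I • (⊤ : Submodule T T) := Submodule.smul_mono le_rfl le_top h1
  rw [smul_eq_mul, Ideal.mul_top] at h2
  exact h2

/-- the character on the quotient -/
noncomputable def zc (σ : GQ) : T := b.repr (ρ.ρ σ (b 1)) 1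

/-- the character on the line -/
noncomputable def xc (σ : GQ) : T := b.repr (ρ.ρ σ (b 0)) 0

variable {P : ValuationSubring Qb}

/-- An ordinary line. -/
structure OrdLine (P : ValuationSubring Qb) : Prop where
  dec : ∀ σ ∈ P.decompositionSubgroup ℚ, ∀ v ∈ T ∙ b 0, ρ.ρ σ v ∈ T ∙ b 0
  ine : ∀ σ ∈ P.inertiaSubgroupIn ℚ, ∀ v : ρ.V, ρ.ρ σ v - v ∈ T ∙ b 0

variable {b}

theorem OrdLine.smul_line (h : OrdLine b P) {σ : GQ} (hσ : σ ∈ P.decompositionSubgroup ℚ)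
    {w : ρ.V} (hw : w ∈ T ∙ b 0) : ρ.ρ σ w = xc b σ • w := by
  have h1 : ρ.ρ σ (b 0) = xc b σ • b 0 := by
    have h2 := h.dec σ hσ (b 0) (Submodule.mem_span_singleton_self _)
    rw [mem_line] at h2
    have h3 := b.sum_repr (ρ.ρ σ (b 0))
    rw [Fin.sum_univ_two, h2, zero_smul, add_zero] at h3
    exact h3.symm
  obtain ⟨c, rfl⟩ := Submodule.mem_span_singleton.1 hw
  rw [map_smul, h1, smul_comm]

theorem OrdLine.repr_one (h : OrdLine b P) {σ : GQ} (hσ : σ ∈ P.decompositionSubgroup ℚ)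
    (v : ρ.V) : b.repr (ρ.ρ σ v) 1 = zc b σ * b.repr v 1 := by
  have h1 : b.repr (ρ.ρ σ (b 0)) 1 = 0 :=
    (mem_line b).mp (h.dec σ hσ (b 0) (Submodule.mem_span_singleton_self _))
  conv_lhs => rw [← b.sum_repr v]
  rw [Fin.sum_univ_two, map_add, map_smul, map_smul, map_add, map_smul, map_smul,
    Finsupp.add_apply, Finsupp.smul_apply, Finsupp.smul_apply, h1, smul_zero, zero_add,
    smul_eq_mul, mul_comm]
  rfl

theorem OrdLine.sub_mem (h : OrdLine b P) {σ : GQ} (hσ : σ ∈ P.decompositionSubgroup ℚ)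
    (v : ρ.V) : ρ.ρ σ v - zc b σ • v ∈ T ∙ b 0 := by
  rw [mem_line, map_sub, Finsupp.sub_apply, h.repr_one hσ, map_smul, Finsupp.smul_apply,
    smul_eq_mul, sub_self]

theorem OrdLine.zc_mul (h : OrdLine b P) {σ τ : GQ} (hσ : σ ∈ P.decompositionSubgroup ℚ) :
    zc b (σ * τ) = zc b σ * zc b τ := by
  rw [zc, map_mul, Module.End.mul_apply, h.repr_one hσ]
  rfl

theorem zc_one : zc b 1 = 1 := by
  rw [zc, map_one ρ.ρ, Module.End.one_apply, b.repr_self, Finsupp.single_eq_same]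

theorem OrdLine.zc_pow (h : OrdLine b P) {σ : GQ} (hσ : σ ∈ P.decompositionSubgroup ℚ) (n : ℕ) :
    zc b (σ ^ n) = zc b σ ^ n := by
  induction n with
  | zero => rw [pow_zero, pow_zero, zc_one]
  | succ n ih => rw [pow_succ', h.zc_mul hσ, ih, pow_succ']

theorem OrdLine.zc_inertia (h : OrdLine b P) {σ : GQ} (hσ : σ ∈ P.inertiaSubgroupIn ℚ) :
    zc b σ = 1 := by
  have h1 := (mem_line b).mp (h.ine σ hσ (b 1))
  rw [map_sub, Finsupp.sub_apply, b.repr_self, Finsupp.single_eq_same, sub_eq_zero] at h1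
  exact h1

theorem OrdLine.det_eq (h : OrdLine b P) {σ : GQ} (hσ : σ ∈ P.decompositionSubgroup ℚ) :
    LinearMap.det (ρ.ρ σ) = xc b σ * zc b σ := by
  have h1 : b.repr (ρ.ρ σ (b 0)) 1 = 0 :=
    (mem_line b).mp (h.dec σ hσ (b 0) (Submodule.mem_span_singleton_self _))
  rw [← LinearMap.det_toMatrix b, Matrix.det_fin_two, LinearMap.toMatrix_apply,
    LinearMap.toMatrix_apply, LinearMap.toMatrix_apply, LinearMap.toMatrix_apply, h1, mul_zero,
    sub_zero]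
  rfl

theorem zc_sub_one_mem {n : ℕ} {σ : GQ} (hσ : σ ∈ kerN ρ n) :
    zc b σ - 1 ∈ maximalIdeal T ^ n := by
  have h1 := repr_mem_of_mem_smul b (hσ (b 1)) 1
  rwa [map_sub, Finsupp.sub_apply, b.repr_self, Finsupp.single_eq_same] at h1

/-- The square of the quotient character is trivial if it is so on a Frobenius element. -/
theorem OrdLine.zc_sq (h : OrdLine b P) {p : ℕ} (hp : p.Prime) (hP : P.LiesOverPrime p)
    (hsep : ∀ x : T, (∀ n, x ∈ maximalIdeal T ^ n) → x = 0)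
    {φ : GQ} (hφ : P.IsFrobeniusAt φ p) (hz : zc b φ ^ 2 = 1) {σ : GQ}
    (hσ : σ ∈ P.decompositionSubgroup ℚ) : zc b σ ^ 2 = 1 := by
  rw [← sub_eq_zero]
  apply hsep
  intro n
  obtain ⟨k, τ, hτ, g, hg, hgD, rfl⟩ := TW.exists_dec hp hP hφ hσ (kerN_normal ρ n)
    (kerN_isOpen ρ n)
  have hφD := hφ.mem_decompositionSubgroup
  have hτD := TW.inertia_le_decomposition P hτ
  rw [h.zc_mul (mul_mem (pow_mem hφD k) hτD), h.zc_mul (pow_mem hφD k), h.zc_pow hφD,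
    h.zc_inertia hτ, mul_one]
  have h1 := zc_sub_one_mem (b := b) hg
  have h2 : (zc b φ ^ k * zc b g) ^ 2 - 1 = (zc b g + 1) * (zc b g - 1) := by
    rw [mul_pow, ← pow_mul, mul_comm k 2, pow_mul, hz, one_pow, one_mul]
    ring
  rw [h2]
  exact Ideal.mul_mem_left _ _ h1

/-- **Criterion for strict ordinarity.** -/
theorem isStrictOrdinaryAt_of {p : ℕ} (hp : p.Prime)
    (hsep : ∀ x : T, (∀ n, x ∈ maximalIdeal T ^ n) → x = 0) (hdet : ρ.DetIsCyclotomic p)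
    (h : ∀ P : ValuationSubring Qb, P.LiesOverPrime p →
      ∃ b : Module.Basis (Fin 2) T ρ.V, OrdLine b P ∧ ∃ φ : GQ, P.IsFrobeniusAt φ p ∧
        zc b φ ^ 2 = 1) : ρ.IsStrictOrdinaryAt p := by
  refine ⟨hdet.1, fun P hP => ?_⟩
  obtain ⟨b, hb, φ, hφ, hz⟩ := h P hP
  refine ⟨T ∙ b 0, ⟨b, rfl⟩, hb.dec, hb.ine, fun σ hσ => ⟨xc b σ, zc b σ,
    fun w hw => hb.smul_line hσ hw, fun v => hb.sub_mem hσ v, fun n a ha => ?_⟩⟩
  have h1 := hdet.2 n σ a ha
  rw [hb.det_eq hσ] at h1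
  have h2 := hb.zc_sq hp hP hsep hφ hz hσ
  have h3 : xc b σ - a * zc b σ = (xc b σ * zc b σ - a) * zc b σ := by
    linear_combination (-xc b σ) * h2
  rw [h3]
  exact Ideal.mul_mem_right _ _ h1

end Fermat.Agent.Strict
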