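import Fermat.Agent.H05.OrdFinal
import Fermat.Agent.H01.Strict

/-!
# Relations for Frobenius on the unramified quotient: the algebraic part
-/

set_option autoImplicit false
set_option linter.style.haveILetI false
set_option linter.unusedSectionVars false
set_option maxSynthPendingDepth 3

noncomputable section

namespace Fermat.Agent.Strict

open Polynomial Module Fermat.Agent.H05

local notation "Qb" => AlgebraicClosure ℚ
local notation "Γℚ" => AlgebraicClosure ℚ ≃ₐ[ℚ] AlgebraicClosure ℚ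

/-- An abstract approximation of a representation by a finite Hecke module with a subgroup `K`
attached to a place over `p`. -/
structure OrdSys (p n : ℕ) {R T : Type} [CommRing R] [CommRing T] [IsLocalRing T]
    (ρ : GaloisRepAdic T) (π : R →+* T) (A : ValuationSubring Qb) : Type 1 where
  W : Type
  [grp : AddCommGroup W]
  [fin : Finite W]
  act : R →+* Module.End ℤ W
  r : Γℚ →* Module.End ℤ W
  m : ℕ
  K : AddSubgroup W
  Ω : Set (Module.End ℤ W)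
  s : Γℚ → R
  c : Γℚ → ℕ
  ζ : Qb
  hζ : IsPrimitiveRoot ζ (p ^ (m + n))
  tors : ∀ w : W, (p ^ m) • w = 0
  faithful : ∀ t : R, act t = 0 → π t ∈ IsLocalRing.maximalIdeal T ^ n
  hs : ∀ g, LinearMap.trace T ρ.V (ρ.ρ g) - π (s g) ∈ IsLocalRing.maximalIdeal T ^ n
  hc : ∀ g, LinearMap.det (ρ.ρ g) - (c g : T) ∈ IsLocalRing.maximalIdeal T ^ n
  hact : ∀ g w, act (s g) w = r g w + c g • r g⁻¹ w
  hcyc : ∀ g : Γℚ, g ζ = ζ ^ c g
  K1 : ∀ σ ∈ A.inertiaSubgroupIn ℚ, ∀ w, r σ w - w ∈ K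
  K2 : ∀ σ ∈ A.decompositionSubgroup ℚ, ∀ w ∈ K, r σ w ∈ K
  comm : ∀ σ t w, r σ (act t w) = act t (r σ w)
  commΩ : ∀ f ∈ Ω, ∀ t w, f (act t w) = act t (f w)
  geo : ∀ X : Submodule ℤ W, (∀ x ∈ X, p • x = 0) → (∀ x ∈ X, x ∈ K) →
    (∀ σ, ∀ x ∈ X, r σ x ∈ X) → (∀ f ∈ Ω, ∀ x ∈ X, f x ∈ X) → (∀ t, ∀ x ∈ X, act t x ∈ X) →
    (∀ σ ∈ A.inertiaSubgroupIn ℚ, ∀ a : ℕ, (∀ ζ : Qb, ζ ^ p = 1 → σ ζ = ζ ^ a) →
      ∀ x ∈ X, r σ (r σ x) - (a + 1) • r σ x + a • x = 0) →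
    ∀ σ ∈ A.inertiaSubgroupIn ℚ, ∀ a : ℕ, (∀ ζ : Qb, ζ ^ p = 1 → σ ζ = ζ ^ a) →
      ∀ x ∈ X, r σ x = a • x

attribute [instance] OrdSys.grp OrdSys.fin

variable {p n : ℕ} {R T : Type} [CommRing R] [CommRing T] [IsLocalRing T]
  {ρ : GaloisRepAdic T} {π : R →+* T} {A : ValuationSubring Qb}

theorem OrdSys.data (M : OrdSys p n ρ π A) (hp : p.Prime) :
    OrdData M.act M.r (A.decompositionSubgroup ℚ) (A.inertiaSubgroupIn ℚ) M.K
      ((p ^ M.m : ℕ) : ℤ) M.s (fun g => (M.c g : ℤ)) where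
  hID := fun σ hσ => by
    obtain ⟨τ, -, rfl⟩ := Subgroup.mem_map.mp hσ
    exact τ.2
  tors := fun w => by rw [natCast_zsmul]; exact M.tors w
  spec := fun g w => by rw [M.hact, natCast_zsmul]
  cmul := fun g h => by
    have h1 : M.ζ ^ M.c (g * h) = M.ζ ^ (M.c g * M.c h) := by
      rw [← M.hcyc, pow_mul, ← M.hcyc g, ← map_pow, ← M.hcyc h]
      rfl
    have h2 := dvd_of_pow_eq (pow_pos hp.pos _).ne' M.hζ h1
    refine dvd_trans ?_ (by exact_mod_cast h2)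
    exact_mod_cast pow_dvd_pow p (Nat.le_add_right _ _)
  K1 := M.K1
  K2 := M.K2

/-- **Operators mapping the module into `K` vanish.** -/
theorem OrdSys.hG (M : OrdSys p n ρ π A) (hp : p.Prime) (hn : n ≠ 0)
    (hpT : (p : T) ∈ IsLocalRing.maximalIdeal T)
    (hspan : Submodule.span T (Set.range ρ.ρ) = ⊤)
    (hPmax : ((IsLocalRing.maximalIdeal T).comap π).IsMaximal)
    (hres : ∀ τ ∈ A.inertiaSubgroupIn ℚ,
      LinearMap.trace T ρ.V (ρ.ρ τ) - (1 + LinearMap.det (ρ.ρ τ)) ∈ IsLocalRing.maximalIdeal T)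
    (σ₀ : Γℚ) (hσ₀ : σ₀ ∈ A.inertiaSubgroupIn ℚ) (hunit : IsUnit (LinearMap.det (ρ.ρ σ₀) - 1))
    (h : R) (hh : ∀ w, M.act h w ∈ M.K) : π h ∈ IsLocalRing.maximalIdeal T ^ n := by
  set 𝔪 := IsLocalRing.maximalIdeal T with h𝔪
  have hle : 𝔪 ^ n ≤ 𝔪 := Ideal.pow_le_self hn
  have hpn : p ^ (M.m + n) ≠ 0 := (pow_pos hp.pos _).ne'
  set P : Ideal R := 𝔪.comap π with hPdef
  have hdata := M.data hp
  have hζ := M.hζ
  -- `p` kills what `P` kills
  have hPp : ∀ x ∈ killed M.act P, p • x = 0 := by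
    intro x hx
    have h1 := hx (p : R) (by
      rw [hPdef, Ideal.mem_comap, map_natCast]; exact hpT)
    rw [map_natCast, Module.End.natCast_apply] at h1
    exact h1
  -- comparison of exponents
  have hcomp : ∀ (σ : Γℚ) (a : ℕ), (∀ ζ : Qb, ζ ^ p = 1 → σ ζ = ζ ^ a) →
      (p : ℤ) ∣ (M.c σ : ℤ) - a := by
    intro σ a ha
    set ξ := M.ζ ^ p ^ (M.m + n - 1) with hξ
    have hsplit : p ^ (M.m + n) = p ^ (M.m + n - 1) * p := by
      rw [← pow_succ]; congr 1; omega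
    have hξp : IsPrimitiveRoot ξ p := hζ.pow (pow_pos hp.pos _) hsplit
    have h1 : ξ ^ M.c σ = ξ ^ a := by
      rw [← ha ξ hξp.pow_eq_one, hξ, map_pow, M.hcyc, ← pow_mul, ← pow_mul, mul_comm]
    exact dvd_of_pow_eq hp.ne_zero hξp h1
  have hcsm : ∀ (σ : Γℚ) (a : ℕ), (∀ ζ : Qb, ζ ^ p = 1 → σ ζ = ζ ^ a) →
      ∀ x ∈ killed M.act P, (M.c σ) • x = a • x := by
    intro σ a ha x hx
    obtain ⟨d, hd⟩ := hcomp σ a ha
    have h1 : ((M.c σ : ℤ)) • x = (a : ℤ) • x := by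
      rw [← sub_eq_zero, ← sub_smul, hd, mul_comm, mul_smul, natCast_zsmul, hPp x hx, smul_zero]
    rwa [natCast_zsmul, natCast_zsmul] at h1
  -- the word operator which is a unit at `P`
  obtain ⟨g₀, h₀, hu₀⟩ := exists_unit_trace ρ.finrank_eq ρ.ρ hspan (ρ.ρ σ₀)
    (LinearMap.det (ρ.ρ σ₀)) hunit (hres σ₀ hσ₀)
  have hword : ∀ g b : Γℚ, LinearMap.trace T ρ.V ((ρ.ρ σ₀ - 1) * ρ.ρ g *
      (ρ.ρ σ₀ - algebraMap T (Module.End T ρ.V) (LinearMap.det (ρ.ρ σ₀))) * ρ.ρ b) -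
      π (wordOp M.s (fun g => (M.c g : ℤ)) σ₀ g b) ∈ 𝔪 ^ n := by
    intro g b
    have e1 : (ρ.ρ σ₀ - 1) * ρ.ρ g *
        (ρ.ρ σ₀ - algebraMap T (Module.End T ρ.V) (LinearMap.det (ρ.ρ σ₀))) * ρ.ρ b =
        ρ.ρ (σ₀ * g * σ₀ * b) - LinearMap.det (ρ.ρ σ₀) • ρ.ρ (σ₀ * g * b) -
          ρ.ρ (g * σ₀ * b) + LinearMap.det (ρ.ρ σ₀) • ρ.ρ (g * b) := by
      simp only [map_mul, Algebra.algebraMap_eq_smul_one, sub_mul, mul_sub, mul_smul_comm,
        smul_mul_assoc, one_mul, mul_one, mul_assoc, smul_sub]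
      abel
    have e3 : π (wordOp M.s (fun g => (M.c g : ℤ)) σ₀ g b) =
        π (M.s (σ₀ * g * σ₀ * b)) - (M.c σ₀ : T) *
        π (M.s (σ₀ * g * b)) - π (M.s (g * σ₀ * b)) + (M.c σ₀ : T) * π (M.s (g * b)) := by
      rw [wordOp, map_add, map_sub, map_sub, map_mul, map_mul, map_intCast, Int.cast_natCast]
    rw [e1, e3, map_add, map_sub, map_sub, map_smul, map_smul, smul_eq_mul, smul_eq_mul]
    set d := LinearMap.det (ρ.ρ σ₀) with hd
    set t1 := LinearMap.trace T ρ.V (ρ.ρ (σ₀ * g * σ₀ * b))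
    set t2 := LinearMap.trace T ρ.V (ρ.ρ (σ₀ * g * b))
    set t3 := LinearMap.trace T ρ.V (ρ.ρ (g * σ₀ * b))
    set t4 := LinearMap.trace T ρ.V (ρ.ρ (g * b))
    have e2 : t1 - d * t2 - t3 + d * t4 - (π (M.s (σ₀ * g * σ₀ * b)) - (M.c σ₀ : T) *
        π (M.s (σ₀ * g * b)) - π (M.s (g * σ₀ * b)) + (M.c σ₀ : T) * π (M.s (g * b))) =
        (t1 - π (M.s (σ₀ * g * σ₀ * b))) - d * (t2 - π (M.s (σ₀ * g * b))) -
        (d - (M.c σ₀ : T)) * π (M.s (σ₀ * g * b)) - (t3 - π (M.s (g * σ₀ * b))) +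
        d * (t4 - π (M.s (g * b))) + (d - (M.c σ₀ : T)) * π (M.s (g * b)) := by ring
    rw [e2]
    refine add_mem (add_mem (sub_mem (sub_mem (sub_mem (M.hs _) ?_) ?_) (M.hs _)) ?_) ?_
    · exact Ideal.mul_mem_left _ _ (M.hs _)
    · exact Ideal.mul_mem_right _ _ (M.hc _)
    · exact Ideal.mul_mem_left _ _ (M.hs _)
    · exact Ideal.mul_mem_right _ _ (M.hc _)
  have hx₀ : wordOp M.s (fun g => (M.c g : ℤ)) σ₀ h₀ g₀ ∉ P := by
    intro h
    rw [hPdef, Ideal.mem_comap] at h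
    have h1 := add_mem (hle (hword h₀ g₀)) h
    rw [sub_add_cancel] at h1
    exact (IsLocalRing.mem_maximalIdeal _).mp h1 hu₀
  -- inertia on what `P` kills
  have hIP : ∀ σ ∈ A.inertiaSubgroupIn ℚ, M.s σ - 1 - ((M.c σ : ℤ) : R) ∈ P := by
    intro σ hσ
    rw [hPdef, Ideal.mem_comap, map_sub, map_sub, map_one, map_intCast, Int.cast_natCast]
    have h1 : π (M.s σ) - 1 - (M.c σ : T) = (LinearMap.trace T ρ.V (ρ.ρ σ) -
        (1 + LinearMap.det (ρ.ρ σ))) - (LinearMap.trace T ρ.V (ρ.ρ σ) - π (M.s σ)) +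
        (LinearMap.det (ρ.ρ σ) - (M.c σ : T)) := by ring
    rw [h1]
    exact add_mem (sub_mem (hres σ hσ) (hle (M.hs σ))) (hle (M.hc σ))
  -- the geometric theorem
  obtain ⟨k, u, hu, hloc⟩ := exists_localizer (act := M.act) P
  let Ω' : Set (Module.End ℤ M.W) := M.Ω ∪ Set.range M.r
  have h0 := act_eq_zero_of_mem (act := M.act) Ω' (by
    rintro f (hf | ⟨σ, rfl⟩)
    · exact M.commΩ f hf
    · exact M.comm σ) P M.K (by
    intro X hXP hXK hXΩ hXt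
    have h1 : ∀ ξ : Qb, ξ ^ p = 1 → σ₀ ξ = ξ ^ M.c σ₀ := by
      intro ξ hξ
      have h2 : ξ ^ p ^ (M.m + n) = 1 := by
        have : p ^ (M.m + n) = p * p ^ (M.m + n - 1) := by
          rw [← pow_succ']; congr 1; omega
        rw [this, pow_mul, hξ, one_pow]
      haveI : NeZero (p ^ (M.m + n)) := ⟨hpn⟩
      obtain ⟨i, -, rfl⟩ := hζ.eq_pow_of_pow_eq_one h2
      rw [map_pow, M.hcyc, ← pow_mul, ← pow_mul, mul_comm]
    have hall := M.geo X (fun x hx => hPp x (hXP x hx)) hXK (fun σ => hXΩ _ (Or.inr ⟨σ, rfl⟩))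
      (fun f hf => hXΩ f (Or.inl hf)) hXt ?_ σ₀ hσ₀ (M.c σ₀) h1
    · have h2 := hdata.irr P σ₀ h₀ g₀ hx₀ ⊥ X.toAddSubgroup bot_le (fun y hy => hXP y hy)
        (fun σ y hy => by
          rw [AddSubgroup.mem_bot] at hy ⊢
          rw [hy, map_zero]) (fun σ => hXΩ _ (Or.inr ⟨σ, rfl⟩)) (fun y hy => by
          rw [AddSubgroup.mem_bot, natCast_zsmul, hall y hy, sub_self])
      rw [eq_bot_iff]
      intro x hx
      exact h2 hx
    · intro σ hσ a ha x hx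
      have h1 := hXP x hx _ (hIP σ hσ)
      rw [map_sub, map_sub, map_one, map_intCast, LinearMap.sub_apply, LinearMap.sub_apply,
        Module.End.one_apply, Module.End.intCast_apply, M.hact, natCast_zsmul] at h1
      have h2 := congrArg (M.r σ) h1
      rw [map_sub, map_sub, map_add, map_nsmul, map_nsmul, map_zero, OrdData.inv_apply] at h2
      have h3 := hcsm σ a ha x (hXP x hx)
      have h4 := hcsm σ a ha (M.r σ x) (hXP _ (hXΩ _ (Or.inr ⟨σ, rfl⟩) x hx))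
      rw [h3, h4] at h2
      rw [add_smul, one_smul, ← h2]
      abel) k h (fun w _ => hh w)
  have h1 : M.act (h * u) = 0 := by
    ext w
    rw [map_mul, Module.End.mul_apply, LinearMap.zero_apply]
    exact h0 _ (hloc w)
  have h2 : π h * π u ∈ 𝔪 ^ n := by
    rw [← map_mul]
    exact M.faithful _ h1
  have h3 : IsUnit (π u) := by
    by_contra h4
    have h5 : π u ∈ 𝔪 := (IsLocalRing.mem_maximalIdeal _).mpr h4
    have h6 : π (u - 1) ∈ 𝔪 := hu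
    rw [map_sub, map_one] at h6
    have h7 := sub_mem h5 h6
    rw [sub_sub_cancel] at h7
    exact (Ideal.ne_top_iff_one _).mp (IsLocalRing.maximalIdeal.isMaximal T).ne_top h7
  obtain ⟨v, hv⟩ := h3
  have h4 : π h = π h * π u * ((v⁻¹ : Tˣ) : T) := by
    rw [← hv, mul_assoc, Units.mul_inv, mul_one]
  rw [h4]
  exact Ideal.mul_mem_right _ _ h2

/-- The operator attached to a quadratic relation of `b`. -/
def relOp (s : Γℚ → R) (c : Γℚ → ℕ) (c₀ d₀ : R) (a b : Γℚ) : R :=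
  s (a * b * b) - c₀ * s (a * b) + d₀ * s a - (c a : R) * (s (b * b) - c₀ * s b + 2 * d₀)

theorem OrdSys.relOp_mem (M : OrdSys p n ρ π A) (hp : p.Prime) {c₀ d₀ : R}
    (hc₀ : ∀ w ∈ M.K, M.act c₀ w ∈ M.K) (hd₀ : ∀ w ∈ M.K, M.act d₀ w ∈ M.K) {a b : Γℚ}
    (ha : a ∈ A.inertiaSubgroupIn ℚ) (hb : b ∈ A.decompositionSubgroup ℚ) (w : M.W)
    (hw : M.r b (M.r b w) - M.act c₀ (M.r b w) + M.act d₀ w ∈ M.K) :
    M.act (relOp M.s M.c c₀ d₀ a b) w ∈ M.K := by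
  have hdata := M.data hp
  have hcs : ∀ (g g' : Γℚ) (w : M.W), M.c (g * g') • w = (M.c g * M.c g') • w := by
    intro g g' w
    have h1 := hdata.csmul g g' w
    rw [← natCast_zsmul, ← natCast_zsmul, h1, Nat.cast_mul]
  have haD : a ∈ A.decompositionSubgroup ℚ := hdata.hID ha
  have hab : ∀ (g : Γℚ) (w : M.W), M.r (g * b) w = M.r g (M.r b w) := fun g w => by
    rw [map_mul, Module.End.mul_apply]
  set F := M.r b (M.r b w) - M.act c₀ (M.r b w) + M.act d₀ w with hF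
  set x := M.r a⁻¹ w - w with hx
  have hxK : x ∈ M.K := M.K1 a⁻¹ (inv_mem ha) w
  have e1 : M.act (M.s (a * b * b)) w = M.r a (M.r b (M.r b w)) +
      (M.c a * (M.c b * M.c b)) • M.r b⁻¹ (M.r b⁻¹ (M.r a⁻¹ w)) := by
    rw [M.hact, hcs, mul_smul, smul_comm, hcs, ← mul_smul]
    simp only [mul_inv_rev, map_mul, Module.End.mul_apply]
    congr 2
    ring
  have e2 : M.act (M.s (a * b)) w = M.r a (M.r b w) +
      (M.c a * M.c b) • M.r b⁻¹ (M.r a⁻¹ w) := by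
    rw [M.hact, hcs]
    simp only [mul_inv_rev, map_mul, Module.End.mul_apply]
  have e3 : M.act (M.s (b * b)) w = M.r b (M.r b w) +
      (M.c b * M.c b) • M.r b⁻¹ (M.r b⁻¹ w) := by
    rw [M.hact, hcs]
    simp only [mul_inv_rev, map_mul, Module.End.mul_apply]
  have key : M.act (relOp M.s M.c c₀ d₀ a b) w = (M.r a F - M.c a • F) +
      M.c a • ((M.c b * M.c b) • M.r b⁻¹ (M.r b⁻¹ x) - M.c b • M.act c₀ (M.r b⁻¹ x) +
        M.act d₀ x) := by
    rw [relOp, map_sub, map_add, map_sub, map_mul, map_mul, map_mul, map_add, map_sub, map_mul,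
      map_mul, map_natCast, map_ofNat]
    simp only [LinearMap.add_apply, LinearMap.sub_apply, Module.End.mul_apply,
      Module.End.natCast_apply, Module.End.ofNat_apply, e1, e2, e3, M.hact a, M.hact b, hF, hx,
      map_sub, map_add, map_nsmul, smul_sub, smul_add, M.comm, smul_smul]
    module
  rw [key]
  refine add_mem (sub_mem (M.K2 a haD _ hw) (M.K.nsmul_mem hw _)) (M.K.nsmul_mem ?_ _)
  have hb' : b⁻¹ ∈ A.decompositionSubgroup ℚ := inv_mem hb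
  exact add_mem (sub_mem (M.K.nsmul_mem (M.K2 _ hb' _ (M.K2 _ hb' _ hxK)) _)
    (M.K.nsmul_mem (hc₀ _ (M.K2 _ hb' _ hxK)) _)) (hd₀ _ hxK)

end Fermat.Agent.Strict
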