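import Mathlib

/-!
# `m`-th roots of holomorphic functions on the upper half plane

A holomorphic function on the upper half plane, not identically zero, all of whose zeros have
order divisible by `m`, has a holomorphic `m`-th root.
-/

set_option autoImplicit false

namespace Fermat.Agent.H01

open Metric Set Filter Topology

/-- Factor out a zero of an analytic function. -/
lemma exists_factor {U : Set ℂ} {f : ℂ → ℂ} (hf : AnalyticOnNhd ℂ f U) {z₀ : ℂ}
    (hz : z₀ ∈ U) (hne : analyticOrderAt f z₀ ≠ ⊤) :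
    ∃ g : ℂ → ℂ, AnalyticOnNhd ℂ g U ∧ g z₀ ≠ 0 ∧
      ∀ z, f z = (z - z₀) ^ analyticOrderNatAt f z₀ * g z := by
  set n := analyticOrderNatAt f z₀ with hn
  obtain ⟨g₀, hg₀, hg₀z, heq⟩ := ((hf z₀ hz).analyticOrderAt_ne_top).1 hne
  set g : ℂ → ℂ := fun z => if z = z₀ then g₀ z₀ else f z / (z - z₀) ^ n with hg
  have hgg₀ : g =ᶠ[𝓝 z₀] g₀ := by
    filter_upwards [heq] with z hz'
    by_cases h : z = z₀
    · simp [hg, h]
    · simp only [hg, h, if_false]
      rw [hz', smul_eq_mul, mul_comm, mul_div_assoc, div_self, mul_one]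
      exact pow_ne_zero _ (sub_ne_zero.2 h)
  refine ⟨g, ?_, ?_, ?_⟩
  · intro z hzU
    by_cases h : z = z₀
    · subst h
      exact hg₀.congr hgg₀.symm
    · have h1 : g =ᶠ[𝓝 z] fun w => f w / (w - z₀) ^ n := by
        filter_upwards [isOpen_ne.mem_nhds h] with w hw
        simp [hg, show w ≠ z₀ from hw]
      refine AnalyticAt.congr ?_ h1.symm
      refine (hf z hzU).div (by fun_prop) (pow_ne_zero _ (sub_ne_zero.2 h))
  · simpa [hg] using hg₀z
  · intro z
    by_cases h : z = z₀
    · subst h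
      have := heq.self_of_nhds
      simpa [hg] using this
    · simp only [hg, h, if_false]
      rw [mul_div_cancel₀ _ (pow_ne_zero _ (sub_ne_zero.2 h))]

/-- A nonvanishing holomorphic function on a disc is an exponential. -/
lemma exists_eq_exp_of_ne_zero {c : ℂ} {r : ℝ} (hr : 0 < r) {f : ℂ → ℂ}
    (hf : DifferentiableOn ℂ f (ball c r)) (hne : ∀ z ∈ ball c r, f z ≠ 0) :
    ∃ F : ℂ → ℂ, DifferentiableOn ℂ F (ball c r) ∧ ∀ z ∈ ball c r, f z = Complex.exp (F z) := by
  have hcmem : c ∈ ball c r := mem_ball_self hr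
  have hderiv : DifferentiableOn ℂ (fun z => deriv f z / f z) (ball c r) :=
    (hf.deriv isOpen_ball).div hf hne
  obtain ⟨F, hFc, hF⟩ := (hderiv.isExactOn_ball).with_val_at c (Complex.log (f c))
  have hFd : DifferentiableOn ℂ F (ball c r) := fun z hz => (hF z hz).differentiableAt.differentiableWithinAt
  refine ⟨F, hFd, ?_⟩
  have hconst : ∀ z ∈ ball c r, f z * Complex.exp (-F z) = f c * Complex.exp (-F c) := by
    intro z hz
    refine (convex_ball c r).is_const_of_fderivWithin_eq_zero (𝕜 := ℂ)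
      (f := fun z => f z * Complex.exp (-F z)) ?_ ?_ hz hcmem
    · exact hf.mul (hFd.neg.cexp)
    · intro w hw
      have h1 : HasDerivAt f (deriv f w) w :=
        (hf.differentiableAt (isOpen_ball.mem_nhds hw)).hasDerivAt
      have h2 : HasDerivAt (fun z => Complex.exp (-F z))
          (Complex.exp (-F w) * (-(deriv f w / f w))) w := (hF w hw).neg.cexp
      have h3 : HasDerivAt (fun z => f z * Complex.exp (-F z))
          (deriv f w * Complex.exp (-F w) +
            f w * (Complex.exp (-F w) * (-(deriv f w / f w)))) w := h1.mul h2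
      have h4 : deriv f w * Complex.exp (-F w) + f w * (Complex.exp (-F w) * (-(deriv f w / f w)))
          = 0 := by
        field_simp [hne w hw]
        ring
      rw [h4] at h3
      have h5 := h3.hasFDerivAt.hasFDerivWithinAt (s := ball c r)
      rw [h5.fderivWithin (isOpen_ball.uniqueDiffWithinAt hw)]
      ext
      simp
  intro z hz
  have h1 := hconst z hz
  rw [hFc, Complex.exp_neg (Complex.log (f c)), Complex.exp_log (hne c hcmem),
    mul_inv_cancel₀ (hne c hcmem), Complex.exp_neg] at h1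
  field_simp at h1
  exact h1

/-- Zeros in a compact set are finite in number. -/
lemma finite_zeros {U K : Set ℂ} {f : ℂ → ℂ} (hK : IsCompact K) (hKU : K ⊆ U)
    (hf : AnalyticOnNhd ℂ f U) (hne : ∀ z ∈ U, analyticOrderAt f z ≠ ⊤) :
    {z | z ∈ K ∧ f z = 0}.Finite := by
  by_contra hinf
  obtain ⟨x, hxK, hx⟩ := Set.Infinite.exists_accPt_of_subset_isCompact (s := {z | z ∈ K ∧ f z = 0})
    hinf hK (fun z hz => hz.1)
  rcases (hf x (hKU hxK)).eventually_eq_zero_or_eventually_ne_zero with h | h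
  · exact hne x (hKU hxK) (analyticOrderAt_eq_top.2 h)
  · rw [accPt_iff_frequently_nhdsNE] at hx
    exact (hx (h.mono fun z hz hz' => hz hz'.2)).elim

/-- Local existence of roots, by induction on the number of zeros. -/
theorem exists_root_ball {m : ℕ} (hm : m ≠ 0) {U : Set ℂ} {c : ℂ} {r : ℝ}
    (hr : 0 < r) (hsub : closedBall c r ⊆ U) (n : ℕ) :
    ∀ f : ℂ → ℂ, AnalyticOnNhd ℂ f U → (∀ z ∈ U, analyticOrderAt f z ≠ ⊤) →
      (∀ z ∈ U, m ∣ analyticOrderNatAt f z) → {z | z ∈ closedBall c r ∧ f z = 0}.ncard = n →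
      ∃ g : ℂ → ℂ, DifferentiableOn ℂ g (ball c r) ∧ ∀ z ∈ ball c r, g z ^ m = f z := by
  induction n with
  | zero =>
    intro f hf hne hord hcard
    have hfin := finite_zeros (isCompact_closedBall c r) hsub hf hne
    rw [Set.ncard_eq_zero hfin] at hcard
    have hnz : ∀ z ∈ ball c r, f z ≠ 0 := by
      intro z hz h0
      have : z ∈ ({z | z ∈ closedBall c r ∧ f z = 0} : Set ℂ) := ⟨ball_subset_closedBall hz, h0⟩
      rw [hcard] at this
      exact this
    have hfd : DifferentiableOn ℂ f (ball c r) :=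
      (hf.mono (ball_subset_closedBall.trans hsub)).differentiableOn
    obtain ⟨F, hF, hFe⟩ := exists_eq_exp_of_ne_zero hr hfd hnz
    refine ⟨fun z => Complex.exp (F z / m), (hF.div_const _).cexp, fun z hz => ?_⟩
    rw [← Complex.exp_nat_mul, hFe z hz]
    congr 1
    field_simp
  | succ n ih =>
    intro f hf hne hord hcard
    have hfin := finite_zeros (isCompact_closedBall c r) hsub hf hne
    obtain ⟨z₀, hz₀⟩ : ({z | z ∈ closedBall c r ∧ f z = 0} : Set ℂ).Nonempty := by
      rw [Set.nonempty_iff_ne_empty]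
      intro h
      rw [h, Set.ncard_empty] at hcard
      omega
    have hz₀U : z₀ ∈ U := hsub hz₀.1
    obtain ⟨f₁, hf₁, hf₁0, hff₁⟩ := exists_factor hf hz₀U (hne z₀ hz₀U)
    set k := analyticOrderNatAt f z₀ with hk
    have hk0 : k ≠ 0 := by
      intro h0
      rw [h0] at hff₁
      have := hff₁ z₀
      rw [pow_zero, one_mul, hz₀.2] at this
      exact hf₁0 this.symm
    have hprod : f = (fun z => (z - z₀) ^ k) * f₁ := funext hff₁
    have hpow : ∀ z, AnalyticAt ℂ (fun w : ℂ => (w - z₀) ^ k) z := fun z => by fun_prop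
    have hordmul : ∀ z ∈ U, analyticOrderAt f z =
        analyticOrderAt (fun w : ℂ => (w - z₀) ^ k) z + analyticOrderAt f₁ z := by
      intro z hz
      rw [hprod]
      exact analyticOrderAt_mul (hpow z) (hf₁ z hz)
    have hne₁ : ∀ z ∈ U, analyticOrderAt f₁ z ≠ ⊤ := by
      intro z hz h
      apply hne z hz
      rw [hordmul z hz, h, add_top]
    have hord₁ : ∀ z ∈ U, m ∣ analyticOrderNatAt f₁ z := by
      intro z hz
      by_cases h : z = z₀
      · subst h
        have : analyticOrderAt f₁ z = 0 := (hf₁ z hz).analyticOrderAt_eq_zero.2 hf₁0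
        simp [analyticOrderNatAt, this]
      · have h1 : analyticOrderAt (fun w : ℂ => (w - z₀) ^ k) z = 0 :=
          (hpow z).analyticOrderAt_eq_zero.2 (pow_ne_zero _ (sub_ne_zero.2 h))
        have h2 := hordmul z hz
        rw [h1, zero_add] at h2
        have := hord z hz
        rwa [analyticOrderNatAt, h2] at this
    have hset : ({z | z ∈ closedBall c r ∧ f₁ z = 0} : Set ℂ) =
        {z | z ∈ closedBall c r ∧ f z = 0} \ {z₀} := by
      ext z
      simp only [mem_ofPred_eq, Set.mem_sdiff, mem_singleton_iff]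
      constructor
      · rintro ⟨h1, h2⟩
        refine ⟨⟨h1, by rw [hff₁ z, h2, mul_zero]⟩, ?_⟩
        rintro rfl
        exact hf₁0 h2
      · rintro ⟨⟨h1, h2⟩, h3⟩
        refine ⟨h1, ?_⟩
        rw [hff₁ z] at h2
        exact (mul_eq_zero.1 h2).resolve_left (pow_ne_zero _ (sub_ne_zero.2 h3))
    have hcard₁ : ({z | z ∈ closedBall c r ∧ f₁ z = 0} : Set ℂ).ncard = n := by
      rw [hset, Set.ncard_sdiff_singleton_of_mem hz₀, hcard]
      omega
    obtain ⟨g₁, hg₁, hg₁e⟩ := ih f₁ hf₁ hne₁ hord₁ hcard₁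
    obtain ⟨j, hj⟩ := hord z₀ hz₀U
    rw [← hk] at hj
    refine ⟨fun z => (z - z₀) ^ j * g₁ z, ?_, fun z hz => ?_⟩
    · exact DifferentiableOn.mul (by fun_prop) hg₁
    · rw [mul_pow, hg₁e z hz, hff₁ z, ← pow_mul, hj, mul_comm m j]

/-- Two holomorphic functions with the same `m`-th power on a connected open set differ by a root
of unity. -/
lemma eq_root_mul_of_pow_eq {m : ℕ} (hm : m ≠ 0) {U : Set ℂ} (hU : IsOpen U)
    (hUc : IsPreconnected U) {f g : ℂ → ℂ} (hf : DifferentiableOn ℂ f U)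
    (hg : DifferentiableOn ℂ g U) (h : ∀ z ∈ U, f z ^ m = g z ^ m) {z₀ : ℂ} (hz₀ : z₀ ∈ U)
    (hgz₀ : g z₀ ≠ 0) : ∀ z ∈ U, f z = (f z₀ / g z₀) * g z := by
  set ζ := f z₀ / g z₀ with hζ
  have hfa : AnalyticOnNhd ℂ f U := hf.analyticOnNhd hU
  have hga : AnalyticOnNhd ℂ g U := hg.analyticOnNhd hU
  have hζa : AnalyticOnNhd ℂ (fun z => ζ * g z) U := fun z hz => analyticAt_const.mul (hga z hz)
  -- near `z₀` the quotient is constant
  have hev : f =ᶠ[𝓝 z₀] fun z => ζ * g z := by
    have hcont : ContinuousAt (fun z => f z / g z) z₀ :=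
      (hfa z₀ hz₀).continuousAt.div (hga z₀ hz₀).continuousAt hgz₀
    -- the finite set of `m`-th roots of unity
    have hfin : ({x : ℂ | x ^ m = 1} \ {ζ}).Finite := by
      refine Set.Finite.sdiff ?_
      have : {x : ℂ | x ^ m = 1} ⊆ ((Polynomial.nthRootsFinset m (1 : ℂ) : Finset ℂ) : Set ℂ) := by
        intro x hx
        exact (Polynomial.mem_nthRootsFinset (Nat.pos_of_ne_zero hm) (1 : ℂ)).2 hx
      exact (Finset.finite_toSet _).subset this
    have hopen : IsOpen ({x : ℂ | x ^ m = 1} \ {ζ})ᶜ := hfin.isClosed.isOpen_compl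
    have hmem : (fun z => f z / g z) z₀ ∈ ({x : ℂ | x ^ m = 1} \ {ζ})ᶜ := by
      simp [hζ]
    have h1 := hcont.eventually (hopen.mem_nhds hmem)
    have h2 : ∀ᶠ z in 𝓝 z₀, g z ≠ 0 := (hga z₀ hz₀).continuousAt.eventually_ne hgz₀
    filter_upwards [h1, h2, hU.mem_nhds hz₀] with z hz1 hz2 hz3
    have hz4 : f z / g z ∈ {x : ℂ | x ^ m = 1} := by
      simp only [mem_ofPred_eq, div_pow, h z hz3]
      exact div_self (pow_ne_zero _ hz2)
    have hz5 : f z / g z = ζ := by
      by_contra hcon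
      exact hz1 ⟨hz4, hcon⟩
    rw [← hz5, div_mul_cancel₀ _ hz2]
  exact hfa.eqOn_of_preconnected_of_eventuallyEq hζa hUc hz₀ hev

/-- Existence of roots on an increasing union of discs. -/
theorem exists_root_of_exhaustion {m : ℕ} (hm : m ≠ 0) {U : Set ℂ} (hU : IsOpen U)
    {c : ℕ → ℂ} {r : ℕ → ℝ} (hr : ∀ n, 0 < r n) (hsub : ∀ n, closedBall (c n) (r n) ⊆ U)
    (hmono : ∀ n, ball (c n) (r n) ⊆ ball (c (n + 1)) (r (n + 1)))
    (hunion : ∀ z ∈ U, ∃ n, z ∈ ball (c n) (r n))
    {f : ℂ → ℂ} (hf : DifferentiableOn ℂ f U) (hne : ∀ z ∈ U, analyticOrderAt f z ≠ ⊤)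
    (hord : ∀ z ∈ U, m ∣ analyticOrderNatAt f z) :
    ∃ g : ℂ → ℂ, DifferentiableOn ℂ g U ∧ ∀ z ∈ U, g z ^ m = f z := by
  have hfa : AnalyticOnNhd ℂ f U := hf.analyticOnNhd hU
  -- base point in the first ball
  obtain ⟨b, hb, hfb⟩ : ∃ b ∈ ball (c 0) (r 0), f b ≠ 0 := by
    by_contra hcon
    push Not at hcon
    apply hne (c 0) (hsub 0 (mem_closedBall_self (hr 0).le))
    rw [analyticOrderAt_eq_top]
    filter_upwards [ball_mem_nhds (c 0) (hr 0)] with z hz using hcon z hz
  obtain ⟨w₀, hw₀⟩ : ∃ w₀ : ℂ, w₀ ^ m = f b := IsAlgClosed.exists_pow_nat_eq _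
    (Nat.pos_of_ne_zero hm)
  have hw₀0 : w₀ ≠ 0 := by
    rintro rfl
    rw [zero_pow hm] at hw₀
    exact hfb hw₀.symm
  have hmono' : ∀ i j, i ≤ j → ball (c i) (r i) ⊆ ball (c j) (r j) := by
    intro i j hij
    induction hij with
    | refl => exact subset_rfl
    | step _ ih => exact ih.trans (hmono _)
  have hbn : ∀ n, b ∈ ball (c n) (r n) := fun n => hmono' 0 n (Nat.zero_le n) hb
  -- normalised roots
  have hex : ∀ n, ∃ g : ℂ → ℂ, DifferentiableOn ℂ g (ball (c n) (r n)) ∧
      (∀ z ∈ ball (c n) (r n), g z ^ m = f z) ∧ g b = w₀ := by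
    intro n
    obtain ⟨g, hg, hge⟩ := exists_root_ball hm (hr n) (hsub n) _ f hfa hne hord rfl
    have hgb : g b ≠ 0 := by
      intro h0
      have := hge b (hbn n)
      rw [h0, zero_pow hm] at this
      exact hfb this.symm
    refine ⟨fun z => (w₀ / g b) * g z, hg.const_mul _, fun z hz => ?_, ?_⟩
    · rw [mul_pow, hge z hz, div_pow, hw₀, hge b (hbn n), div_self hfb, one_mul]
    · exact div_mul_cancel₀ _ hgb
  choose G hG hGe hGb using hex
  -- compatibility
  have hcompat : ∀ i j, i ≤ j → ∀ z ∈ ball (c i) (r i), G j z = G i z := by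
    intro i j hij z hz
    have := eq_root_mul_of_pow_eq hm isOpen_ball (convex_ball (c i) (r i)).isPreconnected
      ((hG j).mono (hmono' i j hij)) (hG i)
      (fun z hz => by rw [hGe i z hz, hGe j z (hmono' i j hij hz)]) (hbn i)
      (by rw [hGb i]; exact hw₀0) z hz
    rw [hGb, hGb, div_self hw₀0, one_mul] at this
    exact this
  have hcompat' : ∀ i j z, z ∈ ball (c i) (r i) → z ∈ ball (c j) (r j) → G j z = G i z := by
    intro i j z hi hj
    rcases le_total i j with h | h
    · exact hcompat i j h z hi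
    · exact (hcompat j i h z hj).symm
  classical
  let g : ℂ → ℂ := fun z => if hz : z ∈ U then G (hunion z hz).choose z else 0
  have hgG : ∀ n, ∀ z ∈ ball (c n) (r n), g z = G n z := by
    intro n z hz
    have hzU : z ∈ U := hsub n (ball_subset_closedBall hz)
    simp only [g, dif_pos hzU]
    exact hcompat' _ _ z hz (hunion z hzU).choose_spec
  refine ⟨g, ?_, ?_⟩
  · intro z hz
    obtain ⟨n, hn⟩ := hunion z hz
    have h1 : DifferentiableAt ℂ (G n) z := (hG n).differentiableAt (isOpen_ball.mem_nhds hn)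
    have h2 : g =ᶠ[𝓝 z] G n := by
      filter_upwards [isOpen_ball.mem_nhds hn] with w hw using hgG n w hw
    exact (h1.congr_of_eventuallyEq h2).differentiableWithinAt
  · intro z hz
    obtain ⟨n, hn⟩ := hunion z hz
    rw [hgG n z hn, hGe n z hn]

/-- Existence of roots on the upper half plane (as a subset of `ℂ`). -/
theorem exists_root_upperHalfPlaneSet {m : ℕ} (hm : m ≠ 0) {f : ℂ → ℂ}
    (hf : DifferentiableOn ℂ f {z : ℂ | 0 < z.im})
    (hne : ∀ z : ℂ, 0 < z.im → analyticOrderAt f z ≠ ⊤)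
    (hord : ∀ z : ℂ, 0 < z.im → m ∣ analyticOrderNatAt f z) :
    ∃ g : ℂ → ℂ, DifferentiableOn ℂ g {z : ℂ | 0 < z.im} ∧ ∀ z : ℂ, 0 < z.im → g z ^ m = f z := by
  set R : ℕ → ℝ := fun n => n + 1 with hR
  set δ : ℕ → ℝ := fun n => 1 / (n + 2) with hδ
  have hδpos : ∀ n, 0 < δ n := fun n => by simp only [hδ]; positivity
  have hδle : ∀ n, δ n ≤ 1 / 2 := fun n => by
    simp only [hδ]
    apply one_div_le_one_div_of_le (by norm_num)
    have : (0 : ℝ) ≤ n := Nat.cast_nonneg n
    linarith
  refine exists_root_of_exhaustion hm (isOpen_lt continuous_const Complex.continuous_im)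
    (c := fun n => (R n : ℂ) * Complex.I) (r := fun n => R n - δ n) ?_ ?_ ?_ ?_ hf hne hord
  · intro n
    have := hδle n
    have : (0 : ℝ) ≤ n := Nat.cast_nonneg n
    simp only [hR]
    linarith
  · intro n z hz
    rw [mem_closedBall, Complex.dist_eq] at hz
    have h1 := (Complex.abs_im_le_norm (z - (R n : ℂ) * Complex.I)).trans hz
    simp only [Complex.sub_im, Complex.mul_im, Complex.ofReal_re, Complex.I_im, mul_one,
      Complex.ofReal_im, Complex.I_re, mul_zero, add_zero] at h1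
    have h2 := (abs_le.1 h1).1
    have := hδpos n
    simp only [mem_ofPred_eq]
    linarith
  · intro n
    apply ball_subset_ball'
    have h1 : dist ((R n : ℂ) * Complex.I) ((R (n + 1) : ℂ) * Complex.I) = 1 := by
      rw [Complex.dist_eq, ← sub_mul, norm_mul, Complex.norm_I, mul_one, ← Complex.ofReal_sub,
        Complex.norm_real]
      simp [hR]
    rw [h1]
    have h2 : δ (n + 1) ≤ δ n := by
      simp only [hδ]
      apply one_div_le_one_div_of_le (by positivity)
      push_cast
      linarith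
    simp only [hR]
    push_cast
    linarith
  · intro z hz
    have hz' : 0 < z.im := hz
    obtain ⟨n, hn⟩ := exists_nat_ge ((z.re ^ 2 + z.im ^ 2 + 2) / (2 * z.im))
    refine ⟨n, ?_⟩
    rw [mem_ball, Complex.dist_eq]
    have hrpos : 0 < R n - δ n := by
      have := hδle n
      have : (0 : ℝ) ≤ n := Nat.cast_nonneg n
      simp only [hR]
      linarith
    rw [← abs_of_pos hrpos, ← sq_lt_sq₀ (norm_nonneg _) (abs_nonneg _), sq_abs,
      ← Complex.normSq_eq_norm_sq, Complex.normSq_apply]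
    simp only [Complex.sub_re, Complex.mul_re, Complex.ofReal_re, Complex.I_re, mul_zero,
      Complex.ofReal_im, Complex.I_im, mul_one, sub_self, sub_zero, Complex.sub_im, Complex.mul_im,
      add_zero]
    rw [div_le_iff₀ (by positivity)] at hn
    have hRδ : R n * δ n ≤ 1 := by
      simp only [hR, hδ]
      rw [mul_one_div, div_le_one (by positivity)]
      linarith
    have hn0 : (0 : ℝ) ≤ n := Nat.cast_nonneg n
    have hRn : R n = n + 1 := rfl
    nlinarith [hδpos n, hz', sq_nonneg (δ n)]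

end Fermat.Agent.H01
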