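import Fermat.Agent.H01.Cusp

/-!
# Characters attached to `m`-th roots of modular functions
-/

set_option autoImplicit false

namespace Fermat.Agent.H01

open UpperHalfPlane Filter Topology ModularForm CongruenceSubgroup
open scoped Manifold MatrixGroups ModularForm

/-- `x` is a quotient `A / B` of modular forms, and `h = H / B` is a holomorphic `m`-th root of `x`
with `h (γ z) = ψ γ * h z`. -/
def HasRootChar (N m : ℕ) (x : LaurentSeries ℂ) (ψ : Gamma0 N →* ℂˣ) : Prop :=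
  ∃ (k : ℤ) (A B : ModularForm (Gamma0 N) k) (H : ℍ → ℂ), A ≠ 0 ∧ B ≠ 0 ∧ x * qL B = qL A ∧
    MDiff H ∧ (∀ z, H z ^ m = A z * B z ^ (m - 1)) ∧
    ∀ γ : Gamma0 N, H ∣[k] (γ : SL(2, ℤ)) = (ψ γ : ℂ) • H

/-- The data behind `HasRootChar`, with functions on `ℍ`. -/
structure RootData (N m : ℕ) (x : LaurentSeries ℂ) (ψ : Gamma0 N →* ℂˣ) (k : ℤ)
    (f g H : ℍ → ℂ) : Prop where
  rep : MFRep N x k f g
  mdiff : MDiff H
  pow_eq : H ^ m = f * g ^ (m - 1)
  slash : ∀ γ : Gamma0 N, H ∣[k] (γ : SL(2, ℤ)) = (ψ γ : ℂ) • H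

/-- Divisibility by `m` of `x` at all places of the field of modular functions. -/
def StrongDvd (N m : ℕ) (x : LaurentSeries ℂ) : Prop :=
  ∀ (O : FnOrd N) (e : ℤ), 0 ≤ e → (∀ y ∈ mfq N, y ≠ 0 → e ∣ O.val y) → e * m ∣ O.val x

lemma EmbMF.strongDvd {N : ℕ} {K F : Type*} [Field K] [Field F] [Algebra K F] (E : EmbMF N K F)
    {m : ℕ} {x : F} (hx : x ≠ 0) (h : ∀ v : AlgebraicCurve.Place K F, (m : ℤ) ∣ v.ord x) :
    StrongDvd N m (E.σ x) := by
  intro O e he hO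
  exact (O.toIntVal E).mul_dvd_of_forall_dvd_ord he
    (fun y hy => hO _ (E.mem y) ((map_ne_zero E.σ).2 hy)) hx h

lemma StrongDvd.dvd {N m : ℕ} {x : LaurentSeries ℂ} (h : StrongDvd N m x) (O : FnOrd N) :
    (m : ℤ) ∣ O.val x := by
  simpa using h O 1 zero_le_one (fun _ _ _ => one_dvd _)

variable {N m : ℕ} {x y : LaurentSeries ℂ} {ψ ψ' : Gamma0 N →* ℂˣ} {k l : ℤ}
  {f g H f' g' H' : ℍ → ℂ}

lemma hasRootChar_iff : HasRootChar N m x ψ ↔ ∃ k f g H, RootData N m x ψ k f g H := by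
  constructor
  · rintro ⟨k, A, B, H, hA, hB, hx, hH, hp, hs⟩
    exact ⟨k, A, B, H, ⟨MFRep.of_coe hA hB hx, hH, funext hp, hs⟩⟩
  · rintro ⟨k, f, g, H, ⟨⟨⟨A, rfl⟩, ⟨B, rfl⟩, hf0, hg0, hx⟩, hH, hp, hs⟩⟩
    refine ⟨k, A, B, H, ?_, ?_, hx, hH, fun z => congrFun hp z, hs⟩
    · rintro rfl
      exact hf0 rfl
    · rintro rfl
      exact hg0 rfl

lemma MFRep.isMF (h : MFRep N x k f g) (hm : m ≠ 0) : IsMF N (m * k) (f * g ^ (m - 1)) := by
  refine (h.hf.mul (h.hg.pow (m - 1))).cast ?_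
  rw [Nat.cast_sub (Nat.one_le_iff_ne_zero.2 hm)]
  push_cast
  ring

lemma MFRep.ne_zero' (h : MFRep N x k f g) : f * g ^ (m - 1) ≠ 0 :=
  mf_mul_ne_zero h.hf (h.hg.pow (m - 1)) h.hf0 (pow_ne_zero_of_mdiff h.hg0 _)

lemma RootData.H_ne_zero (h : RootData N m x ψ k f g H) (hm : m ≠ 0) : H ≠ 0 := by
  rintro rfl
  apply h.rep.ne_zero' (m := m)
  rw [← h.pow_eq, zero_pow hm]

lemma slash_pow (k : ℤ) (f : ℍ → ℂ) (σ : SL(2, ℤ)) (n : ℕ) :
    (f ^ n) ∣[(n * k : ℤ)] σ = (f ∣[k] σ) ^ n := by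
  induction n with
  | zero =>
    rw [pow_zero, pow_zero]
    have : ((0 : ℕ) * k : ℤ) = 0 := by simp
    rw [this]
    exact ModularForm.is_invariant_one σ
  | succ n ih =>
    rw [pow_succ, pow_succ, ← ih]
    have : ((n + 1 : ℕ) * k : ℤ) = n * k + k := by
      push_cast
      ring
    rw [this, ModularForm.mul_slash_SL2]

lemma slash_mdiff (k : ℤ) {f : ℍ → ℂ} (hf : MDiff f) (σ : SL(2, ℤ)) : MDiff (f ∣[k] σ) := by
  have : MDiff (f ∣[k] (σ : GL (Fin 2) ℝ)) := hf.slash k _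
  exact this

/-- Existence of the character. -/
theorem exists_hasRootChar (hm : m ≠ 0) (hx : x ∈ mfq N) (hx0 : x ≠ 0)
    (hdvd : ∀ τ : ℍ, (m : ℤ) ∣ (ordPt N τ).val x) : ∃ ψ, HasRootChar N m x ψ := by
  obtain ⟨k, f, g, h⟩ := MFRep.exists_of_mem hx hx0
  have hP := h.isMF hm
  have hP0 := h.ne_zero' (m := m)
  obtain ⟨H, hH, hHp⟩ := exists_root_mdiff hm hP.mdiff hP0 (by
    intro τ
    have h1 := hdvd τ
    rw [(ordPt N τ).val_eq h] at h1
    rw [ordAt_mul h.hf.mdiff (mdiff_pow h.hg.mdiff _) h.hf0 (pow_ne_zero_of_mdiff h.hg0 _),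
      ordAt_pow h.hg.mdiff h.hg0]
    have h2 : ((ordAt τ f + (m - 1) * ordAt τ g : ℕ) : ℤ) =
        ((ordPt N τ).o k f - (ordPt N τ).o k g) + m * ordAt τ g := by
      rw [Nat.cast_add, Nat.cast_mul, Nat.cast_sub (Nat.one_le_iff_ne_zero.2 hm)]
      change (ordAt τ f : ℤ) + _ = (ordAt τ f - ordAt τ g) + _
      push_cast
      ring
    have h3 : (m : ℤ) ∣ ((ordAt τ f + (m - 1) * ordAt τ g : ℕ) : ℤ) := by
      rw [h2]
      exact dvd_add h1 (dvd_mul_right _ _)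
    exact_mod_cast h3)
  have hHp' : H ^ m = f * g ^ (m - 1) := funext hHp
  have hH0 : H ≠ 0 := by
    rintro rfl
    apply hP0
    rw [← hHp', zero_pow hm]
  have hex : ∀ γ : Gamma0 N, ∃ c : ℂ, c ^ m = 1 ∧ H ∣[k] (γ : SL(2, ℤ)) = c • H := by
    intro γ
    refine eq_mul_of_pow_eq_mdiff hm (slash_mdiff k hH _) hH hH0 ?_
    intro z
    have h1 := slash_pow k H γ m
    rw [hHp', hP.slash_eq γ, ← hHp'] at h1
    exact (congrFun h1 z).symm
  choose c hcm hc using hex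
  have hcinj : ∀ a b : ℂ, a • H = b • H → a = b := by
    intro a b hab
    obtain ⟨z, hz⟩ : ∃ z, H z ≠ 0 := by
      by_contra hcon
      push Not at hcon
      exact hH0 (funext hcon)
    have := congrFun hab z
    exact mul_right_cancel₀ hz this
  let φ : Gamma0 N →* ℂ :=
    { toFun := c
      map_one' := by
        apply hcinj
        rw [← hc 1]
        simp
      map_mul' := by
        intro γ δ
        apply hcinj
        rw [← hc]
        rw [Subgroup.coe_mul, SlashAction.slash_mul, hc γ, ModularForm.SL_smul_slash, hc δ,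
          smul_smul] }
  refine ⟨φ.toHomUnits, hasRootChar_iff.2 ⟨k, f, g, H, h, hH, hHp', fun γ => hc γ⟩⟩

theorem RootData.mul (h : RootData N m x ψ k f g H) (h' : RootData N m y ψ' l f' g' H') :
    RootData N m (x * y) (ψ * ψ') (k + l) (f * f') (g * g') (H * H') where
  rep := h.rep.mul h'.rep
  mdiff := h.mdiff.mul h'.mdiff
  pow_eq := by
    rw [mul_pow, h.pow_eq, h'.pow_eq, mul_pow]
    ring
  slash γ := by
    rw [ModularForm.mul_slash_SL2, h.slash, h'.slash]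
    ext z
    simp only [Pi.mul_apply, Pi.smul_apply, smul_eq_mul, MonoidHom.mul_apply, Units.val_mul]
    ring

/-- Multiplicativity. -/
theorem HasRootChar.mul (h : HasRootChar N m x ψ) (h' : HasRootChar N m y ψ') :
    HasRootChar N m (x * y) (ψ * ψ') := by
  obtain ⟨k, f, g, H, h⟩ := hasRootChar_iff.1 h
  obtain ⟨l, f', g', H', h'⟩ := hasRootChar_iff.1 h'
  exact hasRootChar_iff.2 ⟨_, _, _, _, h.mul h'⟩

/-- Uniqueness. -/
theorem HasRootChar.unique (hm : m ≠ 0) (h : HasRootChar N m x ψ) (h' : HasRootChar N m x ψ') :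
    ψ = ψ' := by
  obtain ⟨k, f, g, H, h⟩ := hasRootChar_iff.1 h
  obtain ⟨l, f', g', H', h'⟩ := hasRootChar_iff.1 h'
  have hcross := h.rep.cross h'.rep
  have hH'0 := h'.H_ne_zero hm
  have hH0 := h.H_ne_zero hm
  have hg := h.rep.hg.mdiff
  have hg' := h'.rep.hg.mdiff
  have h1 : ∀ z, (H * g') z ^ m = (H' * g) z ^ m := by
    intro z
    have e1 := congrFun h.pow_eq z
    have e2 := congrFun h'.pow_eq z
    have e3 := congrFun hcross z
    simp only [Pi.mul_apply, Pi.pow_apply] at e1 e2 e3 ⊢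
    rw [mul_pow, mul_pow, e1, e2]
    obtain ⟨j, rfl⟩ : ∃ j, m = j + 1 := ⟨m - 1, by omega⟩
    rw [Nat.add_sub_cancel, pow_succ, pow_succ]
    calc f z * g z ^ j * (g' z ^ j * g' z) = (f z * g' z) * (g z ^ j * g' z ^ j) := by ring
      _ = (f' z * g z) * (g z ^ j * g' z ^ j) := by rw [e3]
      _ = _ := by ring
  have hne : H' * g ≠ 0 := by
    intro h0
    rcases (UpperHalfPlane.mul_eq_zero_iff h'.mdiff hg).1 h0 with h0 | h0
    · exact hH'0 h0
    · exact h.rep.hg0 h0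
  obtain ⟨c, hcm, hc⟩ := eq_mul_of_pow_eq_mdiff hm (h.mdiff.mul hg') (h'.mdiff.mul hg) hne h1
  have hc0 : c ≠ 0 := by
    rintro rfl
    rw [zero_pow hm] at hcm
    exact zero_ne_one hcm
  ext γ
  have e1 : (H * g') ∣[k + l] (γ : SL(2, ℤ)) = (ψ γ : ℂ) • (H * g') := by
    rw [ModularForm.mul_slash_SL2, h.slash, h'.rep.hg.slash_eq]
    ext z
    simp [mul_assoc]
  have e2 : (H' * g) ∣[k + l] (γ : SL(2, ℤ)) = (ψ' γ : ℂ) • (H' * g) := by
    rw [add_comm k l, ModularForm.mul_slash_SL2, h'.slash, h.rep.hg.slash_eq]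
    ext z
    simp [mul_assoc]
  rw [hc, ModularForm.SL_smul_slash, e2] at e1
  obtain ⟨z, hz⟩ : ∃ z, (H' * g) z ≠ 0 := by
    by_contra hcon
    push Not at hcon
    exact hne (funext hcon)
  have e3 := congrFun e1 z
  simp only [Pi.smul_apply, smul_eq_mul] at e3
  have e4 : (ψ γ : ℂ) = (ψ' γ : ℂ) := by
    apply mul_right_cancel₀ (mul_ne_zero hc0 hz)
    rw [← e3]
    ring
  exact e4

/-- The character has order dividing `m`. -/
theorem HasRootChar.pow_eq_one (hm : m ≠ 0) (h : HasRootChar N m x ψ) (γ : Gamma0 N) :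
    ψ γ ^ m = 1 := by
  obtain ⟨k, f, g, H, h⟩ := hasRootChar_iff.1 h
  have h1 := slash_pow k H γ m
  rw [h.pow_eq, (h.rep.isMF hm).slash_eq γ, h.slash, ← h.pow_eq] at h1
  obtain ⟨z, hz⟩ : ∃ z, H z ≠ 0 := by
    by_contra hcon
    push Not at hcon
    exact h.H_ne_zero hm (funext hcon)
  have h2 := congrFun h1 z
  simp only [Pi.pow_apply, Pi.smul_apply, smul_eq_mul, mul_pow] at h2
  have h3 : ((ψ γ : ℂ)) ^ m = 1 := by
    apply mul_right_cancel₀ (pow_ne_zero m hz)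
    rw [← h2, one_mul]
  ext
  simpa using h3

/-- `m`-th powers have trivial character. -/
theorem hasRootChar_pow (hm : m ≠ 0) (hy : y ∈ mfq N) (hy0 : y ≠ 0) :
    HasRootChar N m (y ^ m) 1 := by
  obtain ⟨k, f, g, h⟩ := MFRep.exists_of_mem hy hy0
  refine hasRootChar_iff.2 ⟨m * k, f ^ m, g ^ m, f * g ^ (m - 1), ⟨⟨h.hf.pow m, h.hg.pow m,
    pow_ne_zero_of_mdiff h.hf0 m, pow_ne_zero_of_mdiff h.hg0 m, ?_⟩, (h.isMF hm).mdiff, ?_, ?_⟩⟩
  · rw [qLf_pow h.hf, qLf_pow h.hg, ← mul_pow, h.eq]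
  · rw [mul_pow, ← pow_mul, ← pow_mul, mul_comm m (m - 1)]
  · intro γ
    rw [(h.isMF hm).slash_eq γ]
    simp

theorem hasRootChar_one (hm : m ≠ 0) : HasRootChar N m 1 1 := by
  simpa using hasRootChar_pow (N := N) hm (one_mem (mfq N)) one_ne_zero

/-- Boundedness of a function from boundedness of a power. -/
lemma isBoundedAtImInfty_of_pow (hm : m ≠ 0) {f : ℍ → ℂ} (h : IsBoundedAtImInfty (f ^ m)) :
    IsBoundedAtImInfty f := by
  rw [UpperHalfPlane.isBoundedAtImInfty_iff] at h ⊢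
  obtain ⟨M, A, hMA⟩ := h
  refine ⟨max 1 M, A, fun z hz => ?_⟩
  have h2 := hMA z hz
  by_contra hcon
  push Not at hcon
  have h3 : 1 < ‖f z‖ := (le_max_left _ _).trans_lt hcon
  have h4 : ‖f z‖ ≤ ‖(f ^ m) z‖ := by
    rw [Pi.pow_apply, norm_pow]
    exact le_self_pow₀ h3.le hm
  have h5 : M < ‖f z‖ := (le_max_right _ _).trans_lt hcon
  linarith

/-- A holomorphic function whose `m`-th power is a modular form, and which is slash invariant, is a
modular form. -/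
lemma isMF_of_pow [NeZero N] (hm : m ≠ 0) {H : ℍ → ℂ} (hH : MDiff H)
    (hp : IsMF N (m * k) (H ^ m)) (hs : ∀ γ : Gamma0 N, H ∣[k] (γ : SL(2, ℤ)) = H) :
    IsMF N k H := by
  refine ⟨{ toFun := H, slash_action_eq' := ?_, holo' := hH, bdd_at_cusps' := ?_ }, rfl⟩
  · rintro _ ⟨γ, hγ, rfl⟩
    exact hs ⟨γ, hγ⟩
  · intro c hc
    rw [Subgroup.IsArithmetic.isCusp_iff_isCusp_SL2Z] at hc
    rw [OnePoint.isBoundedAt_iff_forall_SL2Z hc]
    intro σ _
    apply isBoundedAtImInfty_of_pow hm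
    rw [← slash_pow]
    exact hp.bdd σ

/-- If the character is trivial then `x` is an `m`-th power. -/
theorem HasRootChar.exists_pow_eq [NeZero N] (hm : m ≠ 0) (h : HasRootChar N m x 1) :
    ∃ y ∈ mfq N, y ^ m = x := by
  obtain ⟨k, f, g, H, h⟩ := hasRootChar_iff.1 h
  have hH : IsMF N k H := by
    refine isMF_of_pow hm h.mdiff ?_ ?_
    · rw [h.pow_eq]
      exact h.rep.isMF hm
    · intro γ
      simpa using h.slash γ
  have hg0 : qLf g ≠ 0 := fun h0 => h.rep.hg0 (h.rep.hg.qLf_eq_zero_iff.1 h0)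
  refine ⟨qLf H / qLf g, mem_mfq'.2 ⟨k, H, g, hH, h.rep.hg, h.rep.hg0, ?_⟩, ?_⟩
  · rw [div_mul_cancel₀ _ hg0]
  · rw [div_pow, div_eq_iff (pow_ne_zero m hg0), ← qLf_pow hH, h.pow_eq,
      h.rep.hf.qLf_mul (h.rep.hg.pow _), qLf_pow h.rep.hg, ← h.rep.eq]
    obtain ⟨j, rfl⟩ : ∃ j, m = j + 1 := ⟨m - 1, by omega⟩
    rw [Nat.add_sub_cancel, pow_succ]
    ring

end Fermat.Agent.H01
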