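import Fermat.Agent.H25.SelF

/-!
# The local condition at a "stuck" prime

`q ≠ p`, the residual representation is unramified at `q` and its Frobenius has trace `ε (q + 1)`
and determinant `q` with `q² ≠ 1` in `k`.  The first order deformations whose Frobenius traces
are constant form a subgroup of order at most `|H⁰|`.
-/

set_option autoImplicit false
set_option linter.unusedSectionVars false
set_option linter.style.haveILetI false

namespace Fermat.Agent.H01.Stuck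

open Fermat.Agent.H25 Fermat.Agent.H25.SB Fermat.Agent.H25.PR Fermat.Agent.CC Fermat.Agent.TW
open IsLocalRing Matrix Fermat.Agent.H25.PT
open Fermat.Agent.H04 (DN M2)

section LinAlg

variable {k : Type*} [Field k]

/-- the solutions of `B X = 0 = X B'` with `B, B' ≠ 0` form a space of dimension `≤ 1` -/
theorem exists_coord {B B' : Mt k} (hB : B ≠ 0) (hB' : B' ≠ 0) :
    ∃ i j : Fin 2, ∀ X : Mt k, B * X = 0 → X * B' = 0 → X i j = 0 → X = 0 := by
  obtain ⟨i0, j0, h0⟩ : ∃ i j, B i j ≠ 0 := by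
    by_contra hcon
    push Not at hcon
    exact hB (by ext i j; exact hcon i j)
  obtain ⟨i1, j1, h1⟩ : ∃ i j, B' i j ≠ 0 := by
    by_contra hcon
    push Not at hcon
    exact hB' (by ext i j; exact hcon i j)
  have hsum : ∀ (f : Fin 2 → k) (a : Fin 2), ∑ i, f i = f a + f (a + 1) := by
    intro f a
    fin_cases a
    · simp [Fin.sum_univ_two]
    · simp [Fin.sum_univ_two, add_comm]
  have hcov : ∀ a i : Fin 2, i = a ∨ i = a + 1 := by decide
  refine ⟨j0 + 1, i1 + 1, fun X hX hX' h => ?_⟩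
  have r1 : ∀ j, X (j0 + 1) j = 0 → X j0 j = 0 := by
    intro j hj
    have h2 := congrFun (congrFun hX i0) j
    rw [Matrix.mul_apply, hsum _ j0, hj, mul_zero, add_zero, Matrix.zero_apply] at h2
    exact (mul_eq_zero.1 h2).resolve_left h0
  have r2 : ∀ i, X i (i1 + 1) = 0 → X i i1 = 0 := by
    intro i hi
    have h2 := congrFun (congrFun hX' i) j1
    rw [Matrix.mul_apply, hsum _ i1, hi, zero_mul, add_zero, Matrix.zero_apply] at h2
    exact (mul_eq_zero.1 h2).resolve_right h1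
  have a1 := r2 _ h
  have a2 := r1 _ h
  have a3 := r1 _ a1
  ext i j
  rcases hcov j0 i with rfl | rfl <;> rcases hcov i1 j with rfl | rfl <;> assumption

/-- solving `C a C' - a = X`, `C' = C⁻¹`, when `C` has distinct eigenvalues -/
theorem exists_coboundary_ss {C C' X : Mt k} (hC : C * C' = 1) (hd : C.trace ^ 2 ≠ 4 * C.det)
    (hX : X.trace = 0) (hXC : (X * C).trace = 0) :
    ∃ a : Mt k, a.trace = 0 ∧ X = C * a * C' - a := by
  obtain ⟨δ, hδ⟩ : ∃ δ, δ = C.trace ^ 2 - 4 * C.det := ⟨_, rfl⟩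
  have hδ0 : δ ≠ 0 := by rw [hδ]; exact sub_ne_zero.2 hd
  have e4 : X 1 1 = - X 0 0 := by
    have : X 0 0 + X 1 1 = 0 := by simpa [Matrix.trace, Fin.sum_univ_two] using hX
    linear_combination this
  have e5 : X 0 0 * C 0 0 + X 0 1 * C 1 0 + (X 1 0 * C 0 1 - X 0 0 * C 1 1) = 0 := by
    have : X 0 0 * C 0 0 + X 0 1 * C 1 0 + (X 1 0 * C 0 1 + X 1 1 * C 1 1) = 0 := by
      simpa [Matrix.trace, Fin.sum_univ_two, Matrix.mul_apply] using hXC
    rw [e4] at this
    linear_combination this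
  obtain ⟨Y, hY⟩ : ∃ Y : Mt k, Y = C.adjugate * (C - C.adjugate) * X := ⟨_, rfl⟩
  have hY1 : Y.trace = 0 := by
    rw [hY, Matrix.adjugate_fin_two]
    simp only [Matrix.trace, Matrix.diag, Fin.sum_univ_two, Matrix.mul_apply, Matrix.sub_apply,
      Matrix.of_apply, Matrix.cons_val', Matrix.cons_val_zero, Matrix.cons_val_one,
      Matrix.cons_val_fin_one, e4]
    linear_combination (C 1 1 + C 0 0) * e5
  have hY2 : C * Y - Y * C = δ • (X * C) := by
    rw [hY, hδ, Matrix.adjugate_fin_two]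
    ext i j
    fin_cases i <;> fin_cases j <;>
    simp only [Matrix.trace, Matrix.diag, Fin.sum_univ_two, Matrix.mul_apply, Matrix.sub_apply,
      Matrix.of_apply, Matrix.cons_val', Matrix.cons_val_zero, Matrix.cons_val_one,
      Matrix.cons_val_fin_one, e4, Matrix.det_fin_two, Matrix.smul_apply, smul_eq_mul,
      Fin.zero_eta, Fin.mk_one, Fin.isValue]
    · linear_combination (-((C 0 0 - C 1 1) ^ 2 + 4 * C 0 1 * C 1 0 +
        C 1 1 * (C 0 0 - C 1 1) - 2 * C 0 1 * C 1 0)) * e5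
    · linear_combination (-(C 0 1 * (C 1 1 + C 0 0))) * e5
    · linear_combination (-(C 1 0 * (C 1 1 + C 0 0))) * e5
    · linear_combination (-((C 0 0 - C 1 1) ^ 2 + 4 * C 0 1 * C 1 0 +
        C 0 0 * (C 1 1 - C 0 0) - 2 * C 0 1 * C 1 0)) * e5
  refine ⟨δ⁻¹ • Y, by rw [Matrix.trace_smul, hY1, smul_zero], ?_⟩
  have h3 : C * (δ⁻¹ • Y) - (δ⁻¹ • Y) * C = X * C := by
    rw [mul_smul_comm, smul_mul_assoc, ← smul_sub, hY2, smul_smul, inv_mul_cancel₀ hδ0, one_smul]
  have h4 := congrArg (fun Y => Y * C') h3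
  beta_reduce at h4
  rw [sub_mul, mul_assoc X, mul_assoc (δ⁻¹ • Y) C C', hC, mul_one, mul_one] at h4
  exact h4.symm

/-- matrices with `C m = Q m C`, when `C` has trace `e (Q + 1)` and `Q ≠ ±1` -/
theorem eig_rel {C m : Mt k} {e Q : k} (hQ : Q ^ 2 ≠ 1) (ht : C.trace = e * (Q + 1))
    (hm : m.trace = 0) (h : C * m = Q • (m * C)) :
    (C - (e * Q) • (1 : Mt k)) * m = 0 ∧ m * (C - e • (1 : Mt k)) = 0 := by
  have hQ1 : 1 - Q ≠ 0 := fun h0 => hQ (by linear_combination (-1 - Q) * h0)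
  have hQ2 : Q + 1 ≠ 0 := fun h0 => hQ (by linear_combination (Q - 1) * h0)
  have h1 : (m * C).trace = 0 := by
    have h2 := congrArg Matrix.trace h
    rw [Matrix.trace_smul, smul_eq_mul, Matrix.trace_mul_comm] at h2
    have h3 : (1 - Q) * (m * C).trace = 0 := by linear_combination h2
    exact (mul_eq_zero.1 h3).resolve_left hQ1
  have h2 := anticomm (C := m) (H := C) hm
  rw [h1, zero_smul, add_zero, h, ht] at h2
  have h3 : (Q + 1) • (m * C) = (Q + 1) • (e • m) := by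
    rw [add_smul, one_smul, smul_smul, mul_comm (Q + 1), ← h2, add_comm]
  have h4 : m * C = e • m := by
    have := congrArg (fun Y => (Q + 1)⁻¹ • Y) h3
    simpa only [smul_smul, inv_mul_cancel₀ hQ2, one_smul, ← mul_assoc, one_mul] using this
  constructor
  · rw [sub_mul, h, h4, smul_mul_assoc, one_mul, smul_smul, mul_comm Q, sub_self]
  · rw [mul_sub, h4, mul_smul_comm, mul_one, sub_self]

end LinAlg

section Local

variable {q : ℕ} {A : ValuationSubring Qb} {φ : GQ} {M : Type*} [AddCommGroup M]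
  [DistribMulAction GQ M]

/-- restriction to inertia of a local cocycle, tame case -/
theorem tame_key [Finite M] (hq : q.Prime) (hA : A.LiesOverPrime q)
    (hφ : A.IsFrobeniusAt φ q)
    {p : ℕ} (hp : p.Prime) (hpq : p ≠ q) (hpM : ∀ m : M, p • m = 0)
    (hI : ∀ τ ∈ A.inertiaSubgroupIn ℚ, ∀ m : M, τ • m = m)
    (π : Qb) (hπ : π ^ p = (q : Qb)) (τ : GQ)
    (hτI : τ ∈ A.inertiaSubgroupIn ℚ) (hτ : τ π ≠ π)
    (f : Z1 (lev.sub (A.decompositionSubgroup ℚ)) M) :
    (f.1 ⟨τ, inertia_le_decomposition A hτI⟩ = 0 → ∀ g : A.decompositionSubgroup ℚ,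
        (g : GQ) ∈ A.inertiaSubgroupIn ℚ → f.1 g = 0) ∧
      φ • f.1 ⟨τ, inertia_le_decomposition A hτI⟩ =
        q • f.1 ⟨τ, inertia_le_decomposition A hτI⟩ := by
  have hφD := hφ.mem_decompositionSubgroup
  obtain ⟨U, ⟨U0, hU0, hU0U⟩, hU⟩ := f.2.1
  have hgadd : ∀ x y : A.inertiaSubgroupIn ℚ,
      f.1 ⟨(x * y : A.inertiaSubgroupIn ℚ), inertia_le_decomposition A (x * y).2⟩ =
      f.1 ⟨x, inertia_le_decomposition A x.2⟩ + f.1 ⟨y, inertia_le_decomposition A y.2⟩ := by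
    intro x y
    have h1 := f.2.2 ⟨x, inertia_le_decomposition A x.2⟩ ⟨y, inertia_le_decomposition A y.2⟩
    have h2 : (⟨x, inertia_le_decomposition A x.2⟩ : A.decompositionSubgroup ℚ) •
        f.1 ⟨y, inertia_le_decomposition A y.2⟩ = f.1 ⟨y, inertia_le_decomposition A y.2⟩ :=
      hI x x.2 _
    rw [h2] at h1
    exact h1
  obtain ⟨h1, h2⟩ := tame_values hq hA hp hpq hpM π hπ τ hτI hτ
    (fun x => f.1 ⟨x, inertia_le_decomposition A x.2⟩) hgadd U0 hU0 (fun σ hσ => by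
      have h3 := hU 1 ⟨σ, inertia_le_decomposition A σ.2⟩ (hU0U hσ)
      rw [one_mul] at h3
      rw [h3, Z1.map_one])
  refine ⟨fun h0 g hg => h1 h0 ⟨g, hg⟩, ?_⟩
  have hτ' := inertia_conj_mem hφD hτI
  have h3 := h2 φ hφ τ hτI hτ'
  beta_reduce at h3
  rw [← h3]
  have e : (⟨φ * τ * φ⁻¹, inertia_le_decomposition A hτ'⟩ * ⟨φ, hφD⟩ :
      A.decompositionSubgroup ℚ) = ⟨φ, hφD⟩ * ⟨τ, inertia_le_decomposition A hτI⟩ := by
    apply Subtype.ext
    change φ * τ * φ⁻¹ * φ = φ * τ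
    group
  have h4 := congrArg f.1 e
  rw [f.2.2, f.2.2] at h4
  have h5 : (⟨φ * τ * φ⁻¹, inertia_le_decomposition A hτ'⟩ : A.decompositionSubgroup ℚ) •
      f.1 ⟨φ, hφD⟩ = f.1 ⟨φ, hφD⟩ := hI _ hτ' _
  rw [h5, add_comm (f.1 ⟨φ, hφD⟩)] at h4
  exact (add_right_cancel h4).symm

end Local

section Count

variable {k : Type} [Field k] {rb : GQ →* Mt k} {q : ℕ} {A : ValuationSubring Qb}

/-- `c ↦ tr (c(φ) ρ(φ))` on classes -/
noncomputable def lam (rb : GQ →* Mt k) {D : Subgroup GQ} (φ : D) :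
    H1 (lev.sub D) (Ad0 rb (1 : GQ →* k)) →+ k :=
  QuotientAddGroup.lift (B1 (lev.sub D) (Ad0 rb (1 : GQ →* k)))
    { toFun := fun f => ((f.1 φ).val * rb (φ : GQ)).trace
      map_zero' := by
        change ((0 : Ad0 rb (1 : GQ →* k)).val * rb (φ : GQ)).trace = 0
        rw [Ad0.val_zero, zero_mul, Matrix.trace_zero]
      map_add' := fun f g => by
        change ((f.1 φ + g.1 φ).val * rb (φ : GQ)).trace = _
        rw [Ad0.val_add, add_mul, Matrix.trace_add] } (by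
      rintro f ⟨a, ha⟩
      change ((f.1 φ).val * rb (φ : GQ)).trace = 0
      rw [ha, Ad0.val_sub, Ad0.val_subgroup_smul, MonoidHom.one_apply, one_smul, sub_mul, mul_assoc,
        r_inv_mul, mul_one, Matrix.trace_sub, Matrix.trace_mul_comm, sub_self])

theorem lam_mk (rb : GQ →* Mt k) {D : Subgroup GQ} (φ : D)
    (f : Z1 (lev.sub D) (Ad0 rb (1 : GQ →* k))) :
    lam rb φ (H1.mk _ _ f) = ((f.1 φ).val * rb (φ : GQ)).trace := rfl

/-- **the count at a stuck prime** -/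
theorem card_stuck [Finite k] {p : ℕ} [CharP k p] (hp : p.Prime) (hp2 : p ≠ 2)
    (hr : lev.isOpen rb.ker) (hq : q.Prime) (hpq : p ≠ q) (hA : A.LiesOverPrime q)
    (hI : ∀ τ ∈ A.inertiaSubgroupIn ℚ, rb τ = 1) {φ : GQ} (hφ : A.IsFrobeniusAt φ q)
    (hq2 : (q : k) ^ 2 ≠ 1) {e : k} (he : e ^ 2 = 1) (ht : (rb φ).trace = e * (q + 1))
    (hd : (rb φ).det = q) :
    Finite (lam rb (⟨φ, hφ.mem_decompositionSubgroup⟩ : A.decompositionSubgroup ℚ)).ker ∧
    Nat.card (lam rb (⟨φ, hφ.mem_decompositionSubgroup⟩ : A.decompositionSubgroup ℚ)).ker ≤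
      Nat.card (H0 (A.decompositionSubgroup ℚ) (Ad0 rb (1 : GQ →* k))) := by
  have hfact : Fact p.Prime := ⟨hp⟩
  have hgal := Fermat.Agent.H51.isGalois_Qbar
  have h2 : (2 : k) ≠ 0 := by simpa using cast_ne_zero (k := k) (p := p) Nat.prime_two hp2
  have hq1 : (q : k) - 1 ≠ 0 := fun h0 => hq2 (by linear_combination (q + 1 : k) * h0)
  have hφD := hφ.mem_decompositionSubgroup
  have hpM : ∀ m : Ad0 rb (1 : GQ →* k), p • m = 0 := by
    intro m
    have : (p : k) • m = 0 := by rw [CharP.cast_eq_zero, zero_smul]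
    rwa [Nat.cast_smul_eq_nsmul] at this
  have hIM : ∀ τ ∈ A.inertiaSubgroupIn ℚ, ∀ m : Ad0 rb (1 : GQ →* k), τ • m = m :=
    fun τ hτ m => Ad0.smul_of_trivial (hI τ hτ) rfl m
  have hsm : lev.Smooth (Ad0 rb (1 : GQ →* k)) := smooth_Ad0 hr (fun _ _ => rfl)
  have hdisc : (rb φ).trace ^ 2 ≠ 4 * (rb φ).det := by
    rw [ht, hd]
    intro h0
    have h1 : ((q : k) - 1) ^ 2 = 0 := by linear_combination h0 - (q + 1 : k) ^ 2 * he
    exact hq1 (pow_eq_zero_iff (two_ne_zero)|>.1 h1)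
  -- the two matrices
  have hB : rb φ - (e * (q : k)) • (1 : Mt k) ≠ 0 := by
    intro h0
    rw [sub_eq_zero] at h0
    apply hdisc
    rw [h0]
    simp [Matrix.trace_smul]
    ring
  have hB' : rb φ - e • (1 : Mt k) ≠ 0 := by
    intro h0
    rw [sub_eq_zero] at h0
    apply hdisc
    rw [h0]
    simp [Matrix.trace_smul]
    ring
  obtain ⟨i, j, hij⟩ := exists_coord hB hB'
  obtain ⟨π, τ, hπ, hτI, hτ⟩ := exists_pi_tau hq hA hp
  obtain ⟨ev, hev⟩ : ∃ ev : H1 (lev.sub (A.decompositionSubgroup ℚ)) (Ad0 rb (1 : GQ →* k)) →+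
    Ad0 rb (1 : GQ →* k), ev =
    evH1 (⟨τ, inertia_le_decomposition A hτI⟩ : A.decompositionSubgroup ℚ) (hIM τ hτI) := ⟨_, rfl⟩
  let co : Ad0 rb (1 : GQ →* k) →+ k :=
    { toFun := fun m => m.val i j
      map_zero' := rfl
      map_add' := fun _ _ => rfl }
  have hinj : Function.Injective ((co.comp ev).comp
      (lam rb (⟨φ, hφ.mem_decompositionSubgroup⟩ : A.decompositionSubgroup ℚ)).ker.subtype) := by
    rw [injective_iff_map_eq_zero]
    rintro ⟨x, hx⟩ h0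
    apply Subtype.ext
    change x = 0
    change co (ev x) = 0 at h0
    obtain ⟨f, rfl⟩ := H1.mk_surjective x
    rw [AddMonoidHom.mem_ker, lam_mk] at hx
    rw [hev, evH1_mk] at h0
    obtain ⟨k1, k2⟩ := tame_key hq hA hφ hp hpq hpM hIM π hπ τ hτI hτ f
    obtain ⟨m, hm⟩ : ∃ m, m = f.1 ⟨τ, inertia_le_decomposition A hτI⟩ := ⟨_, rfl⟩
    rw [← hm] at k1 k2 h0
    have h3 : rb φ * m.val = (q : k) • (m.val * rb φ) := by
      have h6 := congrArg (fun x => x.val * rb φ) k2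
      beta_reduce at h6
      have h7 : (q • m).val = (q : k) • m.val := by
        rw [← Ad0.val_smul, Nat.cast_smul_eq_nsmul]
      rw [Ad0.val_gsmul, MonoidHom.one_apply, one_smul, mul_assoc, r_inv_mul, mul_one, h7,
        smul_mul_assoc] at h6
      exact h6
    obtain ⟨e1, e2⟩ := eig_rel hq2 ht m.trace_val h3
    have hm0 : m = 0 := Ad0.ext (hij _ e1 e2 h0)
    have hf0 := k1 hm0
    obtain ⟨a, ha, hXa⟩ := exists_coboundary_ss (r_mul_inv rb φ) hdisc
      (f.1 ⟨φ, hφD⟩).trace_val hx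
    rw [H1.mk_eq_zero]
    refine ⟨Ad0.mk a ha, fun g => ?_⟩
    have h8 := Z1_eq_zero hq hA hφ (f - coboundary1 (smooth_sub hsm) (Ad0.mk a ha))
      (fun g hg => by
        change f.1 g - (g • (Ad0.mk a ha : Ad0 rb (1 : GQ →* k)) - Ad0.mk a ha) = 0
        rw [hf0 g hg]
        have : g • (Ad0.mk a ha : Ad0 rb (1 : GQ →* k)) = Ad0.mk a ha := hIM g hg _
        rw [this, sub_self, sub_self]) (by
        change f.1 ⟨φ, hφD⟩ - ((⟨φ, hφD⟩ : A.decompositionSubgroup ℚ) •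
          (Ad0.mk a ha : Ad0 rb (1 : GQ →* k)) - Ad0.mk a ha) = 0
        rw [sub_eq_zero]
        apply Ad0.ext
        rw [Ad0.val_sub, Ad0.val_subgroup_smul, MonoidHom.one_apply, one_smul]
        exact hXa) g
    exact sub_eq_zero.1 h8
  refine ⟨Finite.of_injective _ hinj, (Nat.card_le_card_of_injective _ hinj).trans ?_⟩
  -- lower bound of the invariants
  have hX0 : ((2 : k) • rb φ - (rb φ).trace • (1 : Mt k)).trace = 0 := by
    rw [Matrix.trace_sub, Matrix.trace_smul, Matrix.trace_smul, Matrix.trace_one]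
    simp only [Fintype.card_fin, Nat.cast_ofNat, smul_eq_mul]
    ring
  obtain ⟨X, hX⟩ : ∃ X : Ad0 rb (1 : GQ →* k), X = Ad0.mk _ hX0 := ⟨_, rfl⟩
  have hXne : X ≠ 0 := by
    intro h0
    rw [h0] at hX
    have h1 : (2 : k) • rb φ - (rb φ).trace • (1 : Mt k) = 0 := (congrArg Ad0.val hX).symm
    rw [sub_eq_zero] at h1
    apply hdisc
    have h3 := congrArg Matrix.det h1
    rw [Matrix.det_smul, Matrix.det_smul, Matrix.det_one, Fintype.card_fin] at h3
    linear_combination -h3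
  have hXH : ∀ c : k, c • X ∈ H0 (A.decompositionSubgroup ℚ) (Ad0 rb (1 : GQ →* k)) := by
    intro c
    rw [mem_H0_iff hq hA hφ hsm]
    refine ⟨fun τ hτ => hIM τ hτ _, ?_⟩
    rw [smul_comm]
    congr 1
    apply Ad0.ext
    rw [Ad0.val_gsmul, MonoidHom.one_apply, one_smul, hX, Ad0.val_mk, mul_sub, sub_mul,
      mul_smul_comm, mul_smul_comm, smul_mul_assoc, smul_mul_assoc, mul_one, r_mul_inv, mul_assoc,
      r_mul_inv, mul_one]
  refine Nat.card_le_card_of_injective (fun c : k => (⟨c • X, hXH c⟩ :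
    H0 (A.decompositionSubgroup ℚ) (Ad0 rb (1 : GQ →* k)))) fun c c' hcc => ?_
  have h9 : c • X = c' • X := congrArg (fun z : H0 (A.decompositionSubgroup ℚ)
    (Ad0 rb (1 : GQ →* k)) => (z : Ad0 rb (1 : GQ →* k))) hcc
  have h10 : (c - c') • X = 0 := by rw [sub_smul, h9, sub_self]
  exact sub_eq_zero.1 ((smul_eq_zero.1 h10).resolve_right hXne)

end Count

section Cond

variable {𝒪 : Type} [CommRing 𝒪] [IsLocalRing 𝒪] {rb : GQ →* Mt (ResidueField 𝒪)}
  {q : ℕ} {A : ValuationSubring Qb}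

/-- **the local condition at a stuck prime**: the Frobenius traces are constant -/
def StuckC (A : ValuationSubring Qb) (q : ℕ) (s : GQ →* M2 (DN 𝒪)) : Prop :=
  ∀ φ : GQ, A.IsFrobeniusAt φ q → sn (s φ).trace = 0

variable [Finite (ResidueField 𝒪)] {p : ℕ} [CharP (ResidueField 𝒪) p]

/-- **(G3)** the local condition at a stuck prime has order at most `|H⁰|` -/
theorem lstuck (hp : p.Prime) (hp2 : p ≠ 2) (hr : lev.isOpen rb.ker) (hq : q.Prime) (hpq : p ≠ q)
    (hA : A.LiesOverPrime q) (hI : ∀ τ ∈ A.inertiaSubgroupIn ℚ, rb τ = 1)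
    (hq2 : (q : ResidueField 𝒪) ^ 2 ≠ 1) {φ : GQ} (hφ : A.IsFrobeniusAt φ q)
    (ht : (rb φ).trace ^ 2 = ((q : ResidueField 𝒪) + 1) ^ 2)
    (hd : (rb φ).det = q) : LCond A rb 0 (StuckC A q) := by
  have hQ2 : (q : ResidueField 𝒪) + 1 ≠ 0 := fun h0 => hq2 (by
    linear_combination ((q : ResidueField 𝒪) - 1) * h0)
  obtain ⟨e, he⟩ : ∃ e, e = (rb φ).trace * ((q : ResidueField 𝒪) + 1)⁻¹ := ⟨_, rfl⟩
  have he2 : e ^ 2 = 1 := by
    rw [he, mul_pow, ht, ← mul_pow, mul_inv_cancel₀ hQ2, one_pow]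
  have ht' : (rb φ).trace = e * (q + 1) := by
    rw [he, mul_assoc, inv_mul_cancel₀ hQ2, mul_one]
  obtain ⟨h1, h2⟩ := card_stuck hp hp2 hr hq hpq hA hI hφ hq2 he2 ht' hd
  refine ⟨_, h1, by rw [pow_zero, one_mul]; exact h2, fun S' s hs hU htr hc => ?_⟩
  rw [AddMonoidHom.mem_ker]
  unfold resD
  rw [H1map_mk, lam_mk]
  change (((cls S' hs hU htr).1 φ).val * rb φ).trace = 0
  rw [cls_val, trace_xi_mul]
  exact hc φ hφ

end Cond

section Fam

open Fermat.Agent.H05 Fermat.Agent.H25.TR Fermat.Agent.H25.TWM Fermat.Agent.H25.GD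
open Fermat.Agent.H19 Fermat.Agent.H25.GE

variable {O : Type} [CommRing O] [IsLocalRing O] [IsNoetherianRing O]
    [IsAdicComplete (maximalIdeal O) O] {D : RD O (ResidueField O)}
    {S : Finset Nat.Primes} {bad : Finset ℕ} {κ : Type} [Finite κ] [Nonempty κ]
    (H : κ → CData D S bad) (hbar : HBar D S)

/-- squares of traces on the trace ring -/
theorem CA_t_sq {φ : GQ} {n : ℕ} (h : ∀ i x, (H i).t x φ ^ 2 = (n : (H i).P x) ^ 2) :
    (CA H hbar).t φ ^ 2 = (n : AR H hbar) ^ 2 := by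
  refine ext_pt H hbar fun i x => ?_
  rw [map_pow, map_pow, pt_t, h, map_natCast]

theorem trace_CA {φ : GQ} {d : AR H hbar → ResidueField O} (hd : IsDer O (CA H hbar).resB d) :
    fs (sHom hd (CA H hbar).rho φ).trace = (D.rbar φ).trace := by
  have h1 := FM_sHom hd (CA H hbar).rho φ
  rw [(CA H hbar).rho_res] at h1
  rw [← h1]
  simp only [FM, Matrix.trace, Fin.sum_univ_two, Matrix.diag, Matrix.map_apply, map_add]

/-- **(G3), global part**: if all Frobenius traces `t` at `A` satisfy `t² = n²`, the derivations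
satisfy the stuck condition. -/
theorem stuckC_sHom {A : ValuationSubring Qb} {q : ℕ} (n : ℕ) (h2 : (2 : ResidueField O) ≠ 0)
    (h : ∀ i x, ∀ φ : GQ, A.IsFrobeniusAt φ q → (H i).t x φ ^ 2 = (n : (H i).P x) ^ 2)
    (hne : ∀ φ : GQ, A.IsFrobeniusAt φ q → (D.rbar φ).trace ≠ 0)
    {d : AR H hbar → ResidueField O} (hd : IsDer O (CA H hbar).resB d) :
    StuckC A q (sHom hd (CA H hbar).rho) := by
  intro φ hφ
  have h1 := CA_t_sq H hbar (fun i x => h i x φ hφ)
  have h3 : (sHom hd (CA H hbar).rho φ).trace ^ 2 = (n : DN O) ^ 2 := by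
    rw [trace_sHom, (CA H hbar).trace_rho, ← map_pow, h1, map_pow, map_natCast]
  have h4 := congrArg sn h3
  rw [pow_two, sn_mul, trace_CA, ← Nat.cast_pow, sn_natCast] at h4
  have h5 : (2 * (D.rbar φ).trace) * sn (sHom hd (CA H hbar).rho φ).trace = 0 := by
    linear_combination h4
  exact (mul_eq_zero.1 h5).resolve_left (mul_ne_zero h2 (hne φ hφ))

end Fam

section RDver

open Fermat.Agent.H05 Fermat.Agent.H25.TR Fermat.Agent.H25.TWM Fermat.Agent.H25.GD
open Fermat.Agent.H19 Fermat.Agent.H25.GE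

variable {O : Type} [CommRing O] [IsLocalRing O] [IsNoetherianRing O]
    [IsAdicComplete (maximalIdeal O) O] {D : RD O (ResidueField O)} [Finite (ResidueField O)]
    {p : ℕ} [hpf : Fact p.Prime] [CharP (ResidueField O) p]

/-- (G3) for the residual representation of a deformation problem -/
theorem lstuck_RD (hp2 : p ≠ 2) (hU : lev.isOpen D.rbar.ker) (hchi : IsCyc p D.chi)
    (hpO : (p : O) ∈ maximalIdeal O) (q : Nat.Primes) (hpq : p ≠ q)
    (hI : ∀ τ ∈ (plv q q.2).inertiaSubgroupIn ℚ, D.rbar τ = 1)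
    (hq2 : ((q : ℕ) : ResidueField O) ^ 2 ≠ 1)
    (ht : ∀ φ : GQ, (plv q q.2).IsFrobeniusAt φ q →
      (D.rbar φ).trace ^ 2 = (((q : ℕ) : ResidueField O) + 1) ^ 2) :
    LCond (plv q q.2) D.rbar 0 (StuckC (plv q q.2) q) := by
  have hgal := Fermat.Agent.H51.isGalois_Qbar
  obtain ⟨φ, hφ⟩ := H05.exists_isFrobeniusAt q.2 (plv_over q q.2)
  refine lstuck hpf.out hp2 hU q.2 hpq (plv_over q q.2) hI hq2 hφ (ht φ hφ) ?_
  rw [D.det_rbar, hchi.frob hpO q.2 (Ne.symm hpq) (plv_over q q.2) hφ, map_natCast]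

end RDver

end Fermat.Agent.H01.Stuck
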