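import Fermat.Agent.H01.SysNew

/-!
# The modules at levels prime to `p`
-/

set_option autoImplicit false
set_option linter.style.haveILetI false
set_option linter.unusedSectionVars false
set_option maxSynthPendingDepth 3

noncomputable section

open AlgebraicCurve ModularCurve CongruenceSubgroup

namespace Fermat.Agent.Strict

open Fermat.Agent.H26 Fermat.Agent.Q Fermat.Agent.Igusa Fermat.Agent.H05
open Polynomial (X C)

local notation "kk" => IsLocalRing.ResidueField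
local notation "Qb" => AlgebraicClosure ℚ
local notation "Γℚ" => AlgebraicClosure ℚ ≃ₐ[ℚ] AlgebraicClosure ℚ

/-- The geometric theorem at levels prime to `p`, in the form used for Hecke modules. -/
def GeoLev (p M : ℕ) [NeZero M] [hp : Fact p.Prime] (A : ValuationSubring Qb) : Prop :=
  ∀ X : AddSubgroup (JZero M), Finite X → (∀ x ∈ X, p • x = 0) → (∀ x ∈ X, x ∈ P.KM A M p p) →
    (∀ σ : Γℚ, ∀ x ∈ X, σ • x ∈ X) →
    (∀ x ∈ X, heckeOperatorBar M ⟨p, hp.out⟩ x ∈ X) →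
    (∀ σ ∈ A.inertiaSubgroupIn ℚ, ∀ a : ℕ, (∀ ζ : Qb, ζ ^ p = 1 → σ ζ = ζ ^ a) →
      ∀ x ∈ X, σ • σ • x - (a + 1) • σ • x + a • x = 0) →
    ∀ σ ∈ A.inertiaSubgroupIn ℚ, ∀ a : ℕ, (∀ ζ : Qb, ζ ^ p = 1 → σ ζ = ζ ^ a) →
      ∀ x ∈ X, σ • x = a • x

variable {M p : ℕ} [NeZero M] [hp : Fact p.Prime]

theorem heckeBar_eq_tM (hpM : Nat.Coprime p M) {m : ℕ} (hm : m ≠ 0) {x : JZero M}
    (hx : m • x = 0) : heckeOperatorBar M ⟨p, hp.out⟩ x = P.tM hpM x := by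
  rw [P.tM_eq_hecke hpM hm hx]
  rfl

theorem geoLev (hp2 : p ≠ 2) (hpM : Nat.Coprime p M)
    {A : ValuationSubring Qb} (hA : A.LiesOverPrime p) : GeoLev p M A := by
  intro X hX hpX hK hG hT hI σ hσ a ha x hx
  have h3 : 3 ≤ p := by
    have h2 := hp.out.two_le
    omega
  obtain ⟨ζ, hζ⟩ := exists_primitive hp.out 1
  rw [pow_one] at hζ
  refine P.geoM_all hpM h3 hA hζ X hpX hK (fun σ _ => hG σ) (fun x hx => ?_)
    (fun τ hτ b hb y hy => ?_) σ hσ a (ha ζ hζ.pow_eq_one) x hx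
  · rw [← heckeBar_eq_tM hpM hp.out.ne_zero (hpX x hx)]
    exact hT x hx
  · refine hI τ hτ b (fun ξ hξ => ?_) y hy
    haveI : NeZero p := ⟨hp.out.ne_zero⟩
    obtain ⟨i, -, rfl⟩ := hζ.eq_pow_of_pow_eq_one hξ
    rw [map_pow, hb, ← pow_mul, ← pow_mul, mul_comm]

theorem mem_KM_pow_iff (hpM : Nat.Coprime p M) {A : ValuationSubring Qb}
    (hA : A.LiesOverPrime p) {m : ℕ} (hm : m ≠ 0) {x : JZero M} (hx : p • x = 0) :
    x ∈ P.KM A M p (p ^ m) ↔ x ∈ P.KM A M p p := by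
  have hpm : p ^ m = p * p ^ (m - 1) := by rw [← pow_succ']; congr 1; omega
  rw [hpm]
  exact P.mem_KM_mul_iff hpM hA hp.out.ne_zero (pow_ne_zero _ hp.out.ne_zero) hx

section Aux

variable [Algebra (AlgebraicClosure ℚ) ℂ]

/-- the geometric theorem on the modules -/
theorem module_geo {S : Set ℕ} (hpM : Nat.Coprime p M)
    {A : ValuationSubring Qb} (hA : A.LiesOverPrime p) (hgeo : GeoLev p M A) (m : ℕ)
    (hm : m ≠ 0) [NeZero (p ^ m)] (X : Submodule ℤ (awayPart M S (torAct M (p ^ m))))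
    (hX1 : ∀ x ∈ X, p • x = 0)
    (hXK : ∀ x ∈ X, awayInc M (p ^ m) S x ∈ P.KM A M p (p ^ m))
    (hXG : ∀ σ, ∀ x ∈ X, awayGal M (p ^ m) S σ x ∈ X)
    (hXT : ∀ x ∈ X, ∃ y ∈ X, heckeOperatorBar M ⟨p, hp.out⟩ (awayInc M (p ^ m) S x) =
      awayInc M (p ^ m) S y)
    (hXI : ∀ σ ∈ A.inertiaSubgroupIn ℚ, ∀ a : ℕ, (∀ ζ : Qb, ζ ^ p = 1 → σ ζ = ζ ^ a) →
      ∀ x ∈ X, awayGal M (p ^ m) S σ (awayGal M (p ^ m) S σ x) -
        (a + 1) • awayGal M (p ^ m) S σ x + a • x = 0) :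
    ∀ σ ∈ A.inertiaSubgroupIn ℚ, ∀ a : ℕ, (∀ ζ : Qb, ζ ^ p = 1 → σ ζ = ζ ^ a) →
      ∀ x ∈ X, awayGal M (p ^ m) S σ x = a • x := by
  intro σ hσ a ha x hx
  haveI := finite_tor M (p ^ m)
  let ι := awayInc M (p ^ m) S
  let X' : AddSubgroup (JZero M) := X.toAddSubgroup.map ι
  have h1 : ∀ y ∈ X, p • ι y = 0 := fun y hy => by rw [← map_nsmul, hX1 y hy, map_zero]
  have key := hgeo X' ?_ ?_ ?_ ?_ ?_ ?_ σ hσ a ha (ι x) ⟨x, hx, rfl⟩
  · apply awayInc_injective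
    rw [awayInc_gal, key, map_nsmul]
  · have : Finite X.toAddSubgroup := inferInstanceAs (Finite X)
    exact (Set.Finite.image ι (Set.toFinite (X.toAddSubgroup : Set _))).to_subtype
  · rintro _ ⟨y, hy, rfl⟩
    exact h1 y hy
  · rintro _ ⟨y, hy, rfl⟩
    exact (mem_KM_pow_iff hpM hA hm (h1 y hy)).mp (hXK y hy)
  · rintro τ _ ⟨y, hy, rfl⟩
    exact ⟨_, hXG τ y hy, awayInc_gal M (p ^ m) S τ y⟩
  · rintro _ ⟨y, hy, rfl⟩
    obtain ⟨y', hy', he⟩ := hXT y hy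
    exact ⟨y', hy', he.symm⟩
  · rintro τ hτ b hb _ ⟨y, hy, rfl⟩
    exact awayInc_rel M (p ^ m) S τ b y (hXI τ hτ b hb y hy)

theorem awayInc_T {S : Set ℕ} {m : ℕ} [NeZero m] {ℓ : ℕ} (hℓ : ℓ.Prime) (hℓN : ¬ ℓ ∣ M)
    (hℓS : ℓ ∉ S) (w : awayPart M S (torAct M m)) :
    awayInc M m S (awayPartAct M S (torAct M m) (CuspForm.heckeAlgebra.T hℓ hℓN hℓS) w) =
      heckeOperatorBar M ⟨ℓ, hℓ⟩ (awayInc M m S w) := by
  have h2 := coe_awayPartAct M S (torAct M m)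
    ⟨heckeGen ⟨ℓ, hℓ⟩, heckeGen_mem_awayPoly hℓS⟩ w
  rw [awayEval_heckeGen hℓ hℓN hℓS, torAct_heckeGen] at h2
  exact congrArg (fun z : Tor M m => (z : JZero M)) h2

theorem faithful_away {N : ℕ} [NeZero N] (S : Set ℕ) (n : ℕ) :
    ∃ m : ℕ, n ≤ m ∧ ∀ (_ : NeZero (p ^ m)) (t : CuspForm.heckeAlgebra N 2 S),
      awayPartAct N S (torAct N (p ^ m)) t = 0 →
        ∃ s : CuspForm.heckeAlgebra N 2 S, t = (p ^ n : ℕ) • s := by
  obtain ⟨m, hnm, hm⟩ := H22.exists_transport (N := N) S hp.out n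
  refine ⟨m, hnm, fun hpm' t ht => ?_⟩
  have hpm : p ^ m ≠ 0 := pow_ne_zero _ hp.out.ne_zero
  let ζ : ℂˣ := (Complex.isPrimitiveRoot_exp (p ^ m) hpm).isUnit hpm |>.unit
  have hζ : IsPrimitiveRoot ζ (p ^ m) := by
    have := Complex.isPrimitiveRoot_exp (p ^ m) hpm
    exact IsPrimitiveRoot.coe_units_iff.mp this
  refine hm (torAct N (p ^ m)) (zetaHom ζ) (fun k hk => ?_) (kappa N (p ^ m))
      kappa_injective (fun ℓ w => ?_) (fun ψ hψ => exists_kappa_eq (surjC N hpm) hζ hψ) t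
      (formsPartActAway_eq_zero _ _ _ ht)
  · exact (hζ.zpow_eq_one_iff_dvd k).mp (Additive.ofMul.injective hk)
  · rw [torAct_heckeGen, kappa_heckeTor]

/-- the subgroup `K` of the modules at levels prime to `p` -/
def KW (A : ValuationSubring Qb) (M p m : ℕ) [NeZero M] [Fact p.Prime] [NeZero m] (S : Set ℕ) :
    AddSubgroup (awayPart M S (torAct M m)) := (P.KM A M p m).comap (awayInc M m S)

theorem mem_KW {A : ValuationSubring Qb} {m : ℕ} [NeZero m] {S : Set ℕ}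
    {w : awayPart M S (torAct M m)} : w ∈ KW A M p m S ↔ awayInc M m S w ∈ P.KM A M p m :=
  AddSubgroup.mem_comap

theorem KW_inertia {A : ValuationSubring Qb} {m : ℕ} [hm : NeZero m] {S : Set ℕ}
    (hpM : Nat.Coprime p M) (hA : A.LiesOverPrime p) (σ : Γℚ) (hσ : σ ∈ A.inertiaSubgroupIn ℚ)
    (w : awayPart M S (torAct M m)) : awayGal M m S σ w - w ∈ KW A M p m S := by
  rw [mem_KW, map_sub, awayInc_gal]
  exact P.inertia_mem_KM hpM hA hm.out hσ (awayInc_nsmul _ _ _ w)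

theorem KW_galois {A : ValuationSubring Qb} {m : ℕ} [hm : NeZero m] {S : Set ℕ}
    (hpM : Nat.Coprime p M) (σ : Γℚ) (hσ : σ ∈ A.decompositionSubgroup ℚ)
    (w : awayPart M S (torAct M m)) (hw : w ∈ KW A M p m S) :
    awayGal M m S σ w ∈ KW A M p m S := by
  rw [mem_KW] at hw ⊢
  rw [awayInc_gal]
  exact P.galois_mem_KM hpM hm.out hσ (awayInc_nsmul _ _ _ w) hw

theorem KW_T {A : ValuationSubring Qb} {m : ℕ} [hm : NeZero m] {S : Set ℕ}
    (hpM : Nat.Coprime p M) (hA : A.LiesOverPrime p) (hpM' : ¬ p ∣ M) (hpS' : p ∉ S)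
    {φ : Γℚ} (hφ : A.IsFrobeniusAt φ p) (w : awayPart M S (torAct M m))
    (hw : w ∈ KW A M p m S) :
    awayPartAct M S (torAct M m) (CuspForm.heckeAlgebra.T hp.out hpM' hpS') w ∈
      KW A M p m S := by
  rw [mem_KW] at hw ⊢
  rw [awayInc_T, heckeBar_eq_tM hpM hm.out (awayInc_nsmul _ _ _ w)]
  exact P.tM_mem_KM hpM hA hm.out φ hφ (awayInc_nsmul _ _ _ w) hw

theorem act_natCast {R W : Type*} [CommRing R] [AddCommGroup W] (act : R →+* Module.End ℤ W)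
    (e : ℕ) (w : W) : act (e : R) w = e • w := by
  rw [map_natCast, Module.End.natCast_apply]

theorem KW_rel {A : ValuationSubring Qb} {m : ℕ} [hm : NeZero m] {S : Set ℕ}
    (hpM : Nat.Coprime p M) (hA : A.LiesOverPrime p) (hpM' : ¬ p ∣ M) (hpS' : p ∉ S)
    {φ : Γℚ} (hφ : A.IsFrobeniusAt φ p) (w : awayPart M S (torAct M m)) :
    awayGal M m S φ (awayGal M m S φ w) -
      awayPartAct M S (torAct M m) (CuspForm.heckeAlgebra.T hp.out hpM' hpS')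
        (awayGal M m S φ w) + p • w ∈ KW A M p m S := by
  have h1 := P.frobenius_mem_KM hpM hA hm.out φ hφ (awayInc_nsmul M m S w)
  have e1 : awayInc M m S (awayGal M m S φ (awayGal M m S φ w)) = φ • φ • awayInc M m S w :=
    (awayInc_gal M m S φ (awayGal M m S φ w)).trans
      (congrArg (fun z => φ • z) (awayInc_gal M m S φ w))
  have e2 : awayInc M m S (awayPartAct M S (torAct M m)
      (CuspForm.heckeAlgebra.T hp.out hpM' hpS') (awayGal M m S φ w)) =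
      φ • P.tM hpM (awayInc M m S w) := by
    refine (awayInc_T hp.out hpM' hpS' (awayGal M m S φ w)).trans ?_
    rw [awayInc_gal, heckeBar_eq_tM hpM hm.out (nsmul_galois φ (awayInc_nsmul M m S w)),
      P.tM_galois hpM hm.out φ (awayInc_nsmul M m S w)]
  rw [mem_KW, map_add, map_sub, map_nsmul, e1, e2]
  exact h1

/-- the modules for ordinarity at levels prime to `p`. -/
theorem exists_ordModule_lev_aux {S : Set ℕ} (hpM : Nat.Coprime p M)
    {A : ValuationSubring Qb} (hA : A.LiesOverPrime p) (hgeo : GeoLev p M A)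
    (hES : ESAt p M) (n : ℕ) (hn : n ≠ 0) : Nonempty (OrdModule p M S A n) := by
  obtain ⟨m, hnm, hfaith⟩ := faithful_away (p := p) (N := M) S n
  have hm0 : m ≠ 0 := by omega
  have hpm : p ^ m ≠ 0 := pow_ne_zero _ hp.out.ne_zero
  haveI inst : NeZero (p ^ m) := ⟨hpm⟩
  haveI hfin := finite_tor M (p ^ m)
  refine ⟨{ W := awayPart M S (torAct M (p ^ m))
            grp := inferInstance
            fin := inferInstance
            act := awayPartAct M S (torAct M (p ^ m))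
            r := awayGal M (p ^ m) S
            m := m
            K := KW A M p (p ^ m) S
            Ω := {awayRes M S (torAct M (p ^ m)) (heckeTor M (p ^ m) ⟨p, hp.out⟩)
              (fun t _ w => heckeTor_act M (p ^ m) ⟨p, hp.out⟩ t w)}
            tors := ?_
            finlev := ?_
            faithful := ?_
            es := ?_
            K1 := ?_
            K2 := ?_
            comm := ?_
            commΩ := ?_
            geo := ?_ }⟩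
  · intro w
    exact Subtype.ext (Subtype.ext (tor_nsmul (w : Tor M (p ^ m))))
  · exact finiteLevel_restrictMon _ _ _ (torGal_finiteLevel M (p ^ m))
  · exact hfaith inst
  · intro ℓ hℓ hℓN hℓS hℓp B hB φ hφ w
    exact es_away hES m hℓ hℓN hℓS hℓp B hB φ hφ w
  · exact KW_inertia hpM hA
  · exact KW_galois hpM
  · intro σ t w
    exact awayGal_act M (p ^ m) S σ t w
  · intro f hf t w
    rw [Set.mem_singleton_iff] at hf
    subst hf
    exact awayRes_act _ _ _ _ _ t w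
  · intro X hX1 hXK hXG hXΩ _ hXI
    refine module_geo hpM hA hgeo m hm0 X hX1 (fun x hx => mem_KW.mp (hXK x hx)) hXG
      (fun x hx => ?_) hXI
    exact ⟨_, hXΩ _ rfl x hx, rfl⟩

/-- the systems with the operator `T_p` at levels prime to `p`. -/
theorem exists_sys_lev_aux {S : Finset ℕ} (hpM : Nat.Coprime p M) (hpS : p ∉ S)
    {T : Type} [CommRing T] [IsLocalRing T] (hpT : (p : T) ∈ IsLocalRing.maximalIdeal T)
    (ρ : GaloisRepAdic T) (π : CuspForm.heckeAlgebra M 2 (↑S : Set ℕ) →+* T)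
    (hNS : ∀ q : ℕ, q.Prime → q ∣ M → q ∈ S)
    (hfrob : ∀ (ℓ : ℕ) (hℓ : ℓ.Prime) (hℓN : ¬ ℓ ∣ M) (hℓS : ℓ ∉ (↑S : Set ℕ)), ℓ ≠ p →
      ∀ A : ValuationSubring (AlgebraicClosure ℚ), A.LiesOverPrime ℓ →
        ∀ σ : Γℚ, A.IsFrobeniusAt σ ℓ → LinearMap.charpoly (ρ.ρ σ) =
          X ^ 2 - C (π (CuspForm.heckeAlgebra.T hℓ hℓN hℓS)) * X + C ((ℓ : T)))
    (hpM' : ¬ p ∣ M) (hpS' : p ∉ (↑S : Set ℕ))
    {A : ValuationSubring Qb} (hA : A.LiesOverPrime p) (hgeo : GeoLev p M A)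
    (hES : ESAt p M) {φ : Γℚ} (hφ : A.IsFrobeniusAt φ p) (n : ℕ) (hn : n ≠ 0) :
    ∃ Mod : OrdSys p n ρ π A,
      (∀ w ∈ Mod.K, Mod.act (CuspForm.heckeAlgebra.T hp.out hpM' hpS') w ∈ Mod.K) ∧
      (∀ w ∈ Mod.K, Mod.act (p : CuspForm.heckeAlgebra M 2 (↑S : Set ℕ)) w ∈ Mod.K) ∧
      ∀ w, Mod.r φ (Mod.r φ w) -
        Mod.act (CuspForm.heckeAlgebra.T hp.out hpM' hpS') (Mod.r φ w) +
          Mod.act (p : CuspForm.heckeAlgebra M 2 (↑S : Set ℕ)) w ∈ Mod.K := by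
  classical
  obtain ⟨m, hnm, hfaith⟩ := faithful_away (p := p) (N := M) (↑S : Set ℕ) n
  have hm0 : m ≠ 0 := by omega
  have hpm : p ^ m ≠ 0 := pow_ne_zero _ hp.out.ne_zero
  haveI inst : NeZero (p ^ m) := ⟨hpm⟩
  haveI hfin := finite_tor M (p ^ m)
  have hsub : (↑S : Set ℕ) ⊆ (↑(insert p S) : Set ℕ) := by
    intro q hq
    rw [Finset.coe_insert]
    exact Set.mem_insert_of_mem _ hq
  have hNS' : ∀ q : ℕ, q.Prime → q ∣ M → q ∈ insert p S := fun q hq h =>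
    Finset.mem_insert_of_mem (hNS q hq h)
  let ι : CuspForm.heckeAlgebra M 2 (↑(insert p S) : Set ℕ) →+*
      CuspForm.heckeAlgebra M 2 (↑S : Set ℕ) :=
    (Subalgebra.inclusion (CuspForm.heckeAlgebra_mono hsub)).toRingHom
  have hι : ∀ (ℓ : ℕ) (hℓ : ℓ.Prime) (hℓN : ¬ ℓ ∣ M) (hℓS : ℓ ∉ (↑(insert p S) : Set ℕ)),
      ι (CuspForm.heckeAlgebra.T hℓ hℓN hℓS) =
        CuspForm.heckeAlgebra.T hℓ hℓN (fun h => hℓS (hsub h)) := fun ℓ hℓ hℓN hℓS => rfl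
  have hne : ∀ ℓ : ℕ, ℓ ∉ (↑(insert p S) : Set ℕ) → ℓ ≠ p := by
    rintro ℓ hℓ rfl
    exact hℓ (by rw [Finset.coe_insert]; exact Set.mem_insert _ _)
  refine ⟨mkSys hp.out (Finset.mem_insert_self p S) hNS' ρ ι π
    (fun ℓ hℓ hℓN hℓS B hB σ hσ => by
      rw [hι]
      exact hfrob ℓ hℓ hℓN _ (hne ℓ hℓS) B hB σ hσ)
    (awayPartAct M (↑S : Set ℕ) (torAct M (p ^ m))) (awayGal M (p ^ m) (↑S : Set ℕ)) m
    (KW A M p (p ^ m) (↑S : Set ℕ)) ∅ ?_ ?_ ?_ ?_ ?_ ?_ ?_ ?_ ?_,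
    ?_, ?_, ?_⟩
  · intro w
    exact Subtype.ext (Subtype.ext (tor_nsmul (w : Tor M (p ^ m))))
  · exact finiteLevel_restrictMon _ _ _ (torGal_finiteLevel M (p ^ m))
  · intro t ht
    obtain ⟨s, rfl⟩ := hfaith inst t ht
    rw [nsmul_eq_mul, map_mul, Nat.cast_pow, map_pow, map_natCast]
    exact Ideal.mul_mem_right _ _ (Ideal.pow_mem_pow hpT n)
  · intro ℓ hℓ hℓN hℓS hℓp B hB φ hφ w
    rw [hι]
    exact es_away hES m hℓ hℓN _ hℓp B hB φ hφ w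
  · exact KW_inertia hpM hA
  · exact KW_galois hpM
  · intro σ t w
    exact awayGal_act M (p ^ m) S σ t w
  · intro f hf
    exact absurd hf (Set.notMem_empty f)
  · intro X hX1 hXK hXG _ hXt hXI
    refine module_geo hpM hA hgeo m hm0 X hX1 (fun x hx => mem_KW.mp (hXK x hx)) hXG
      (fun x hx => ?_) hXI
    exact ⟨_, hXt (CuspForm.heckeAlgebra.T hp.out hpM' hpS') x hx,
      (awayInc_T hp.out hpM' hpS' x).symm⟩
  · exact KW_T hpM hA hpM' hpS' hφ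
  · intro w hw
    change awayPartAct M (↑S : Set ℕ) (torAct M (p ^ m)) (p : CuspForm.heckeAlgebra M 2
      (↑S : Set ℕ)) w ∈ KW A M p (p ^ m) (↑S : Set ℕ)
    have e1 := act_natCast (awayPartAct M (↑S : Set ℕ) (torAct M (p ^ m))) p w
    rw [e1]
    exact nsmul_mem hw p
  · intro w
    have e1 := act_natCast (awayPartAct M (↑S : Set ℕ) (torAct M (p ^ m))) p w
    have h1 := KW_rel hpM hA hpM' hpS' hφ w
    rw [← e1] at h1
    exact h1

end Aux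

/-- The modules for ordinarity at levels prime to `p`. -/
theorem exists_ordModule_lev {S : Set ℕ} (hp2 : p ≠ 2) (hpM : Nat.Coprime p M)
    {A : ValuationSubring Qb} (hA : A.LiesOverPrime p) (n : ℕ) (hn : n ≠ 0) :
    Nonempty (OrdModule p M S A n) := by
  letI : Algebra (AlgebraicClosure ℚ) ℂ :=
    (IsAlgClosed.lift : AlgebraicClosure ℚ →ₐ[ℚ] ℂ).toRingHom.toAlgebra
  exact exists_ordModule_lev_aux hpM hA (geoLev hp2 hpM hA) (esAt_of_geom esHyp hp.out M) n hn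

theorem exists_sys_lev {S : Finset ℕ} (hp2 : p ≠ 2) (hpM : Nat.Coprime p M)
    {T : Type} [CommRing T] [IsLocalRing T] (hpT : (p : T) ∈ IsLocalRing.maximalIdeal T)
    (ρ : GaloisRepAdic T) (π : CuspForm.heckeAlgebra M 2 (↑S : Set ℕ) →+* T)
    (hNS : ∀ q : ℕ, q.Prime → q ∣ M → q ∈ S)
    (hfrob : ∀ (ℓ : ℕ) (hℓ : ℓ.Prime) (hℓN : ¬ ℓ ∣ M) (hℓS : ℓ ∉ (↑S : Set ℕ)), ℓ ≠ p →
      ∀ A : ValuationSubring (AlgebraicClosure ℚ), A.LiesOverPrime ℓ →
        ∀ σ : Γℚ, A.IsFrobeniusAt σ ℓ → LinearMap.charpoly (ρ.ρ σ) =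
          X ^ 2 - C (π (CuspForm.heckeAlgebra.T hℓ hℓN hℓS)) * X + C ((ℓ : T)))
    (hpM' : ¬ p ∣ M) (hpS' : p ∉ (↑S : Set ℕ))
    {A : ValuationSubring Qb} (hA : A.LiesOverPrime p)
    {φ : Γℚ} (hφ : A.IsFrobeniusAt φ p) (n : ℕ) (hn : n ≠ 0) :
    ∃ Mod : OrdSys p n ρ π A,
      (∀ w ∈ Mod.K, Mod.act (CuspForm.heckeAlgebra.T hp.out hpM' hpS') w ∈ Mod.K) ∧
      (∀ w ∈ Mod.K, Mod.act (p : CuspForm.heckeAlgebra M 2 (↑S : Set ℕ)) w ∈ Mod.K) ∧
      ∀ w, Mod.r φ (Mod.r φ w) -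
        Mod.act (CuspForm.heckeAlgebra.T hp.out hpM' hpS') (Mod.r φ w) +
          Mod.act (p : CuspForm.heckeAlgebra M 2 (↑S : Set ℕ)) w ∈ Mod.K := by
  letI : Algebra (AlgebraicClosure ℚ) ℂ :=
    (IsAlgClosed.lift : AlgebraicClosure ℚ →ₐ[ℚ] ℂ).toRingHom.toAlgebra
  exact exists_sys_lev_aux hpM (fun h => hpS' (by exact_mod_cast h)) hpT ρ π hNS hfrob hpM' hpS'
    hA (geoLev hp2 hpM hA) (esAt_of_geom esHyp hp.out M) hφ n hn

end Fermat.Agent.Strict
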