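import Fermat.Agent.H05.AwayMod
import Fermat.Agent.H01.DetCyc
import Fermat.Agent.H01.P.GeoLevM

/-!
# The modules attached to `J₀(N)` and relations for Frobenius at `p`
-/

set_option autoImplicit false
set_option linter.style.haveILetI false
set_option linter.unusedSectionVars false
set_option maxSynthPendingDepth 3

noncomputable section

open AlgebraicCurve ModularCurve CongruenceSubgroup

namespace Fermat.Agent.Strict

open Fermat.Agent.H26 Fermat.Agent.Q Fermat.Agent.Igusa Fermat.Agent.H05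
open Polynomial (X C)

local notation "kk" => IsLocalRing.ResidueField
local notation "Qb" => AlgebraicClosure ℚ
local notation "Γℚ" => AlgebraicClosure ℚ ≃ₐ[ℚ] AlgebraicClosure ℚ

/-- Construction of an approximating system. -/
def mkSys {p N : ℕ} [NeZero N] (hp : p.Prime)
    {S : Finset ℕ} (hpS : p ∈ S) (hNS : ∀ q : ℕ, q.Prime → q ∣ N → q ∈ S)
    {R T : Type} [CommRing R] [CommRing T] [IsLocalRing T] (ρ : GaloisRepAdic T)
    (ι : CuspForm.heckeAlgebra N 2 (↑S : Set ℕ) →+* R) (π : R →+* T)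
    (hfrob : ∀ (ℓ : ℕ) (hℓ : ℓ.Prime) (hℓN : ¬ ℓ ∣ N) (hℓS : ℓ ∉ (↑S : Set ℕ)),
      ∀ A : ValuationSubring (AlgebraicClosure ℚ), A.LiesOverPrime ℓ →
        ∀ σ : Γℚ, A.IsFrobeniusAt σ ℓ → LinearMap.charpoly (ρ.ρ σ) =
          X ^ 2 - C (π (ι (CuspForm.heckeAlgebra.T hℓ hℓN hℓS))) * X + C ((ℓ : T)))
    {A : ValuationSubring Qb} {n : ℕ} {W : Type} [AddCommGroup W] [Finite W]
    (act : R →+* Module.End ℤ W) (r : Γℚ →* Module.End ℤ W) (m : ℕ)
    (K : AddSubgroup W) (Ω : Set (Module.End ℤ W))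
    (tors : ∀ w : W, (p ^ m) • w = 0)
    (finlev : GaloisFactorsThroughFiniteLevel r)
    (faithful : ∀ t : R, act t = 0 → π t ∈ IsLocalRing.maximalIdeal T ^ n)
    (es : ∀ (ℓ : ℕ) (hℓ : ℓ.Prime) (hℓN : ¬ ℓ ∣ N) (hℓS : ℓ ∉ (↑S : Set ℕ)), ℓ ≠ p →
      ∀ A : ValuationSubring (AlgebraicClosure ℚ), A.LiesOverPrime ℓ →
      ∀ φ : Γℚ, A.IsFrobeniusAt φ ℓ → ∀ w : W,
        r φ (r φ w) - act (ι (CuspForm.heckeAlgebra.T hℓ hℓN hℓS)) (r φ w) + ℓ • w = 0)
    (K1 : ∀ σ ∈ A.inertiaSubgroupIn ℚ, ∀ w, r σ w - w ∈ K)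
    (K2 : ∀ σ ∈ A.decompositionSubgroup ℚ, ∀ w ∈ K, r σ w ∈ K)
    (comm : ∀ σ t w, r σ (act t w) = act t (r σ w))
    (commΩ : ∀ f ∈ Ω, ∀ t w, f (act t w) = act t (f w))
    (geo : ∀ X : Submodule ℤ W, (∀ x ∈ X, p • x = 0) → (∀ x ∈ X, x ∈ K) →
      (∀ σ, ∀ x ∈ X, r σ x ∈ X) → (∀ f ∈ Ω, ∀ x ∈ X, f x ∈ X) → (∀ t, ∀ x ∈ X, act t x ∈ X) →
      (∀ σ ∈ A.inertiaSubgroupIn ℚ, ∀ a : ℕ, (∀ ζ : Qb, ζ ^ p = 1 → σ ζ = ζ ^ a) →
        ∀ x ∈ X, r σ (r σ x) - (a + 1) • r σ x + a • x = 0) →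
      ∀ σ ∈ A.inertiaSubgroupIn ℚ, ∀ a : ℕ, (∀ ζ : Qb, ζ ^ p = 1 → σ ζ = ζ ^ a) →
        ∀ x ∈ X, r σ x = a • x) :
    OrdSys p n ρ π A :=
  have hex := fun g : Γℚ => exists_hecke_trace_det H25.weakChebotarev hp hpS hNS ρ (π.comp ι)
    hfrob (act.comp ι) r finlev es n (m + n) (exists_primitive hp (m + n)).choose
    (exists_primitive hp (m + n)).choose_spec.pow_eq_one g
  { W := W
    act := act
    r := r
    m := m
    K := K
    Ω := Ω
    s := fun g => ι (hex g).choose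
    c := fun g => (hex g).choose_spec.choose
    ζ := (exists_primitive hp (m + n)).choose
    hζ := (exists_primitive hp (m + n)).choose_spec
    tors := tors
    faithful := faithful
    hs := fun g => (hex g).choose_spec.choose_spec.1
    hc := fun g => (hex g).choose_spec.choose_spec.2.1
    hact := fun g => (hex g).choose_spec.choose_spec.2.2.1
    hcyc := fun g => (hex g).choose_spec.choose_spec.2.2.2
    K1 := K1
    K2 := K2
    comm := comm
    commΩ := commΩ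
    geo := geo }

end Fermat.Agent.Strict
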