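import Fermat.Agent.H01.SysMk

/-!
# The `p`-new part: the square of Frobenius on the unramified quotient
-/

set_option autoImplicit false
set_option linter.style.haveILetI false
set_option linter.unusedSectionVars false
set_option maxSynthPendingDepth 3

noncomputable section

open AlgebraicCurve ModularCurve CongruenceSubgroup

namespace Fermat.Agent.Strict

open Fermat.Agent.H26 Fermat.Agent.Q Fermat.Agent.Igusa Fermat.Agent.H05
open Polynomial (X C)

local notation "kk" => IsLocalRing.ResidueField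
local notation "Qb" => AlgebraicClosure ℚ
local notation "Γℚ" => AlgebraicClosure ℚ ≃ₐ[ℚ] AlgebraicClosure ℚ

variable {M p : ℕ} [NeZero M] [hp : Fact p.Prime]

theorem act_natCast_mul {R W : Type*} [CommRing R] [AddCommGroup W] (act : R →+* Module.End ℤ W)
    (e : ℕ) (t : R) (w : W) : act (e * t) w = e • act t w := by
  rw [map_mul, map_natCast, Module.End.mul_apply, Module.End.natCast_apply]

section Aux

variable [Algebra (AlgebraicClosure ℚ) ℂ]

theorem coe_bound {S : Set ℕ} {m : ℕ} [NeZero m] (t₀ : awayPoly S) (e : ℕ)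
    (w : awayPart (M * p) S (torAct (M * p) m)) :
    ((awayPartAct (M * p) S (torAct (M * p) m)
      ((e : CuspForm.heckeAlgebra (M * p) 2 S) * awayEval (M * p) S t₀) w :
      awayPart (M * p) S (torAct (M * p) m)) : Tor (M * p) m) =
      e • torAct (M * p) m (t₀ : HeckeAlg) (w : Tor (M * p) m) := by
  have h1 := act_natCast_mul (awayPartAct (M * p) S (torAct (M * p) m)) e (awayEval (M * p) S t₀) w
  have h2 := congrArg (fun x : awayPart (M * p) S (torAct (M * p) m) => (x : Tor (M * p) m)) h1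
  refine h2.trans ?_
  have h3 := coe_awayPartAct (M * p) S (torAct (M * p) m) t₀ w
  refine Eq.trans ?_ (congrArg (fun x : Tor (M * p) m => e • x) h3)
  exact Submodule.coe_smul_of_tower _ _

/-- The operator `e t₀` maps into the `p`-new part. -/
theorem new_of_bound {S : Set ℕ} (hpM : Nat.Coprime p M) (hpS : p ∈ S) {m : ℕ} [NeZero m]
    (t₀ : awayPoly S) {e : ℕ}
    (hbound : ∀ x : Tor M m, e • torAct M m (t₀ : HeckeAlg) x = 0)
    (x : Tor (M * p) m) :
    aStar M p ((e • torAct (M * p) m (t₀ : HeckeAlg) x : Tor (M * p) m) : JZero (M * p)) = 0 ∧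
    aStar M p (wS M p hpM •
      ((e • torAct (M * p) m (t₀ : HeckeAlg) x : Tor (M * p) m) : JZero (M * p))) = 0 := by
  have h3 : degTor M p m (e • torAct (M * p) m (t₀ : HeckeAlg) x) = 0 := by
    rw [map_nsmul, degTor_torAct hp.out hpS t₀.2]
    exact hbound _
  have h4 : degTor M p m (wTor M p m hpM (e • torAct (M * p) m (t₀ : HeckeAlg) x)) = 0 := by
    rw [map_nsmul, map_nsmul, wTor_torAct hp.out hpM hpS t₀.2, degTor_torAct hp.out hpS t₀.2]
    exact hbound _
  rw [aStar_eq_degPush, aStar_eq_degPush]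
  exact ⟨congrArg (fun z : Tor M m => (z : JZero M)) h3,
    congrArg (fun z : Tor M m => (z : JZero M)) h4⟩

theorem awayInc_apply (N : ℕ) [NeZero N] {S : Set ℕ} {m : ℕ} [NeZero m]
    (w : awayPart N S (torAct N m)) : awayInc N m S w = ((w : Tor N m) : JZero N) := rfl

theorem awayInc_rel2 (N : ℕ) [NeZero N] {S : Set ℕ} {m : ℕ} [NeZero m] {φ : Γℚ}
    (w : awayPart N S (torAct N m)) :
    awayInc N m S (awayGal N m S φ (awayGal N m S φ w) - w) =
      φ • φ • awayInc N m S w - awayInc N m S w := by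
  refine (map_sub (awayInc N m S) _ _).trans ?_
  refine congrArg (fun z => z - awayInc N m S w) ?_
  exact (awayInc_gal N m S φ (awayGal N m S φ w)).trans
    (congrArg (fun z => φ • z) (awayInc_gal N m S φ w))

theorem new_rel_aux {S : Set ℕ} (hpM : Nat.Coprime p M) {m : ℕ} [NeZero m]
    {A : ValuationSubring Qb} (hA : A.LiesOverPrime p)
    {φ : Γℚ} (hφ : A.IsFrobeniusAt φ p)
    (w : awayPart (M * p) S (torAct (M * p) m))
    (h1 : aStar M p (awayInc (M * p) m S w) = 0)
    (h2 : aStar M p (wS M p hpM • awayInc (M * p) m S w) = 0) :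
    awayInc (M * p) m S (awayGal (M * p) m S φ (awayGal (M * p) m S φ w) - w) ∈
      KInf A M p m := by
  have h3 := P.frobenius_sq_mem_TSub hpM hA (NeZero.ne m) φ hφ
    (awayInc_nsmul _ _ _ w) h1 h2
  rw [mem_TSub] at h3
  obtain ⟨h3, -⟩ := h3
  rw [awayInc_rel2]
  exact h3

theorem new_rel {S : Set ℕ} (hpM : Nat.Coprime p M) (hpS : p ∈ S) {m : ℕ} [NeZero m]
    {A : ValuationSubring Qb} (hA : A.LiesOverPrime p)
    (t₀ : awayPoly S) {e : ℕ}
    (hbound : ∀ x : Tor M m, e • torAct M m (t₀ : HeckeAlg) x = 0)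
    {φ : Γℚ} (hφ : A.IsFrobeniusAt φ p)
    (w w' : awayPart (M * p) S (torAct (M * p) m))
    (hw' : (w' : Tor (M * p) m) = e • torAct (M * p) m (t₀ : HeckeAlg) (w : Tor (M * p) m)) :
    awayInc (M * p) m S (awayGal (M * p) m S φ (awayGal (M * p) m S φ w') - w') ∈
      KInf A M p m := by
  have h := new_of_bound hpM hpS t₀ hbound (w : Tor (M * p) m)
  have e1 : awayInc (M * p) m S w' =
      ((e • torAct (M * p) m (t₀ : HeckeAlg) (w : Tor (M * p) m) : Tor (M * p) m) :
        JZero (M * p)) := congrArg (fun z : Tor (M * p) m => (z : JZero (M * p))) hw'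
  refine new_rel_aux hpM hA hφ w' ?_ ?_
  · rw [e1]
    exact h.1
  · rw [e1]
    exact h.2

theorem exists_ordModule_new_aux {S : Set ℕ} (hpM : Nat.Coprime p M) (hpS : p ∈ S)
    (hNS : ∀ q : ℕ, q.Prime → q ∣ M * p → q ∈ S)
    {A : ValuationSubring Qb} (hA : A.LiesOverPrime p) (hgeo : GeoOrd p M hpM A)
    (hES : ESAt p (M * p)) {e : ℕ}
    (hbound : ∀ (m : ℕ) [NeZero m] (x : Tor M m) (s : HeckeAlg)
      (_ : CuspForm.heckeEvalForms M 2 s = 0), e • torAct M m s x = 0) (n : ℕ) (hn : n ≠ 0) :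
    ∃ Mod : OrdModule p (M * p) S A n, ∀ t₀ : awayPoly S,
      CuspForm.heckeEvalForms M 2 (t₀ : HeckeAlg) = 0 → ∀ φ : Γℚ, A.IsFrobeniusAt φ p → ∀ w,
        Mod.r φ (Mod.r φ (Mod.act (e * awayEval (M * p) S t₀) w)) -
          Mod.act (e * awayEval (M * p) S t₀) w ∈ Mod.K := by
  obtain ⟨m, hnm, hm⟩ := H22.exists_transport (N := M * p) S hp.out n
  have hm0 : m ≠ 0 := by omega
  have hpm : p ^ m ≠ 0 := pow_ne_zero _ hp.out.ne_zero
  have : NeZero (p ^ m) := ⟨hpm⟩
  let ζ : ℂˣ := (Complex.isPrimitiveRoot_exp (p ^ m) hpm).isUnit hpm |>.unit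
  have hζ : IsPrimitiveRoot ζ (p ^ m) := by
    have := Complex.isPrimitiveRoot_exp (p ^ m) hpm
    exact IsPrimitiveRoot.coe_units_iff.mp this
  have hfaith : ∀ x : CuspForm.heckeAlgebra (M * p) 2 S,
      H22.formsPartActAway (M * p) (torAct (M * p) (p ^ m)) S x = 0 →
        ∃ s : CuspForm.heckeAlgebra (M * p) 2 S, x = (p ^ n : ℕ) • s := by
    refine hm (torAct (M * p) (p ^ m)) (zetaHom ζ) (fun k hk => ?_) (kappa (M * p) (p ^ m))
      kappa_injective (fun ℓ w => ?_) (fun ψ hψ => exists_kappa_eq (surjC (M * p) hpm) hζ hψ)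
    · exact (hζ.zpow_eq_one_iff_dvd k).mp (Additive.ofMul.injective hk)
    · rw [torAct_heckeGen, kappa_heckeTor]
  haveI hfin := finite_tor (M * p) (p ^ m)
  refine ⟨{ W := awayPart (M * p) S (torAct (M * p) (p ^ m))
            grp := inferInstance
            fin := inferInstance
            act := awayPartAct (M * p) S (torAct (M * p) (p ^ m))
            r := awayGal (M * p) (p ^ m) S
            m := m
            K := (KInf A M p (p ^ m)).comap (awayInc (M * p) (p ^ m) S)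
            Ω := {awayRes (M * p) S (torAct (M * p) (p ^ m))
                    (wTor M p (p ^ m) hpM).toIntLinearMap (wTor_comm hpM (p ^ m) hpS),
                  awayRes (M * p) S (torAct (M * p) (p ^ m))
                    (pTor M p (p ^ m)) (pTor_comm (p ^ m) hNS)}
            tors := ?_
            finlev := ?_
            faithful := ?_
            es := ?_
            K1 := ?_
            K2 := ?_
            comm := ?_
            commΩ := ?_
            geo := ?_ }, ?_⟩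
  · intro w
    exact Subtype.ext (Subtype.ext (tor_nsmul (w : Tor (M * p) (p ^ m))))
  · exact finiteLevel_restrictMon _ _ _ (torGal_finiteLevel (M * p) (p ^ m))
  · intro t ht
    exact hfaith t (formsPartActAway_eq_zero _ _ _ ht)
  · intro ℓ hℓ hℓN hℓS hℓp B hB φ hφ w
    exact es_away hES m hℓ hℓN hℓS hℓp B hB φ hφ w
  · intro σ hσ w
    change awayInc (M * p) (p ^ m) S (awayGal (M * p) (p ^ m) S σ w - w) ∈ KInf A M p (p ^ m)
    rw [map_sub, awayInc_gal]
    exact inertia_mem_KInf hA hpM σ hσ (awayInc_nsmul _ _ _ w)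
  · intro σ hσ w hw
    change awayInc (M * p) (p ^ m) S (awayGal (M * p) (p ^ m) S σ w) ∈ KInf A M p (p ^ m)
    rw [awayInc_gal]
    exact decomposition_mem_KInf σ hσ hw
  · intro σ t w
    exact awayGal_act (M * p) (p ^ m) S σ t w
  · rintro f hf t w
    rcases hf with rfl | hf
    · exact awayRes_act _ _ _ _ _ t w
    · rw [Set.mem_singleton_iff] at hf
      subst hf
      exact awayRes_act _ _ _ _ _ t w
  · intro X hX1 hXK hXG hXΩ _ hXI
    exact ordModule_geo hpM hpS hNS hA hgeo m hm0 X hX1 hXK hXG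
      (fun x hx => hXΩ _ (Or.inl rfl) x hx) (fun x hx => hXΩ _ (Or.inr rfl) x hx) hXI
  · intro t₀ ht₀ φ hφ w
    exact new_rel hpM hpS hA t₀ (fun x => hbound (p ^ m) x _ ht₀) hφ w _ (coe_bound t₀ e w)

end Aux

theorem exists_ordModule_new {S : Set ℕ} (hp2 : p ≠ 2) (hpM : Nat.Coprime p M)
    (hNS : ∀ q : ℕ, q.Prime → q ∣ M * p → q ∈ S) :
    ∃ e : ℕ, 0 < e ∧ ∀ {A : ValuationSubring Qb} (_ : A.LiesOverPrime p) (n : ℕ) (_ : n ≠ 0),
    ∃ Mod : OrdModule p (M * p) S A n, ∀ t₀ : awayPoly S,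
      CuspForm.heckeEvalForms M 2 (t₀ : HeckeAlg) = 0 → ∀ φ : Γℚ, A.IsFrobeniusAt φ p → ∀ w,
        Mod.r φ (Mod.r φ (Mod.act (e * awayEval (M * p) S t₀) w)) -
          Mod.act (e * awayEval (M * p) S t₀) w ∈ Mod.K := by
  letI : Algebra (AlgebraicClosure ℚ) ℂ :=
    (IsAlgClosed.lift : AlgebraicClosure ℚ →ₐ[ℚ] ℂ).toRingHom.toAlgebra
  have hpS := hNS p hp.out (dvd_mul_left p M)
  obtain ⟨e, he, hbound⟩ := exists_bound_torAct (N := M)
  refine ⟨e, he, fun {A} hA n hn => ?_⟩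
  exact exists_ordModule_new_aux hpM hpS hNS hA (geoOrd hp2 hpM hA)
    (esAt_of_geom esHyp hp.out (M * p)) hbound n hn

/-- the system attached to an `OrdModule` -/
def toSys {p N : ℕ} [NeZero N] (hp : p.Prime)
    {S : Finset ℕ} (hpS : p ∈ S) (hNS : ∀ q : ℕ, q.Prime → q ∣ N → q ∈ S)
    {T : Type} [CommRing T] [IsLocalRing T] (hpT : (p : T) ∈ IsLocalRing.maximalIdeal T)
    (ρ : GaloisRepAdic T)
    (π : CuspForm.heckeAlgebra N 2 (↑S : Set ℕ) →+* T)
    (hfrob : ∀ (ℓ : ℕ) (hℓ : ℓ.Prime) (hℓN : ¬ ℓ ∣ N) (hℓS : ℓ ∉ (↑S : Set ℕ)),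
      ∀ A : ValuationSubring (AlgebraicClosure ℚ), A.LiesOverPrime ℓ →
        ∀ σ : Γℚ, A.IsFrobeniusAt σ ℓ → LinearMap.charpoly (ρ.ρ σ) =
          X ^ 2 - C (π (CuspForm.heckeAlgebra.T hℓ hℓN hℓS)) * X + C ((ℓ : T)))
    {A : ValuationSubring Qb} {n : ℕ} (M : OrdModule p N (↑S : Set ℕ) A n) :
    OrdSys p n ρ π A :=
  mkSys hp hpS hNS ρ (RingHom.id _) π hfrob M.act M.r M.m M.K M.Ω M.tors M.finlev
    (fun t ht => by
      obtain ⟨s, rfl⟩ := M.faithful t ht
      rw [nsmul_eq_mul, map_mul, Nat.cast_pow, map_pow, map_natCast]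
      exact Ideal.mul_mem_right _ _ (Ideal.pow_mem_pow hpT n))
    M.es M.K1 M.K2 M.comm M.commΩ M.geo

end Fermat.Agent.Strict
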